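/-
S14 long shot, crossing brick (X4), algebraic part (helper3): Kummer independence.
* the norm trick: a natural number that is a `p`-th power in a number field of degree prime to
  `p` has all its valuations divisible by `p`;
* if `K ∋ ζ_p`, `b ∉ K^p` and `a b^j ∉ K^p` for all `j < p`, then `a` is not a `p`-th power in
  `K(b^{1/p})`.
-/
import Mathlib

set_option autoImplicit false
set_option linter.style.haveILetI false
set_option linter.unusedSectionVars false

open NumberField Polynomial

namespace Fermat.Agent.ExtVan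

namespace AuxPrime

universe u

/-- **The norm trick**: if a natural number `r ≠ 0` is a `p`-th power in a number field of degree
prime to `p`, then all its `q`-adic valuations are divisible by `p`. -/
lemma dvd_padicValNat_of_pow_eq {p : ℕ} (hp : p ≠ 0) {K : Type*} [Field K] [NumberField K]
    (hdeg : (Module.finrank ℚ K).Coprime p) {r : ℕ} (hr : r ≠ 0) (c : K) (h : c ^ p = (r : K))
    (q : ℕ) [Fact q.Prime] : p ∣ padicValNat q r := by
  set s : ℚ := Algebra.norm ℚ c with hs
  have h1 : s ^ p = (r : ℚ) ^ Module.finrank ℚ K := by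
    have h0 : (r : K) = algebraMap ℚ K (r : ℚ) := (map_natCast (algebraMap ℚ K) r).symm
    rw [hs, ← map_pow, h, h0, Algebra.norm_algebraMap]
  have hr' : (r : ℚ) ≠ 0 := Nat.cast_ne_zero.mpr hr
  have hc0 : c ≠ 0 := by
    rintro rfl
    rw [zero_pow hp] at h
    exact (Nat.cast_ne_zero.mpr hr) h.symm
  have hs0 : s ≠ 0 := Algebra.norm_ne_zero_iff.mpr hc0
  have h2 := congrArg (padicValRat q) h1
  rw [padicValRat.pow, padicValRat.pow, padicValRat.of_nat] at h2
  have h3 : (p : ℤ) ∣ (Module.finrank ℚ K : ℤ) * (padicValNat q r : ℤ) := ⟨_, h2.symm⟩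
  have h4 : p ∣ Module.finrank ℚ K * padicValNat q r := by exact_mod_cast h3
  exact (Nat.Coprime.dvd_of_dvd_mul_left hdeg.symm h4)

/-- **Kummer independence**: `K ∋ ζ_p`, `b` not a `p`-th power in `K`, and `a * b ^ j` not a
`p`-th power in `K` for all `j < p`. Then `a` is not a `p`-th power in `K(b^{1/p})`. -/
theorem pow_ne_of_kummer_indep {p : ℕ} (hp : p.Prime) {K : Type u} [Field K] {ζ : K}
    (hζ : IsPrimitiveRoot ζ p) {a b : K} (hb : ∀ c : K, c ^ p ≠ b)
    (hab : ∀ j < p, ∀ c : K, c ^ p ≠ a * b ^ j)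
    (F : Type*) [Field F] [Algebra K F] [IsSplittingField K F (X ^ p - C b)] (γ : F) :
    γ ^ p ≠ algebraMap K F a := by
  intro hγ
  haveI : NeZero p := ⟨hp.ne_zero⟩
  have H : Irreducible (X ^ p - C b) := X_pow_sub_C_irreducible_of_prime hp hb
  have hζ' : (primitiveRoots p K).Nonempty := ⟨ζ, (mem_primitiveRoots hp.pos).mpr hζ⟩
  haveI : IsGalois K F := isGalois_of_isSplittingField_X_pow_sub_C hζ' H F
  haveI : FiniteDimensional K F := Polynomial.IsSplittingField.finiteDimensional F (X ^ p - C b)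
  have ha0 : a ≠ 0 := by
    intro h0
    have := hab 0 hp.pos 0
    rw [zero_pow hp.ne_zero, h0, zero_mul] at this
    exact this rfl
  have hγ0 : γ ≠ 0 := by
    rintro rfl
    rw [zero_pow hp.ne_zero] at hγ
    exact ha0 ((algebraMap K F).injective (by rw [← hγ, map_zero]))
  set β : F := rootOfSplitsXPowSubC hp.pos b F with hβdef
  have hβ : β ^ p = algebraMap K F b := rootOfSplitsXPowSubC_pow b F
  set e := autEquivZmod H F hζ with he
  set τ : Gal(F/K) := e.symm (Multiplicative.ofAdd ((1 : ℕ) : ZMod p)) with hτ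
  have hτβ : τ β = algebraMap K F ζ * β := by
    have := autEquivZmod_symm_apply_natCast H F hβ hζ 1
    rw [pow_one, Algebra.smul_def] at this
    exact this
  -- `τ γ = ζ ^ i * γ`
  have hζF : IsPrimitiveRoot (algebraMap K F ζ) p := hζ.map_of_injective (algebraMap K F).injective
  have hquot : (τ γ / γ) ^ p = 1 := by
    rw [div_pow, ← map_pow, hγ, AlgEquiv.commutes, div_self]
    rw [← hγ]; exact pow_ne_zero _ hγ0
  obtain ⟨i, hi, hiγ⟩ := hζF.eq_pow_of_pow_eq_one hquot
  have hτγ : τ γ = algebraMap K F ζ ^ i * γ := by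
    rw [hiγ, div_mul_cancel₀ _ hγ0]
  -- the invariant element
  set j : ℕ := (p - i) % p with hj
  have hjp : j < p := Nat.mod_lt _ hp.pos
  have hij : p ∣ i + j := by
    rw [hj, Nat.dvd_iff_mod_eq_zero, Nat.add_mod_mod]
    have : i + (p - i) = p := by omega
    rw [this, Nat.mod_self]
  set δ : F := γ * β ^ j with hδ
  have hτδ : τ δ = δ := by
    rw [hδ, map_mul, map_pow, hτγ, hτβ, mul_pow]
    have h1 : algebraMap K F ζ ^ i * γ * (algebraMap K F ζ ^ j * β ^ j) =
        algebraMap K F ζ ^ (i + j) * (γ * β ^ j) := by ring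
    rw [h1]
    obtain ⟨k, hk⟩ := hij
    rw [hk, pow_mul, hζF.pow_eq_one, one_pow, one_mul]
  have hall : ∀ σ : Gal(F/K), σ δ = δ := by
    intro σ
    have hσ : σ = τ ^ (Multiplicative.toAdd (e σ)).val := by
      apply e.injective
      rw [map_pow, hτ, MulEquiv.apply_symm_apply, ← ofAdd_nsmul, nsmul_eq_mul,
        Nat.cast_one, mul_one, ZMod.natCast_zmod_val]
      rfl
    rw [hσ]
    generalize (Multiplicative.toAdd (e σ)).val = n
    induction n with
    | zero => simp
    | succ n ih => rw [pow_succ, AlgEquiv.mul_apply, hτδ, ih]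
  obtain ⟨c, hc⟩ := (IsGalois.mem_range_algebraMap_iff_fixed δ).mpr hall
  apply hab j hjp c
  apply (algebraMap K F).injective
  rw [map_pow, hc, hδ, mul_pow, hγ, map_mul, map_pow, ← hβ, ← pow_mul, ← pow_mul, mul_comm j p]

end AuxPrime

end Fermat.Agent.ExtVan
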