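/-
S14 long shot, crossing brick (X4) (helper3): THE AUXILIARY PRIME.  For distinct primes `q1 ≠ q2`,
exponents `f1, f2` prime to `p`, any `m`: arbitrarily large primes `l ≡ 1 mod p` with `q1 ^ f1` not
a `p`-th power mod `l` and `q2 ^ f2 * q1 ^ m` a `p`-th power mod `l`.
Proof: `K = ℚ(ζ_p)`, `F = K(b^{1/p})`, `F' = F(a^{1/p})` (Kummer independence), a degree-one prime of
`F` with non-trivial Frobenius in `F'/F` (`exists_degOne_prime_frob_ne_one`), residue field `𝔽_l`.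
-/
import Mathlib
import Fermat.Agent.ExtVan.DegOneFrob
import Fermat.Agent.ExtVan.ArtinFunct
import Fermat.Agent.ExtVan.SecondIneq.PrimeSum
import Fermat.Agent.ExtVan.Crossing.KummerIndep

set_option autoImplicit false
set_option linter.style.haveILetI false
set_option linter.unusedSectionVars false

open NumberField Polynomial IsDedekindDomain

namespace Fermat.Agent.ExtVan

namespace AuxPrime

/-- `η - 1 ∣ p` for a primitive `p`-th root of unity `η` in a domain. -/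
lemma sub_one_dvd_natCast_prime {R : Type*} [CommRing R] [IsDomain R] {p : ℕ} (hp : p.Prime)
    {η : R} (hη : IsPrimitiveRoot η p) : η - 1 ∣ (p : R) := by
  haveI : Fact p.Prime := ⟨hp⟩
  have h1 := Polynomial.sub_dvd_eval_sub η 1 (cyclotomic p R)
  rw [(hη.isRoot_cyclotomic hp.pos).eq_zero, eval_one_cyclotomic_prime, zero_sub, dvd_neg] at h1
  exact h1

lemma natCast_eq_natCast_of_modEq {R : Type*} [CommRing R] {l u v : ℕ} (hl : (l : R) = 0)
    (h : u ≡ v [MOD l]) : (u : R) = (v : R) := by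
  obtain ⟨k, hk⟩ := (Nat.modEq_iff_dvd.mp h)
  have h1 : ((v : ℤ) : R) - ((u : ℤ) : R) = ((l : ℤ) : R) * (k : R) := by
    rw [← Int.cast_sub, hk, Int.cast_mul]
  rw [Int.cast_natCast, Int.cast_natCast, Int.cast_natCast, hl, zero_mul, sub_eq_zero] at h1
  exact h1.symm

section Fields

variable {p : ℕ} (hp : p.Prime) {F F' : Type*} [Field F] [NumberField F] [Field F']
  [NumberField F'] [Algebra F F'] {ζ : F} (hζ : IsPrimitiveRoot ζ p) {a : ℕ}
  [IsSplittingField F F' (X ^ p - C (a : F))] (hirr : ∀ c : F, c ^ p ≠ (a : F))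

include hp hζ hirr in
/-- **Rigidity**: an automorphism of `F(a^{1/p})/F` congruent to the identity on `a^{1/p}`
modulo a prime not dividing `p * a` is trivial. -/
lemma eq_one_of_sub_mem {α : 𝓞 F'} (hα : α ^ p = (a : 𝓞 F')) (Q : Ideal (𝓞 F')) [Q.IsPrime]
    (hpQ : (p : 𝓞 F') ∉ Q) (haQ : (a : 𝓞 F') ∉ Q) (σ : Gal(F'/F)) (hσ : σ • α - α ∈ Q) :
    σ = 1 := by
  haveI : NeZero p := ⟨hp.ne_zero⟩
  have H : Irreducible (X ^ p - C (a : F)) := X_pow_sub_C_irreducible_of_prime hp hirr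
  have hζ' : (primitiveRoots p F).Nonempty := ⟨ζ, (mem_primitiveRoots hp.pos).mpr hζ⟩
  have hα' : (α : F') ^ p = algebraMap F F' (a : F) := by
    rw [map_natCast, ← map_pow, hα, map_natCast]
  have hα0 : (α : F') ≠ 0 := by
    intro h0
    rw [h0, zero_pow hp.ne_zero, map_natCast] at hα'
    apply hirr 0
    rw [zero_pow hp.ne_zero]
    exact_mod_cast (Nat.cast_injective (R := F') (by exact_mod_cast hα'))
  set η := autEquivRootsOfUnity hζ' H F' σ with hη
  have hηα : (η : Fˣ) • (α : F') = σ (α : F') := autEquivRootsOfUnity_smul hζ' H F' hα' σ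
  have hηp : ((η : Fˣ) : F) ^ p = 1 := by
    have := (mem_rootsOfUnity p (η : Fˣ)).mp η.2
    rw [← Units.val_pow_eq_pow_val, this, Units.val_one]
  obtain ⟨i, hi, hiη⟩ := hζ.eq_pow_of_pow_eq_one hηp
  by_cases hi0 : i = 0
  · -- `η = 1`
    have h1 : η = 1 := by
      apply Subtype.ext
      apply Units.ext
      rw [← hiη, hi0, pow_zero]; rfl
    rw [hη] at h1
    exact (MulEquiv.map_eq_one_iff _).mp h1
  · exfalso
    have hcop : i.Coprime p := by
      rw [Nat.coprime_comm, hp.coprime_iff_not_dvd]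
      exact Nat.not_dvd_of_pos_of_lt (Nat.pos_of_ne_zero hi0) hi
    set ζO : 𝓞 F := hζ.toInteger with hζO
    have hηO : IsPrimitiveRoot (ζO ^ i) p := hζ.toInteger_isPrimitiveRoot.pow_of_coprime i hcop
    have hdvd : ζO ^ i - 1 ∣ (p : 𝓞 F) := sub_one_dvd_natCast_prime hp hηO
    have hdvd' : algebraMap (𝓞 F) (𝓞 F') (ζO ^ i) - 1 ∣ (p : 𝓞 F') := by
      have := map_dvd (algebraMap (𝓞 F) (𝓞 F')) hdvd
      rwa [map_sub, map_one, map_natCast] at this
    have heq : σ • α - α = (algebraMap (𝓞 F) (𝓞 F') (ζO ^ i) - 1) * α := by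
      apply RingOfIntegers.ext
      show σ (α : F') - (α : F') = _
      rw [← hηα, Units.smul_def, Algebra.smul_def, ← hiη]
      have h2 : ((algebraMap (𝓞 F) (𝓞 F') (ζO ^ i) : 𝓞 F') : F') = algebraMap F F' (ζ ^ i) := by
        have h3 : ((ζO ^ i : 𝓞 F) : F) = ((ζO : 𝓞 F) : F) ^ i := map_pow (algebraMap (𝓞 F) F) ζO i
        have h5 : ((ζO : 𝓞 F) : F) = ζ := IsPrimitiveRoot.coe_toInteger hζ
        have : ((ζO ^ i : 𝓞 F) : F) = ζ ^ i := by
          rw [h3, h5]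
        rw [← this]
        rfl
      have h4 : (((algebraMap (𝓞 F) (𝓞 F') (ζO ^ i) - 1) * α : 𝓞 F') : F') =
          (((algebraMap (𝓞 F) (𝓞 F') (ζO ^ i) : 𝓞 F') : F') - 1) * (α : F') := by
        rw [RingOfIntegers.coe_eq_algebraMap, map_mul, map_sub, map_one]
      rw [h4, h2]
      ring
    rw [heq] at hσ
    rcases (Ideal.IsPrime.mem_or_mem inferInstance hσ) with h | h
    · exact hpQ (Ideal.mem_of_dvd Q hdvd' h)
    · exact haQ (hα ▸ Q.pow_mem_of_mem h p hp.pos)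


include hp hζ hirr in
/-- **The auxiliary prime, arithmetic core.** `F ∋ ζ_p` a number field containing a `p`-th root
`β` of `b`, `a` not a `p`-th power in `F`, `F' = F(a^{1/p})`: there are arbitrarily large primes
`l ≡ 1 mod p` with `a` not a `p`-th power mod `l` and `b` a `p`-th power mod `l`. -/
theorem exists_prime_of_fields {b : ℕ} {β : F} (hβ : β ^ p = (b : F))
    (hF : ∃ B : ℝ, ∀ s ∈ Set.Ioc (1 : ℝ) 2, Real.log (1 / (s - 1)) - B ≤
      ∑' q : HeightOneSpectrum (𝓞 F), (Ideal.absNorm q.asIdeal : ℝ) ^ (-s))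
    (hF' : ∃ B : ℝ, ∀ s ∈ Set.Ioc (1 : ℝ) 2,
      ∑' Q : HeightOneSpectrum (𝓞 F'), (Ideal.absNorm Q.asIdeal : ℝ) ^ (-s) ≤
        Real.log (1 / (s - 1)) + B) (N : ℕ) :
    ∃ l : ℕ, l.Prime ∧ N < l ∧ p ∣ l - 1 ∧ (¬ ∃ x : ZMod l, x ^ p = (a : ZMod l)) ∧
      ∃ y : ZMod l, y ^ p = (b : ZMod l) := by
  classical
  haveI : NeZero p := ⟨hp.ne_zero⟩
  have H : Irreducible (X ^ p - C (a : F)) := X_pow_sub_C_irreducible_of_prime hp hirr
  have hζ' : (primitiveRoots p F).Nonempty := ⟨ζ, (mem_primitiveRoots hp.pos).mpr hζ⟩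
  haveI hgal : IsGalois F F' := isGalois_of_isSplittingField_X_pow_sub_C hζ' H F'
  haveI hcyc : IsCyclic Gal(F'/F) := isCyclic_of_isSplittingField_X_pow_sub_C hζ' H F'
  haveI hab : IsAbelianGalois F F' :=
    { hgal with is_comm := ⟨fun x y => (IsCyclic.commGroup (α := Gal(F'/F))).mul_comm x y⟩ }
  have hdeg : Module.finrank F F' = p := finrank_of_isSplittingField_X_pow_sub_C hζ' H F'
  have ha0 : a ≠ 0 := by
    rintro rfl
    exact hirr 0 (by rw [zero_pow hp.ne_zero, Nat.cast_zero])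
  -- the root
  set α₀ : F' := rootOfSplitsXPowSubC hp.pos (a : F) F' with hα₀
  have hα₀p : α₀ ^ p = (a : F') := by
    have := rootOfSplitsXPowSubC_pow (a : F) F' (n := p)
    rwa [map_natCast] at this
  have hα₀int : IsIntegral ℤ α₀ := IsIntegral.of_pow hp.pos (hα₀p ▸ isIntegral_natCast a)
  set α : 𝓞 F' := ⟨α₀, hα₀int⟩ with hαdef
  have hα : α ^ p = (a : 𝓞 F') := by
    apply RingOfIntegers.ext
    have h1 : ((α ^ p : 𝓞 F') : F') = ((α : 𝓞 F') : F') ^ p := map_pow (algebraMap (𝓞 F') F') α p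
    have h2 : (((a : ℕ) : 𝓞 F') : F') = (a : F') := map_natCast (algebraMap (𝓞 F') F') a
    rw [h1, h2]
    exact hα₀p
  have hβint : IsIntegral ℤ β := IsIntegral.of_pow hp.pos (hβ ▸ isIntegral_natCast b)
  set βO : 𝓞 F := ⟨β, hβint⟩ with hβO
  have hβOp : βO ^ p = (b : 𝓞 F) := by
    apply RingOfIntegers.ext
    have h1 : ((βO ^ p : 𝓞 F) : F) = ((βO : 𝓞 F) : F) ^ p := map_pow (algebraMap (𝓞 F) F) βO p
    have h2 : (((b : ℕ) : 𝓞 F) : F) = (b : F) := map_natCast (algebraMap (𝓞 F) F) b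
    rw [h1, h2]
    exact hβ
  set ζO : 𝓞 F := hζ.toInteger with hζO
  have hζOp : IsPrimitiveRoot ζO p := hζ.toInteger_isPrimitiveRoot
  -- the finite set of bad primes
  have hpa0 : Ideal.span {((p * a : ℕ) : 𝓞 F)} ≠ 0 := by
    rw [Ne, Ideal.zero_eq_bot, Ideal.span_singleton_eq_bot]
    exact_mod_cast Nat.mul_ne_zero hp.ne_zero ha0
  have hfin1 := Ideal.finite_factors hpa0
  have hfin2 : {v : HeightOneSpectrum (𝓞 F) | Ideal.absNorm v.asIdeal ≤ N}.Finite := by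
    have h := Ideal.finite_setOfPred_absNorm_le (S := 𝓞 F) N
    refine Set.Finite.of_finite_image (f := HeightOneSpectrum.asIdeal) (h.subset ?_) ?_
    · rintro I ⟨v, hv, rfl⟩
      exact hv
    · intro v _ w _ hvw
      exact HeightOneSpectrum.ext hvw
  set S : Finset (HeightOneSpectrum (𝓞 F)) := hfin1.toFinset ∪ hfin2.toFinset with hS
  have hnotS : ∀ q ∉ S, ((p * a : ℕ) : 𝓞 F) ∉ q.asIdeal ∧ N < Ideal.absNorm q.asIdeal := by
    intro q hq
    rw [hS, Finset.mem_union, not_or, Set.Finite.mem_toFinset, Set.Finite.mem_toFinset] at hq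
    refine ⟨fun h => hq.1 (Ideal.dvd_span_singleton.mpr h), ?_⟩
    have := hq.2
    simp only [Set.mem_ofPred_eq, not_le] at this
    exact this
  -- consequences upstairs
  have hup : ∀ q ∉ S, ∀ Q : Ideal (𝓞 F'), Q.IsPrime → Q.LiesOver q.asIdeal →
      (p : 𝓞 F') ∉ Q ∧ (a : 𝓞 F') ∉ Q := by
    intro q hq Q hQ hQq
    have h1 := (hnotS q hq).1
    constructor
    · intro h
      apply h1
      rw [Nat.cast_mul]
      refine Ideal.mul_mem_right _ _ ?_
      rw [Ideal.mem_of_liesOver Q q.asIdeal, map_natCast]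
      exact h
    · intro h
      apply h1
      rw [Nat.cast_mul]
      refine Ideal.mul_mem_left _ _ ?_
      rw [Ideal.mem_of_liesOver Q q.asIdeal, map_natCast]
      exact h
  have hunr : ∀ q ∉ S, ∀ Q : Ideal (𝓞 F'), Q.IsPrime → Q.LiesOver q.asIdeal →
      Q.ramificationIdx (𝓞 F) = 1 := by
    intro q hq
    rw [← unramAt_iff_ramificationIdx]
    intro Q hQ hQq
    rw [eq_bot_iff]
    intro σ hσ
    rw [Subgroup.mem_bot]
    obtain ⟨h1, h2⟩ := hup q hq Q hQ hQq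
    exact eq_one_of_sub_mem hp hζ hirr hα Q h1 h2 σ (hσ α)
  obtain ⟨q, hqS, hqprime, hfrob⟩ := exists_degOne_prime_frob_ne_one (F := F) (L := F')
    (by rw [hdeg]; exact hp.two_le) hF hF' S hunr
  set l := Ideal.absNorm q.asIdeal with hl
  obtain ⟨hpaq, hNl⟩ := hnotS q hqS
  have hlq : (l : 𝓞 F) ∈ q.asIdeal := Ideal.absNorm_mem q.asIdeal
  have hlp : l ≠ p := by
    intro h
    apply hpaq
    rw [Nat.cast_mul, ← h]
    exact Ideal.mul_mem_right _ _ hlq
  -- the residue field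
  haveI hqmax : q.asIdeal.IsMaximal := q.isMaximal
  letI : Field (𝓞 F ⧸ q.asIdeal) := Ideal.Quotient.field q.asIdeal
  haveI : Finite (𝓞 F ⧸ q.asIdeal) := Ideal.finiteQuotientOfFreeOfNeBot q.asIdeal q.ne_bot
  letI : Fintype (𝓞 F ⧸ q.asIdeal) := Fintype.ofFinite _
  have hcard : Fintype.card (𝓞 F ⧸ q.asIdeal) = l := by
    rw [hl, Ideal.absNorm_apply, Submodule.cardQuot_apply, Nat.card_eq_fintype_card]
  haveI : Fact l.Prime := ⟨hqprime⟩
  set e : ZMod l ≃+* (𝓞 F ⧸ q.asIdeal) := ZMod.ringEquivOfPrime _ hqprime hcard with he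
  haveI : Fact p.Prime := ⟨hp⟩
  have hpl : p ∣ l - 1 := by
    have hpq : (p : 𝓞 F) ∉ q.asIdeal := by
      intro h
      apply hpaq
      rw [Nat.cast_mul]
      exact Ideal.mul_mem_right _ _ h
    have hpow : (Ideal.Quotient.mk q.asIdeal ζO) ^ p = 1 := by
      rw [← map_pow, hζOp.pow_eq_one, map_one]
    have hne : Ideal.Quotient.mk q.asIdeal ζO ≠ 1 := by
      intro h1
      have hmem : ζO - 1 ∈ q.asIdeal := by
        rw [← Ideal.Quotient.eq_zero_iff_mem, map_sub, h1, map_one, sub_self]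
      exact hpq (Ideal.mem_of_dvd _ (sub_one_dvd_natCast_prime hp hζOp) hmem)
    have hord : orderOf (Ideal.Quotient.mk q.asIdeal ζO) = p := orderOf_eq_prime hpow hne
    have hne0 : Ideal.Quotient.mk q.asIdeal ζO ≠ 0 := by
      intro h0
      rw [h0, zero_pow hp.ne_zero] at hpow
      exact zero_ne_one hpow
    have h2 := FiniteField.pow_card_sub_one_eq_one _ hne0
    rw [hcard] at h2
    rw [← hord]
    exact orderOf_dvd_of_pow_eq_one h2
  refine ⟨l, hqprime, hNl, hpl, ?_, ?_⟩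
  · -- `a` is not a `p`-th power
    rintro ⟨x, hx⟩
    apply hfrob
    set Q : Ideal (𝓞 F') := (primeAbove F F' q).1 with hQ
    obtain ⟨h1, h2⟩ := hup q hqS Q inferInstance inferInstance
    refine eq_one_of_sub_mem hp hζ hirr hα Q h1 h2 _ ?_
    have hfr := frob_smul_sub_pow_mem F F' q Q α
    have hlQ : (l : 𝓞 F') ∈ Q := by
      have := (Ideal.mem_of_liesOver Q q.asIdeal (l : 𝓞 F)).mp hlq
      rwa [map_natCast] at this
    have hlQ0 : ((l : ℕ) : 𝓞 F' ⧸ Q) = 0 := by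
      rw [← map_natCast (Ideal.Quotient.mk Q), Ideal.Quotient.eq_zero_iff_mem]
      exact hlQ
    -- `α ^ l ≡ α`
    have hx0 : x ≠ 0 := by
      rintro rfl
      rw [zero_pow hp.ne_zero] at hx
      have hdvd : l ∣ a := (ZMod.natCast_eq_zero_iff a l).mp hx.symm
      obtain ⟨k, hk⟩ := hdvd
      apply hpaq
      rw [hk]
      push_cast
      exact Ideal.mul_mem_left _ _ (Ideal.mul_mem_right _ _ hlq)
    have hx1 : x ^ (l - 1) = 1 := ZMod.pow_card_sub_one_eq_one hx0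
    set n := x.val with hn
    have hxn : ((n : ℕ) : ZMod l) = x := ZMod.natCast_zmod_val x
    have hmod1 : n ^ p ≡ a [MOD l] := by
      rw [← ZMod.natCast_eq_natCast_iff]
      push_cast
      rw [hxn, hx]
    have hmod2 : n ^ (l - 1) ≡ 1 [MOD l] := by
      rw [← ZMod.natCast_eq_natCast_iff]
      push_cast
      rw [hxn, hx1]
    obtain ⟨k, hk⟩ := hpl
    have hpowl : (Ideal.Quotient.mk Q α) ^ l = Ideal.Quotient.mk Q α := by
      have hl1 : l = (l - 1) + 1 := by have := hqprime.pos; omega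
      have e1 : (Ideal.Quotient.mk Q α) ^ p = ((n ^ p : ℕ) : 𝓞 F' ⧸ Q) := by
        rw [← map_pow, hα, map_natCast]
        exact (natCast_eq_natCast_of_modEq hlQ0 hmod1).symm
      have e2 : ((n ^ (l - 1) : ℕ) : 𝓞 F' ⧸ Q) = 1 := by
        rw [natCast_eq_natCast_of_modEq hlQ0 hmod2, Nat.cast_one]
      calc (Ideal.Quotient.mk Q α) ^ l = (Ideal.Quotient.mk Q α) ^ ((l - 1) + 1) := by rw [← hl1]
        _ = ((Ideal.Quotient.mk Q α) ^ p) ^ k * Ideal.Quotient.mk Q α := by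
            rw [pow_succ, hk, pow_mul]
        _ = ((n ^ (l - 1) : ℕ) : 𝓞 F' ⧸ Q) * Ideal.Quotient.mk Q α := by
            rw [e1, hk]; push_cast; rw [pow_mul]
        _ = Ideal.Quotient.mk Q α := by rw [e2, one_mul]
    have hmem2 : α ^ l - α ∈ Q := by
      rw [← Ideal.Quotient.eq_zero_iff_mem, map_sub, map_pow, hpowl, sub_self]
    have : frob F F' q • α - α = (frob F F' q • α - α ^ l) + (α ^ l - α) := by ring
    rw [this]
    exact Q.add_mem hfr hmem2
  · -- `b` is a `p`-th power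
    refine ⟨e.symm (Ideal.Quotient.mk q.asIdeal βO), ?_⟩
    rw [← map_pow, ← map_pow, hβOp, map_natCast, map_natCast]

end Fields

/-- (X4) over an arbitrary number field `K ∋ ζ_p` of degree prime to `p`. -/
theorem exists_aux_prime_of_field {p : ℕ} (hp : p.Prime)
    (hasym : ∀ (F : Type) [Field F] [NumberField F],
      (∃ B : ℝ, ∀ s ∈ Set.Ioc (1 : ℝ) 2, Real.log (1 / (s - 1)) - B ≤
        ∑' q : HeightOneSpectrum (𝓞 F), (Ideal.absNorm q.asIdeal : ℝ) ^ (-s)) ∧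
      (∃ B : ℝ, ∀ s ∈ Set.Ioc (1 : ℝ) 2,
        ∑' q : HeightOneSpectrum (𝓞 F), (Ideal.absNorm q.asIdeal : ℝ) ^ (-s) ≤
          Real.log (1 / (s - 1)) + B))
    (K : Type) [Field K] [NumberField K] (hdegK : (Module.finrank ℚ K).Coprime p) {ζ : K}
    (hζ : IsPrimitiveRoot ζ p)
    {q1 q2 : ℕ} (hq1 : q1.Prime) (hq2 : q2.Prime) (hne : q1 ≠ q2) {f1 f2 : ℕ}
    (hf1 : ¬ p ∣ f1) (hf2 : ¬ p ∣ f2) (m N : ℕ) :
    ∃ l : ℕ, l.Prime ∧ N < l ∧ p ∣ l - 1 ∧ (¬ ∃ x : ZMod l, x ^ p = (q1 : ZMod l) ^ f1) ∧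
      ∃ y : ZMod l, y ^ p = (q2 : ZMod l) ^ f2 * (q1 : ZMod l) ^ m := by
  haveI : Fact q1.Prime := ⟨hq1⟩
  haveI : Fact q2.Prime := ⟨hq2⟩
  haveI : NeZero p := ⟨hp.ne_zero⟩
  obtain ⟨a, ha⟩ : ∃ a : ℕ, a = q1 ^ f1 := ⟨_, rfl⟩
  obtain ⟨b, hb⟩ : ∃ b : ℕ, b = q2 ^ f2 * q1 ^ m := ⟨_, rfl⟩
  have ha0 : a ≠ 0 := ha ▸ pow_ne_zero _ hq1.ne_zero
  have hb0 : b ≠ 0 :=
    hb ▸ Nat.mul_ne_zero (pow_ne_zero _ hq2.ne_zero) (pow_ne_zero _ hq1.ne_zero)
  -- valuations
  have hv2b : padicValNat q2 b = f2 := by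
    rw [hb, padicValNat.mul (pow_ne_zero _ hq2.ne_zero) (pow_ne_zero _ hq1.ne_zero),
      padicValNat.pow, padicValNat.pow, padicValNat_self,
      padicValNat_primes (Ne.symm hne), mul_one, mul_zero, add_zero]
  have hv2a : padicValNat q2 a = 0 := by
    rw [ha, padicValNat.pow, padicValNat_primes (Ne.symm hne), mul_zero]
  have hv1a : padicValNat q1 a = f1 := by
    rw [ha, padicValNat.pow, padicValNat_self, mul_one]
  have hbK : ∀ c : K, c ^ p ≠ (b : K) := by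
    intro c hc
    have := dvd_padicValNat_of_pow_eq hp.ne_zero hdegK hb0 c hc q2
    rw [hv2b] at this
    exact hf2 this
  have habK : ∀ j < p, ∀ c : K, c ^ p ≠ (a : K) * (b : K) ^ j := by
    intro j hj c hc
    have hr0 : a * b ^ j ≠ 0 := Nat.mul_ne_zero ha0 (pow_ne_zero _ hb0)
    have hc' : c ^ p = ((a * b ^ j : ℕ) : K) := by rw [hc]; push_cast; rfl
    have h2 := dvd_padicValNat_of_pow_eq hp.ne_zero hdegK hr0 c hc' q2
    rw [padicValNat.mul ha0 (pow_ne_zero _ hb0), padicValNat.pow, hv2a, hv2b,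
      zero_add] at h2
    have hj0 : j = 0 := by
      rcases (Nat.Prime.dvd_mul hp).mp h2 with h | h
      · exact Nat.eq_zero_of_dvd_of_lt h hj
      · exact absurd h hf2
    have h1 := dvd_padicValNat_of_pow_eq hp.ne_zero hdegK hr0 c hc' q1
    rw [hj0, pow_zero, mul_one, hv1a] at h1
    exact hf1 h1
  -- the first Kummer extension
  let F := (X ^ p - C (b : K)).SplittingField
  haveI : NumberField F :=
    { to_charZero := inferInstance
      to_finiteDimensional := FiniteDimensional.trans ℚ K F }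
  have hζF : IsPrimitiveRoot (algebraMap K F ζ) p :=
    hζ.map_of_injective (algebraMap K F).injective
  have hirr : ∀ c : F, c ^ p ≠ (a : F) := by
    intro c hc
    refine pow_ne_of_kummer_indep hp hζ hbK habK F c ?_
    rw [hc]
    exact (map_natCast (algebraMap K F) a).symm
  set β : F := rootOfSplitsXPowSubC hp.pos (b : K) F with hβdef
  have hβ : β ^ p = (b : F) := by
    have := rootOfSplitsXPowSubC_pow (b : K) F (n := p)
    rw [this]
    exact map_natCast (algebraMap K F) b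
  -- the second Kummer extension
  let F' := (X ^ p - C (a : F)).SplittingField
  haveI : NumberField F' :=
    { to_charZero := inferInstance
      to_finiteDimensional := FiniteDimensional.trans ℚ F F' }
  obtain ⟨l, hl, hNl, hpl, hna, hbl⟩ := exists_prime_of_fields hp (F := F) (F' := F') hζF hirr hβ
    (hasym F).1 (hasym F').2 N
  refine ⟨l, hl, hNl, hpl, ?_, ?_⟩
  · rintro ⟨x, hx⟩
    exact hna ⟨x, by rw [hx, ha]; push_cast; rfl⟩
  · obtain ⟨y, hy⟩ := hbl
    exact ⟨y, by rw [hy, hb]; push_cast; rfl⟩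

end AuxPrime

open AuxPrime

/-- (X4), conditional on the prime-sum asymptotics of all number fields. -/
theorem exists_aux_prime_of_asymp {p : ℕ} [hpf : Fact p.Prime]
    (hasym : ∀ (F : Type) [Field F] [NumberField F],
      (∃ B : ℝ, ∀ s ∈ Set.Ioc (1 : ℝ) 2, Real.log (1 / (s - 1)) - B ≤
        ∑' q : HeightOneSpectrum (𝓞 F), (Ideal.absNorm q.asIdeal : ℝ) ^ (-s)) ∧
      (∃ B : ℝ, ∀ s ∈ Set.Ioc (1 : ℝ) 2,
        ∑' q : HeightOneSpectrum (𝓞 F), (Ideal.absNorm q.asIdeal : ℝ) ^ (-s) ≤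
          Real.log (1 / (s - 1)) + B))
    {q1 q2 : ℕ} (hq1 : q1.Prime) (hq2 : q2.Prime) (hne : q1 ≠ q2) {f1 f2 : ℕ}
    (hf1 : ¬ p ∣ f1) (hf2 : ¬ p ∣ f2) (m N : ℕ) :
    ∃ l : ℕ, l.Prime ∧ N < l ∧ p ∣ l - 1 ∧ (¬ ∃ x : ZMod l, x ^ p = (q1 : ZMod l) ^ f1) ∧
      ∃ y : ZMod l, y ^ p = (q2 : ZMod l) ^ f2 * (q1 : ZMod l) ^ m := by
  have hp := hpf.out
  haveI : NeZero p := ⟨hp.ne_zero⟩
  haveI : IsCyclotomicExtension {p} ℚ (CyclotomicField p ℚ) :=
    CyclotomicField.isCyclotomicExtension p ℚ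
  haveI : NumberField (CyclotomicField p ℚ) :=
    IsCyclotomicExtension.numberField {p} ℚ (CyclotomicField p ℚ)
  have hdegK : (Module.finrank ℚ (CyclotomicField p ℚ)).Coprime p := by
    rw [IsCyclotomicExtension.finrank (n := p) (CyclotomicField p ℚ)
      (cyclotomic.irreducible_rat hp.pos),
      Nat.totient_prime hp, Nat.coprime_comm, hp.coprime_iff_not_dvd]
    exact Nat.not_dvd_of_pos_of_lt (by have := hp.two_le; omega) (by have := hp.two_le; omega)
  exact exists_aux_prime_of_field hp hasym (CyclotomicField p ℚ) hdegK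
    (IsCyclotomicExtension.zeta_spec p ℚ (CyclotomicField p ℚ)) hq1 hq2 hne hf1 hf2 m N

/-- **(X4) The auxiliary prime** (unconditional): for distinct primes `q1 ≠ q2`, exponents
`f1, f2` prime to `p`, and any `m`, there are arbitrarily large primes `l ≡ 1 mod p` such that
`q1 ^ f1` is not a `p`-th power mod `l` while `q2 ^ f2 * q1 ^ m` is. -/
theorem exists_aux_prime {p : ℕ} [hpf : Fact p.Prime]
    {q1 q2 : ℕ} (hq1 : q1.Prime) (hq2 : q2.Prime) (hne : q1 ≠ q2) {f1 f2 : ℕ}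
    (hf1 : ¬ p ∣ f1) (hf2 : ¬ p ∣ f2) (m N : ℕ) :
    ∃ l : ℕ, l.Prime ∧ N < l ∧ p ∣ l - 1 ∧ (¬ ∃ x : ZMod l, x ^ p = (q1 : ZMod l) ^ f1) ∧
      ∃ y : ZMod l, y ^ p = (q2 : ZMod l) ^ f2 * (q1 : ZMod l) ^ m := by
  refine exists_aux_prime_of_asymp (fun F _ _ => ?_) hq1 hq2 hne hf1 hf2 m N
  obtain ⟨B, hB⟩ := SecondIneq.exists_bound_sum_primes F
  refine ⟨⟨B, fun s hs => ?_⟩, ⟨B, fun s hs => ?_⟩⟩
  · have := (abs_le.mp (hB s hs)).1
    linarith
  · have := (abs_le.mp (hB s hs)).2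
    linarith

end Fermat.Agent.ExtVan
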