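/-
S14 long shot, crossing: the choice of the auxiliary prime `l` for a pair of primes `q₁, q₂` of
`K = ℚ(ζ_p)` of distinct residue characteristics (helper9), from helper3's `exists_aux_prime`.
-/
import Fermat.Agent.ExtVan.Crossing.AuxPrime

set_option autoImplicit false
set_option linter.unusedSectionVars false
set_option linter.style.haveILetI false

open NumberField IsDedekindDomain

namespace Fermat.Agent.ExtVan.Crossing

open Fermat.Agent.ExtVan

section ChooseL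

variable {K : Type*} [Field K] [NumberField K]

/-- a prime ideal contains a rational prime dividing any natural number `≠ 1` it contains. -/
theorem exists_prime_dvd_natCast_mem (q : Ideal (𝓞 K)) [hq : q.IsPrime] :
    ∀ n : ℕ, n ≠ 0 → (n : 𝓞 K) ∈ q → ∃ r : ℕ, r.Prime ∧ r ∣ n ∧ (r : 𝓞 K) ∈ q := by
  intro n
  induction n using Nat.strong_induction_on with
  | _ n ih =>
    intro hn0 hmem
    have hn1 : n ≠ 1 := by
      rintro rfl
      apply hq.ne_top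
      rw [Ideal.eq_top_iff_one]
      simpa using hmem
    obtain ⟨m, hm⟩ := Nat.minFac_dvd n
    have hr : (Nat.minFac n).Prime := Nat.minFac_prime hn1
    have hmem' : ((Nat.minFac n : ℕ) : 𝓞 K) * ((m : ℕ) : 𝓞 K) ∈ q := by
      rw [← Nat.cast_mul, ← hm]
      exact hmem
    rcases hq.mem_or_mem hmem' with h | h
    · exact ⟨Nat.minFac n, hr, Nat.minFac_dvd n, h⟩
    · have hm0 : m ≠ 0 := by
        rintro rfl
        rw [mul_zero] at hm
        exact hn0 hm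
      have hlt : m < n := by
        rw [hm]
        have := hr.two_le
        nlinarith [Nat.pos_of_ne_zero hm0]
      obtain ⟨r, hr', hrm, hrq⟩ := ih m hlt hm0 h
      exact ⟨r, hr', hrm.trans (Dvd.intro_left (Nat.minFac n) hm.symm), hrq⟩

/-- the norm of a nonzero prime of `𝓞 K` is `r ^ f` with `r` the residue characteristic and
`1 ≤ f ≤ [K : ℚ]`. -/
theorem exists_absNorm_eq_prime_pow (q : HeightOneSpectrum (𝓞 K)) :
    ∃ r f : ℕ, r.Prime ∧ (r : 𝓞 K) ∈ q.asIdeal ∧ 1 ≤ f ∧ f ≤ Module.finrank ℚ K ∧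
      Ideal.absNorm q.asIdeal = r ^ f := by
  haveI := q.isPrime
  have hN0 : Ideal.absNorm q.asIdeal ≠ 0 := by
    rw [Ne, Ideal.absNorm_eq_zero_iff]; exact q.ne_bot
  obtain ⟨r, hr, -, hrq⟩ := exists_prime_dvd_natCast_mem q.asIdeal _ hN0
    (Ideal.absNorm_mem q.asIdeal)
  have hle : Ideal.span {(r : 𝓞 K)} ≤ q.asIdeal := by
    rw [Ideal.span_singleton_le_iff_mem]; exact hrq
  have hdvd : Ideal.absNorm q.asIdeal ∣ Ideal.absNorm (Ideal.span {(r : 𝓞 K)}) :=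
    Ideal.absNorm_dvd_absNorm_of_le hle
  have hnorm : Ideal.absNorm (Ideal.span {(r : 𝓞 K)}) = r ^ Module.finrank ℚ K := by
    rw [Ideal.absNorm_span_singleton]
    have h1 : ((r : ℕ) : 𝓞 K) = algebraMap ℤ (𝓞 K) (r : ℤ) := by simp
    rw [h1, Algebra.norm_algebraMap, RingOfIntegers.rank, Int.natAbs_pow, Int.natAbs_natCast]
  rw [hnorm] at hdvd
  obtain ⟨f, hf, hfeq⟩ := (Nat.dvd_prime_pow hr).mp hdvd
  refine ⟨r, f, hr, hrq, ?_, hf, hfeq⟩
  rcases Nat.eq_zero_or_pos f with rfl | h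
  · exfalso
    rw [pow_zero, Ideal.absNorm_eq_one_iff] at hfeq
    exact q.isPrime.ne_top hfeq
  · exact h

variable {p : ℕ} [hp : Fact p.Prime] [IsCyclotomicExtension {p} ℚ K]

/-- **Choice of the auxiliary prime** for the crossing. -/
theorem exists_aux_prime_of_pair (q₁ q₂ : HeightOneSpectrum (𝓞 K))
    (hD : ∀ r : ℕ, r.Prime → (r : 𝓞 K) ∈ q₁.asIdeal → (r : 𝓞 K) ∉ q₂.asIdeal) (k B : ℕ) :
    ∃ l : ℕ, l.Prime ∧ B < l ∧ p ∣ l - 1 ∧ ¬ l ∣ Ideal.absNorm q₁.asIdeal ∧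
      ¬ l ∣ Ideal.absNorm q₂.asIdeal ∧
      (¬ ∃ c : ZMod l, c ^ p = (Ideal.absNorm q₁.asIdeal : ZMod l)) ∧
      ∃ c : ZMod l, (Ideal.absNorm q₂.asIdeal : ZMod l) =
        (Ideal.absNorm q₁.asIdeal : ZMod l) ^ k * c ^ p := by
  have hpp : p.Prime := hp.out
  have hdegK : Module.finrank ℚ K = p - 1 := by
    rw [IsCyclotomicExtension.finrank (n := p) K (Polynomial.cyclotomic.irreducible_rat hpp.pos),
      Nat.totient_prime hpp]
  obtain ⟨r₁, f₁, hr₁, hr₁q, hf₁1, hf₁le, hN₁⟩ := exists_absNorm_eq_prime_pow q₁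
  obtain ⟨r₂, f₂, hr₂, hr₂q, hf₂1, hf₂le, hN₂⟩ := exists_absNorm_eq_prime_pow q₂
  have hne : r₁ ≠ r₂ := by
    rintro rfl
    exact hD r₁ hr₁ hr₁q hr₂q
  have hpf₁ : ¬ p ∣ f₁ := by
    intro h
    have := Nat.le_of_dvd (by omega) h
    have := hpp.two_le
    omega
  have hpf₂ : ¬ p ∣ f₂ := by
    intro h
    have := Nat.le_of_dvd (by omega) h
    have := hpp.two_le
    omega
  obtain ⟨l, hl, hBl, hpl, hnot, y, hy⟩ := exists_aux_prime (p := p) hr₁ hr₂ hne hpf₁ hpf₂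
    (f₁ * k * (p - 1)) (max B (max r₁ r₂))
  haveI : Fact l.Prime := ⟨hl⟩
  have hlr₁ : r₁ < l := lt_of_le_of_lt (le_trans (le_max_left _ _) (le_max_right _ _)) hBl
  have hlr₂ : r₂ < l := lt_of_le_of_lt (le_trans (le_max_right _ _) (le_max_right _ _)) hBl
  have hndvd : ∀ {r f : ℕ}, r.Prime → r < l → ¬ l ∣ r ^ f := by
    intro r f hr hrl h
    have h1 := hl.dvd_of_dvd_pow h
    have h2 := Nat.le_of_dvd hr.pos h1
    omega
  have hr₁0 : (r₁ : ZMod l) ≠ 0 := by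
    intro h0
    rw [ZMod.natCast_eq_zero_iff] at h0
    have := Nat.le_of_dvd hr₁.pos h0
    omega
  refine ⟨l, hl, lt_of_le_of_lt (le_max_left _ _) hBl, hpl, ?_, ?_, ?_, ?_⟩
  · rw [hN₁]; exact hndvd hr₁ hlr₁
  · rw [hN₂]; exact hndvd hr₂ hlr₂
  · rw [hN₁]
    push_cast
    exact hnot
  · rw [hN₁, hN₂]
    push_cast
    refine ⟨y * ((r₁ : ZMod l) ^ (f₁ * k))⁻¹, ?_⟩
    set A : ZMod l := (r₁ : ZMod l) ^ (f₁ * k) with hA
    have hu : A ≠ 0 := pow_ne_zero _ hr₁0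
    have hp1 : p - 1 + 1 = p := by have := hpp.pos; omega
    have hA1 : (r₁ : ZMod l) ^ (f₁ * k * (p - 1)) = A ^ (p - 1) := by rw [hA, ← pow_mul]
    have hApow : A * A ^ (p - 1) = A ^ p := by rw [← pow_succ', hp1]
    rw [mul_pow, hy, inv_pow, ← pow_mul (r₁ : ZMod l) f₁ k, ← hA, hA1]
    calc (r₂ : ZMod l) ^ f₂ = (r₂ : ZMod l) ^ f₂ * (A ^ p * (A ^ p)⁻¹) := by
          rw [mul_inv_cancel₀ (pow_ne_zero _ hu), mul_one]
      _ = A * ((r₂ : ZMod l) ^ f₂ * A ^ (p - 1) * (A ^ p)⁻¹) := by rw [← hApow]; ring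

end ChooseL

end Fermat.Agent.ExtVan.Crossing
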