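/-
S14 long shot, crossing helper lemma (helper1): in `ℚ(ζ_p)` every prime above a rational prime
`l ≡ 1 (mod p)` has absolute norm `l` (the hypothesis `hdeg` of `NormResidue.lean`).
-/
import Mathlib

set_option autoImplicit false
set_option linter.unusedSectionVars false

open NumberField

namespace Fermat.Agent.ExtVan

/-- A prime of `𝓞 K` containing the rational prime `l` lies over `(l)`. -/
theorem liesOver_span_of_natCast_mem {K : Type*} [Field K] [NumberField K] {l : ℕ} (hl : l.Prime)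
    (𝔩 : Ideal (𝓞 K)) [h𝔩 : 𝔩.IsPrime] (hmem : (l : 𝓞 K) ∈ 𝔩) :
    𝔩.LiesOver (Ideal.span {(l : ℤ)}) := by
  constructor
  have hmax : (Ideal.span {(l : ℤ)}).IsMaximal :=
    ((Ideal.span_singleton_prime (by exact_mod_cast hl.ne_zero)).2
      (Nat.prime_iff_prime_int.1 hl)).isMaximal (by simpa using hl.ne_zero)
  have hle : Ideal.span {(l : ℤ)} ≤ Ideal.under ℤ 𝔩 := by
    rw [Ideal.span_le, Set.singleton_subset_iff]
    show (l : ℤ) ∈ Ideal.comap (algebraMap ℤ (𝓞 K)) 𝔩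
    rw [Ideal.mem_comap]
    simpa using hmem
  have hne : Ideal.under ℤ 𝔩 ≠ ⊤ := by
    have : (Ideal.under ℤ 𝔩).IsPrime := Ideal.IsPrime.under ℤ 𝔩
    exact this.ne_top
  exact hmax.eq_of_le hne hle

/-- In the `p`-th cyclotomic field, a prime above `l ≡ 1 (mod p)` has absolute norm `l`. -/
theorem absNorm_eq_of_natCast_mem_of_dvd_sub_one {p : ℕ} [Fact p.Prime] {K : Type*} [Field K]
    [NumberField K] [IsCyclotomicExtension {p} ℚ K] {l : ℕ} (hl : l.Prime) (hlp : p ∣ l - 1)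
    (𝔩 : Ideal (𝓞 K)) [h𝔩 : 𝔩.IsPrime] (hmem : (l : 𝓞 K) ∈ 𝔩) : Ideal.absNorm 𝔩 = l := by
  have : Fact l.Prime := ⟨hl⟩
  have : NeZero p := ⟨(Fact.out : p.Prime).ne_zero⟩
  have := liesOver_span_of_natCast_mem hl 𝔩 hmem
  have hndvd : ¬ l ∣ p := by
    intro h
    have h1 : l = p := (Nat.prime_dvd_prime_iff_eq hl Fact.out).1 h
    have h2 : p ≤ l - 1 := Nat.le_of_dvd (by have := hl.two_le; omega) hlp
    have h3 := hl.two_le
    omega
  have hdeg := IsCyclotomicExtension.Rat.inertiaDeg_eq_of_not_dvd (m := p) l K 𝔩 hndvd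
  have hone : ((l : ℕ) : ZMod p) = 1 := by
    have h1 : ((l - 1 : ℕ) : ZMod p) = 0 := (ZMod.natCast_eq_zero_iff _ _).2 hlp
    have h2 : l = (l - 1) + 1 := by have := hl.one_lt; omega
    rw [h2, Nat.cast_add, h1, zero_add, Nat.cast_one]
  rw [hone, orderOf_one] at hdeg
  have hmax : 𝔩.IsMaximal := Ideal.IsMaximal.of_liesOver_isMaximal 𝔩 (Ideal.span {(l : ℤ)})
  have habs := Ideal.absNorm_eq_pow_inertiaDeg' 𝔩 hl
  rw [habs]
  have hmax' : (Ideal.span {(l : ℤ)}).IsMaximal :=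
    ((Ideal.span_singleton_prime (by exact_mod_cast hl.ne_zero)).2
      (Nat.prime_iff_prime_int.1 hl)).isMaximal (by simpa using hl.ne_zero)
  rw [Ideal.inertiaDeg'_eq_inertiaDeg (Ideal.span {(l : ℤ)}) 𝔩, hdeg, pow_one]

end Fermat.Agent.ExtVan
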