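/-
S14 long shot, crossing brick (E-A) (helper6): the cyclotomic side.  For an abelian extension
`N/K` of number fields containing a primitive `l`-th root of unity `ζ` (`l` prime):
the cyclotomic character `cycloChar : Gal(N/K) →* (ZMod l)ˣ`, its value on Artin symbols
(`= N(I) mod l`), the subgroup `powSubgroup` acting through `p`-th powers, its fixed field
`cycloSub` (the field `E`), and the description of the Frobenius / Artin symbol of `E/K`:
trivial iff the norm is a `p`-th power mod `l`.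
-/
import Fermat.Agent.ExtVan.ArtinCyclo

set_option autoImplicit false
set_option linter.unusedSectionVars false
set_option linter.style.haveILetI false

open NumberField IsDedekindDomain

namespace Fermat.Agent.ExtVan

open scoped Pointwise nonZeroDivisors

section CycloSide

variable {K N : Type*} [Field K] [Field N] [NumberField K] [NumberField N] [Algebra K N]
  [IsAbelianGalois K N] {l : ℕ} [hl : Fact l.Prime] {ζ : N} (hζ : IsPrimitiveRoot ζ l)

variable (K) in
/-- The cyclotomic character `Gal(N/K) →* (ZMod l)ˣ`, `g ζ = ζ ^ χ(g)`. -/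
noncomputable def cycloChar : Gal(N/K) →* (ZMod l)ˣ :=
  haveI : NeZero l := ⟨hl.out.ne_zero⟩
  hζ.autToPow K

lemma cycloChar_spec (g : Gal(N/K)) :
    g ζ = ζ ^ ((cycloChar K hζ g : (ZMod l)ˣ) : ZMod l).val := by
  haveI : NeZero l := ⟨hl.out.ne_zero⟩
  exact (hζ.autToPow_spec K g).symm

/-- If `g ζ = ζ ^ n` then `χ(g) = n` in `ZMod l`. -/
lemma coe_cycloChar_eq_of_apply_eq {g : Gal(N/K)} {n : ℕ} (h : g ζ = ζ ^ n) :
    ((cycloChar K hζ g : (ZMod l)ˣ) : ZMod l) = (n : ZMod l) := by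
  haveI : NeZero l := ⟨hl.out.ne_zero⟩
  have h1 := cycloChar_spec hζ g
  rw [h] at h1
  have h2 : ζ ^ n = ζ ^ (n % l) := by
    conv_lhs => rw [← Nat.div_add_mod n l, pow_add, pow_mul, hζ.pow_eq_one, one_pow, one_mul]
  rw [h2] at h1
  have h3 := hζ.pow_inj (Nat.mod_lt n hl.out.pos)
    (ZMod.val_lt ((cycloChar K hζ g : (ZMod l)ˣ) : ZMod l)) h1
  rw [← ZMod.natCast_zmod_val ((cycloChar K hζ g : (ZMod l)ˣ) : ZMod l), ← h3, ZMod.natCast_mod]

/-- **The cyclotomic character of an Artin symbol is the norm**. -/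
theorem coe_cycloChar_artinFun (I : Ideal (𝓞 K)) (hI : I ≠ 0)
    (hIl : Nat.Coprime l (Ideal.absNorm I)) :
    ((cycloChar K hζ (artinFun K N I) : (ZMod l)ˣ) : ZMod l) = (Ideal.absNorm I : ZMod l) :=
  coe_cycloChar_eq_of_apply_eq hζ (artinFun_apply_of_pow_eq_one K N I hI hζ.pow_eq_one hIl)

theorem coe_cycloChar_frob (q : HeightOneSpectrum (𝓞 K))
    (hql : Nat.Coprime l (Ideal.absNorm q.asIdeal)) :
    ((cycloChar K hζ (frob K N q) : (ZMod l)ˣ) : ZMod l) = (Ideal.absNorm q.asIdeal : ZMod l) :=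
  coe_cycloChar_eq_of_apply_eq hζ (frob_apply_of_pow_eq_one K N q hζ.pow_eq_one hql)

variable (p : ℕ)

variable (K) in
/-- The subgroup of `Gal(N/K)` acting on `ζ` through `p`-th powers of `(ZMod l)ˣ`. -/
noncomputable def powSubgroup : Subgroup Gal(N/K) :=
  ((powMonoidHom p : (ZMod l)ˣ →* (ZMod l)ˣ).range).comap (cycloChar K hζ)

lemma mem_powSubgroup_iff {g : Gal(N/K)} :
    g ∈ powSubgroup K hζ p ↔ ∃ c : (ZMod l)ˣ, c ^ p = cycloChar K hζ g := by
  rw [powSubgroup, Subgroup.mem_comap, MonoidHom.mem_range]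
  rfl

/-- Being a `p`-th power of a unit, or of an arbitrary element, is the same for a unit of
`ZMod l` (`p ≠ 0`). -/
lemma exists_unit_pow_eq_iff (hp : p ≠ 0) (u : (ZMod l)ˣ) :
    (∃ c : (ZMod l)ˣ, c ^ p = u) ↔ ∃ c : ZMod l, c ^ p = (u : ZMod l) := by
  constructor
  · rintro ⟨c, rfl⟩
    exact ⟨c, by push_cast; rfl⟩
  · rintro ⟨c, hc⟩
    have hc0 : c ≠ 0 := by
      rintro rfl
      rw [zero_pow hp] at hc
      exact u.ne_zero hc.symm
    refine ⟨Units.mk0 c hc0, ?_⟩
    ext
    push_cast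
    exact hc

theorem mem_powSubgroup_iff_of_apply_eq (hp : p ≠ 0) {g : Gal(N/K)} {n : ℕ} (h : g ζ = ζ ^ n) :
    g ∈ powSubgroup K hζ p ↔ ∃ c : ZMod l, c ^ p = (n : ZMod l) := by
  rw [mem_powSubgroup_iff, exists_unit_pow_eq_iff p hp, coe_cycloChar_eq_of_apply_eq hζ h]

/-- `Art(I)` acts through `p`-th powers iff `N(I)` is a `p`-th power mod `l`. -/
theorem artinFun_mem_powSubgroup_iff (hp : p ≠ 0) (I : Ideal (𝓞 K)) (hI : I ≠ 0)
    (hIl : Nat.Coprime l (Ideal.absNorm I)) :
    artinFun K N I ∈ powSubgroup K hζ p ↔ ∃ c : ZMod l, c ^ p = (Ideal.absNorm I : ZMod l) :=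
  mem_powSubgroup_iff_of_apply_eq hζ p hp
    (artinFun_apply_of_pow_eq_one K N I hI hζ.pow_eq_one hIl)

theorem frob_mem_powSubgroup_iff (hp : p ≠ 0) (q : HeightOneSpectrum (𝓞 K))
    (hql : Nat.Coprime l (Ideal.absNorm q.asIdeal)) :
    frob K N q ∈ powSubgroup K hζ p ↔ ∃ c : ZMod l, c ^ p = (Ideal.absNorm q.asIdeal : ZMod l) :=
  mem_powSubgroup_iff_of_apply_eq hζ p hp
    (frob_apply_of_pow_eq_one K N q hζ.pow_eq_one hql)

/-- The index of `powSubgroup` divides `gcd (l - 1) p`. -/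
theorem index_powSubgroup_dvd : (powSubgroup K hζ p).index ∣ Nat.gcd (l - 1) p := by
  haveI : NeZero l := ⟨hl.out.ne_zero⟩
  have h1 : (powSubgroup K hζ p).index =
      ((powMonoidHom p : (ZMod l)ˣ →* (ZMod l)ˣ).range).relIndex (cycloChar K hζ).range :=
    Subgroup.index_comap _ _
  have h2 : ((powMonoidHom p : (ZMod l)ˣ →* (ZMod l)ˣ).range).index = Nat.gcd (l - 1) p := by
    rw [IsCyclic.index_powMonoidHom_range, Nat.card_eq_fintype_card, ZMod.card_units_eq_totient,
      Nat.totient_prime hl.out]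
  rw [h1, ← h2]
  exact Subgroup.relIndex_dvd_index_of_normal _ _

theorem index_powSubgroup_dvd_prime : (powSubgroup K hζ p).index ∣ p :=
  (index_powSubgroup_dvd hζ p).trans (Nat.gcd_dvd_right _ _)

/-- If `p` is prime and some element does not act through a `p`-th power, the index is `p`. -/
theorem index_powSubgroup_eq (hp : p.Prime) {g : Gal(N/K)} (hg : g ∉ powSubgroup K hζ p) :
    (powSubgroup K hζ p).index = p := by
  rcases (Nat.dvd_prime hp).mp (index_powSubgroup_dvd_prime (K := K) hζ p) with h | h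
  · rw [Subgroup.index_eq_one] at h
    exact absurd (h ▸ Subgroup.mem_top g) hg
  · exact h

variable (K) in
/-- **The field `E`**: the fixed field of `powSubgroup` (inside `K(ζ) ⊆ N`). -/
noncomputable def cycloSub : IntermediateField K N :=
  IntermediateField.fixedField (powSubgroup K hζ p)

lemma fixingSubgroup_cycloSub : (cycloSub K hζ p).fixingSubgroup = powSubgroup K hζ p :=
  IntermediateField.fixingSubgroup_fixedField _

theorem finrank_cycloSub : Module.finrank K (cycloSub K hζ p) = (powSubgroup K hζ p).index := by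
  rw [IntermediateField.finrank_eq_fixingSubgroup_index, fixingSubgroup_cycloSub]

theorem finrank_cycloSub_eq (hp : p.Prime) {g : Gal(N/K)} (hg : g ∉ powSubgroup K hζ p) :
    Module.finrank K (cycloSub K hζ p) = p := by
  rw [finrank_cycloSub, index_powSubgroup_eq hζ p hp hg]

/-- `τ ∈ Gal(N/K)` restricts to the identity on `E` iff it acts through a `p`-th power. -/
theorem restrictNormalHom_cycloSub_eq_one_iff (τ : Gal(N/K)) :
    AlgEquiv.restrictNormalHom (cycloSub K hζ p) τ = 1 ↔ τ ∈ powSubgroup K hζ p := by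
  rw [restrictNormalHom_eq_one_iff, ← fixingSubgroup_cycloSub,
    IntermediateField.mem_fixingSubgroup_iff]
  constructor
  · intro h x hx
    exact h ⟨x, hx⟩
  · intro h e
    exact h e e.2

/-- **Frobenius of `E/K`**: for `q` unramified in `N` and prime to `l`, `Frob_{E/K}(q) = 1` iff
`N(q)` is a `p`-th power mod `l`. -/
theorem frob_cycloSub_eq_one_iff (hp : p ≠ 0) {q : HeightOneSpectrum (𝓞 K)} (hq : UnramAt K N q)
    (hql : Nat.Coprime l (Ideal.absNorm q.asIdeal)) :
    frob K (cycloSub K hζ p) q = 1 ↔ ∃ c : ZMod l, c ^ p = (Ideal.absNorm q.asIdeal : ZMod l) := by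
  rw [← restrictNormalHom_frob (E := cycloSub K hζ p) hq, restrictNormalHom_cycloSub_eq_one_iff,
    frob_mem_powSubgroup_iff hζ p hp q hql]

/-- **Artin symbol of `E/K`**: for `I` prime to `l` with all prime factors unramified in `N`,
`Art_{E/K}(I) = 1` iff `N(I)` is a `p`-th power mod `l`. -/
theorem artinFun_cycloSub_eq_one_iff (hp : p ≠ 0) (I : Ideal (𝓞 K)) (hI : I ≠ 0)
    (hunr : ∀ q : HeightOneSpectrum (𝓞 K), q.asIdeal ∣ I → UnramAt K N q)
    (hIl : Nat.Coprime l (Ideal.absNorm I)) :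
    artinFun K (cycloSub K hζ p) I = 1 ↔ ∃ c : ZMod l, c ^ p = (Ideal.absNorm I : ZMod l) := by
  rw [← restrictNormalHom_artinFun (E := cycloSub K hζ p) I hI hunr,
    restrictNormalHom_cycloSub_eq_one_iff, artinFun_mem_powSubgroup_iff hζ p hp I hI hIl]

end CycloSide

end Fermat.Agent.ExtVan
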