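/-
S14 long shot, crossing brick (T1)-(T4) (helper6): the cyclotomic tower `K ⊆ M ⊆ N = M(ζ_l)`.
For `M/K` abelian and `N` an `l`-th cyclotomic extension of `M`: `N/K` is Galois (T1), abelian
(T2), an element of `Gal(N/K)` trivial on `M` and on `ζ` is trivial (T3), and the cyclotomic
character of an Artin symbol is the norm mod `l` (T4).
-/
import Fermat.Agent.ExtVan.ArtinCyclo

set_option autoImplicit false
set_option linter.unusedSectionVars false
set_option linter.style.haveILetI false

open NumberField IsDedekindDomain Polynomial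

namespace Fermat.Agent.ExtVan

section CycloTower

variable {K M N : Type*} [Field K] [Field M] [Field N] [NumberField K] [NumberField M]
  [NumberField N] [Algebra K M] [Algebra M N] [Algebra K N] [IsScalarTower K M N]

/-- (T1) `N = M(ζ_l)` is Galois over `K` when `M/K` is. -/
theorem isGalois_cyclo_tower (M : Type*) [Field M] [NumberField M] [Algebra K M] [Algebra M N]
    [IsScalarTower K M N] (l : ℕ) [NeZero l] [IsCyclotomicExtension {l} M N] [IsGalois K M] :
    IsGalois K N := by
  obtain ⟨f, hfsep, hfsplit⟩ := IsGalois.is_separable_splitting_field K M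
  haveI := hfsplit
  have hf0 : f ≠ 0 := hfsep.ne_zero
  have hg0 : (X ^ l - 1 : K[X]) ≠ 0 := X_pow_sub_C_ne_zero (NeZero.pos l) (1 : K)
  haveI : IsSplittingField M N ((X ^ l - 1 : K[X]).map (algebraMap K M)) := by
    have : (X ^ l - 1 : K[X]).map (algebraMap K M) = (X ^ l - 1 : M[X]) := by
      simp
    rw [this]
    exact IsCyclotomicExtension.isSplittingField_X_pow_sub_one l M N
  haveI : IsSplittingField K N (f * (X ^ l - 1)) :=
    IsSplittingField.mul (K := M) N f (X ^ l - 1) hf0 hg0
  haveI : Normal K N := Normal.of_isSplittingField (f * (X ^ l - 1))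
  exact ⟨⟩

variable {l : ℕ} [NeZero l] [IsCyclotomicExtension {l} M N]

/-- Two automorphisms with the same action on `ζ` have the same cyclotomic character. -/
lemma autToPow_eq_of_apply_eq {R S : Type*} [CommRing R] [CommRing S] [Algebra R N] [Algebra S N]
    {ζ : N} (hζ : IsPrimitiveRoot ζ l) (g : N ≃ₐ[R] N) (h : N ≃ₐ[S] N) (hgh : g ζ = h ζ) :
    hζ.autToPow R g = hζ.autToPow S h := by
  have h1 := hζ.autToPow_spec R g
  have h2 := hζ.autToPow_spec S h
  rw [← hgh, ← h1] at h2
  have h3 := hζ.pow_inj (ZMod.val_lt _) (ZMod.val_lt _) h2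
  exact (Units.ext (ZMod.val_injective l h3)).symm

lemma autToPow_eq_one_iff {R : Type*} [CommRing R] [Algebra R N]
    {ζ : N} (hζ : IsPrimitiveRoot ζ l) (g : N ≃ₐ[R] N) :
    hζ.autToPow R g = 1 ↔ g ζ = ζ := by
  constructor
  · intro h
    have h1 := hζ.autToPow_spec R g
    rw [h] at h1
    by_cases hl1 : l = 1
    · subst hl1
      have : ζ = 1 := by simpa using hζ
      rw [this, map_one]
    · haveI : Fact (1 < l) := ⟨lt_of_le_of_ne (NeZero.pos l) (Ne.symm hl1)⟩
      rw [Units.val_one, ZMod.val_one, pow_one] at h1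
      exact h1.symm
  · intro h
    have h1 := autToPow_eq_of_apply_eq hζ g (1 : N ≃ₐ[R] N) (by rw [h]; rfl)
    rw [h1, map_one]

/-- (T3) An element of `Gal(N/K)` which is trivial on `M` and fixes `ζ` is trivial. -/
theorem eq_one_of_restrictNormalHom_eq_one_of_autToPow_eq_one [IsGalois K M] {ζ : N}
    (hζ : IsPrimitiveRoot ζ l) (g : Gal(N/K)) (hM : AlgEquiv.restrictNormalHom M g = 1)
    (hg : hζ.autToPow K g = 1) : g = 1 := by
  have hfix : ∀ m : M, g (algebraMap M N m) = algebraMap M N m := by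
    intro m
    have h1 := AlgEquiv.restrictNormal_commutes g M m
    have h2 : g.restrictNormal M = 1 := hM
    rw [h2] at h1
    exact h1.symm
  set g' : Gal(N/M) := { g.toRingEquiv with commutes' := hfix } with hg'
  have hgg' : ∀ x : N, g' x = g x := fun _ => rfl
  have h1 : hζ.autToPow M g' = 1 := by
    rw [← hg]
    exact autToPow_eq_of_apply_eq hζ g' g (hgg' ζ)
  have h2 : g' = 1 := hζ.autToPow_injective M (by rw [h1, map_one])
  ext x
  rw [← hgg' x, h2]
  rfl

/-- (T2) `N = M(ζ_l)` is abelian over `K` when `M/K` is. -/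
theorem isAbelianGalois_cyclo_tower (M : Type*) [Field M] [NumberField M] [Algebra K M]
    [Algebra M N] [IsScalarTower K M N] (l : ℕ) [NeZero l] [IsCyclotomicExtension {l} M N]
    [IsAbelianGalois K M] : IsAbelianGalois K N := by
  haveI : IsGalois K N := isGalois_cyclo_tower M l
  obtain ⟨ζ, hζ⟩ := IsCyclotomicExtension.exists_isPrimitiveRoot M N (Set.mem_singleton l)
    (NeZero.ne l)
  refine { is_comm := ⟨fun g h => ?_⟩ }
  have key : g * h * (h * g)⁻¹ = 1 := by
    apply eq_one_of_restrictNormalHom_eq_one_of_autToPow_eq_one (M := M) hζ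
    · rw [map_mul, map_mul, map_inv, map_mul]
      have hc : AlgEquiv.restrictNormalHom M g * AlgEquiv.restrictNormalHom M h =
          AlgEquiv.restrictNormalHom M h * AlgEquiv.restrictNormalHom M g :=
        IsMulCommutative.is_comm.comm _ _
      rw [hc, mul_inv_cancel]
    · rw [map_mul, map_mul, map_inv, map_mul, mul_comm (hζ.autToPow K h), mul_inv_cancel]
  exact mul_inv_eq_one.mp key

/-- (T4) The cyclotomic character of an Artin symbol is the norm mod `l`. -/
theorem coe_autToPow_artinFun [IsAbelianGalois K N] {ζ : N} (hζ : IsPrimitiveRoot ζ l)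
    (I : Ideal (𝓞 K)) (hI : I ≠ 0) (h : Nat.Coprime l (Ideal.absNorm I)) :
    ((hζ.autToPow K (artinFun K N I) : (ZMod l)ˣ) : ZMod l) = (Ideal.absNorm I : ZMod l) := by
  have h1 := artinFun_apply_of_pow_eq_one K N I hI hζ.pow_eq_one h
  have h2 := hζ.autToPow_spec K (artinFun K N I)
  rw [h1] at h2
  have h3 : ζ ^ Ideal.absNorm I = ζ ^ (Ideal.absNorm I % l) := by
    conv_lhs => rw [← Nat.div_add_mod (Ideal.absNorm I) l, pow_add, pow_mul, hζ.pow_eq_one,
      one_pow, one_mul]
  rw [h3] at h2
  have h4 := hζ.pow_inj (ZMod.val_lt _) (Nat.mod_lt _ (NeZero.pos l)) h2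
  rw [← ZMod.natCast_zmod_val ((hζ.autToPow K (artinFun K N I) : (ZMod l)ˣ) : ZMod l), h4,
    ZMod.natCast_mod]

/-- (T4), Frobenius version. -/
theorem coe_autToPow_frob [IsAbelianGalois K N] {ζ : N} (hζ : IsPrimitiveRoot ζ l)
    (q : HeightOneSpectrum (𝓞 K)) (h : Nat.Coprime l (Ideal.absNorm q.asIdeal)) :
    ((hζ.autToPow K (frob K N q) : (ZMod l)ˣ) : ZMod l) = (Ideal.absNorm q.asIdeal : ZMod l) := by
  rw [← artinFun_asIdeal]
  exact coe_autToPow_artinFun hζ q.asIdeal q.ne_bot h

end CycloTower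

end Fermat.Agent.ExtVan
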