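/-
S14 long shot, crossing (X2), ramification bookkeeping (helper4).

Towers of number fields `K ⊆ M ⊆ N` and `K ⊆ L ⊆ N`, on top of helper6's Artin API
(`UnramAt F L q` : all inertia groups of `Gal(L/F)` above `q` are trivial).

* (R1) `inertia_fixes_of_unramAt` : if `M/K` is unramified at `q`, every inertia group of `N/K` above
  `q` fixes `M` pointwise.
* (R2) `unramAt_top_of_unramAt` : if moreover `Gal(N/L) ∩ Gal(N/M) = 1`, then `N/L` is unramified at
  every prime of `L` above `q`.
* (R3) total ramification of `L/K` at `q` when `N/K` is ramified at `q`, `[N:M]` is prime.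
-/
import Fermat.Agent.ExtVan.ArtinFunct

set_option autoImplicit false
set_option linter.unusedSectionVars false
set_option linter.style.haveILetI false

open NumberField IsDedekindDomain

namespace Fermat.Agent.ExtVan

open scoped Pointwise nonZeroDivisors

section Restrict

variable {K M N : Type*} [Field K] [Field M] [Field N] [NumberField K] [NumberField M]
  [NumberField N] [Algebra K M] [Algebra M N] [Algebra K N] [IsScalarTower K M N]
  [IsGalois K N] [IsGalois K M]

/-- The restriction to `M` of the action of `σ ∈ Gal(N/K)` on integers. -/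
lemma algebraMap_restrictNormalHom_smul (σ : Gal(N/K)) (y : 𝓞 M) :
    algebraMap (𝓞 M) (𝓞 N) (AlgEquiv.restrictNormalHom M σ • y) =
      σ • algebraMap (𝓞 M) (𝓞 N) y := by
  apply RingOfIntegers.ext
  show algebraMap M N ((AlgEquiv.restrictNormalHom M σ) (y : M)) = σ (algebraMap M N (y : M))
  exact AlgEquiv.restrictNormal_commutes _ M _

/-- Restriction maps the inertia group of `Q` into the inertia group of the prime below. -/
theorem restrictNormalHom_mem_inertia (Q : Ideal (𝓞 N)) (Q' : Ideal (𝓞 M)) [Q.LiesOver Q']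
    {σ : Gal(N/K)} (hσ : σ ∈ Ideal.inertia Gal(N/K) Q) :
    AlgEquiv.restrictNormalHom M σ ∈ Ideal.inertia Gal(M/K) Q' := by
  intro y
  have hmem : ∀ z : 𝓞 M, z ∈ Q' ↔ algebraMap (𝓞 M) (𝓞 N) z ∈ Q := by
    intro z
    conv_lhs => rw [Q.over_def Q']
    rfl
  show AlgEquiv.restrictNormalHom M σ • y - y ∈ Q'
  rw [hmem, map_sub, algebraMap_restrictNormalHom_smul]
  exact hσ (algebraMap (𝓞 M) (𝓞 N) y)

/-- (R1) If `M/K` is unramified at `q`, then every element of an inertia group of `N/K` above `q`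
restricts to the identity of `M`. -/
theorem restrictNormalHom_eq_one_of_mem_inertia {q : HeightOneSpectrum (𝓞 K)} (hq : UnramAt K M q)
    (Q : Ideal (𝓞 N)) [Q.IsPrime] [Q.LiesOver q.asIdeal] {σ : Gal(N/K)}
    (hσ : σ ∈ Ideal.inertia Gal(N/K) Q) : AlgEquiv.restrictNormalHom M σ = 1 := by
  set Q' : Ideal (𝓞 M) := Q.under (𝓞 M) with hQ'
  haveI : Q.LiesOver Q' := ⟨rfl⟩
  haveI : Q'.IsPrime := Ideal.IsPrime.under (𝓞 M) Q
  haveI : Q'.LiesOver q.asIdeal := by
    constructor
    rw [hQ', Ideal.under_under]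
    exact Q.over_def q.asIdeal
  have h1 := restrictNormalHom_mem_inertia (K := K) Q Q' hσ
  rw [hq Q' inferInstance inferInstance, Subgroup.mem_bot] at h1
  exact h1

/-- (R1) If `M/K` is unramified at `q`, then every element of an inertia group of `N/K` above `q`
fixes `M` pointwise. -/
theorem inertia_fixes_of_unramAt {q : HeightOneSpectrum (𝓞 K)} (hq : UnramAt K M q)
    (Q : Ideal (𝓞 N)) [Q.IsPrime] [Q.LiesOver q.asIdeal] {σ : Gal(N/K)}
    (hσ : σ ∈ Ideal.inertia Gal(N/K) Q) (m : M) : σ (algebraMap M N m) = algebraMap M N m := by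
  have h := restrictNormalHom_eq_one_of_mem_inertia hq Q hσ
  have h1 := AlgEquiv.restrictNormal_commutes σ M m
  have h2 : σ.restrictNormal M = 1 := h
  rw [h2] at h1
  exact h1.symm

end Restrict

section Cross

variable {K M L N : Type*} [Field K] [Field M] [Field L] [Field N] [NumberField K] [NumberField M]
  [NumberField L] [NumberField N] [Algebra K M] [Algebra M N] [Algebra K N] [IsScalarTower K M N]
  [Algebra K L] [Algebra L N] [IsScalarTower K L N]
  [IsGalois K N] [IsGalois K M] [IsGalois L N]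

/-- The inertia group of `Q` in `Gal(N/L)` sits inside the inertia group of `Q` in `Gal(N/K)`. -/
theorem restrictScalars_mem_inertia (Q : Ideal (𝓞 N)) {τ : Gal(N/L)}
    (hτ : τ ∈ Ideal.inertia Gal(N/L) Q) : τ.restrictScalars K ∈ Ideal.inertia Gal(N/K) Q := by
  intro x
  exact hτ x

/-- If `N/K` is unramified at `q`, then `N/L` is unramified at every prime of `L` above `q`
(no commutativity needed). -/
theorem unramAt_top_of_unramAt_bot {q : HeightOneSpectrum (𝓞 K)} (hq : UnramAt K N q)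
    (QL : HeightOneSpectrum (𝓞 L)) [QL.asIdeal.LiesOver q.asIdeal] : UnramAt L N QL := by
  intro Q hQ hQQL
  haveI : Q.LiesOver q.asIdeal := Ideal.LiesOver.trans Q QL.asIdeal q.asIdeal
  rw [Subgroup.eq_bot_iff_forall]
  intro τ hτ
  have h1 := restrictScalars_mem_inertia (K := K) Q hτ
  rw [hq Q inferInstance inferInstance, Subgroup.mem_bot] at h1
  ext x
  exact DFunLike.congr_fun h1 x

/-- (R2) If `M/K` is unramified at `q` and `Gal(N/L) ∩ Gal(N/M) = 1`, then `N/L` is unramified at
every prime of `L` above `q`. -/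
theorem unramAt_top_of_unramAt {q : HeightOneSpectrum (𝓞 K)} (hq : UnramAt K M q)
    (hML : ∀ τ : Gal(N/L), (∀ m : M, τ (algebraMap M N m) = algebraMap M N m) → τ = 1)
    (QL : HeightOneSpectrum (𝓞 L)) [QL.asIdeal.LiesOver q.asIdeal] : UnramAt L N QL := by
  intro Q hQ hQQL
  haveI : Q.LiesOver q.asIdeal := Ideal.LiesOver.trans Q QL.asIdeal q.asIdeal
  rw [Subgroup.eq_bot_iff_forall]
  intro τ hτ
  apply hML
  intro m
  exact inertia_fixes_of_unramAt hq Q (restrictScalars_mem_inertia (K := K) Q hτ) m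

/-- The prime of `𝓞 K` below a prime of `𝓞 L`, as an element of the height one spectrum. -/
noncomputable def belowPrime (QL : HeightOneSpectrum (𝓞 L)) : HeightOneSpectrum (𝓞 K) :=
  ⟨QL.asIdeal.under (𝓞 K), Ideal.IsPrime.under (𝓞 K) QL.asIdeal,
    mt Ideal.eq_bot_of_comap_eq_bot QL.ne_bot⟩

instance (QL : HeightOneSpectrum (𝓞 L)) : QL.asIdeal.LiesOver (belowPrime (K := K) QL).asIdeal :=
  ⟨rfl⟩

/-- (R2), global form: if `M/K` is unramified everywhere and `Gal(N/L) ∩ Gal(N/M) = 1`, then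
`N/L` is unramified everywhere. -/
theorem unramAt_top_of_forall_unramAt (hM : ∀ q : HeightOneSpectrum (𝓞 K), UnramAt K M q)
    (hML : ∀ τ : Gal(N/L), (∀ m : M, τ (algebraMap M N m) = algebraMap M N m) → τ = 1)
    (QL : HeightOneSpectrum (𝓞 L)) : UnramAt L N QL :=
  unramAt_top_of_unramAt (hM (belowPrime (K := K) QL)) hML QL

/-- (R4) If `M/K` and `E/K` are unramified at `q` and `N = M E` (no nontrivial element of
`Gal(N/K)` fixes both `M` and `E`), then `N/K` is unramified at `q`.  (Here `L` plays the role of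
the second field `E`; `L/K` must be Galois.) -/
theorem unramAt_of_unramAt_of_unramAt [IsGalois K L] {q : HeightOneSpectrum (𝓞 K)}
    (hM : UnramAt K M q) (hL : UnramAt K L q)
    (hML : ∀ σ : Gal(N/K), (∀ m : M, σ (algebraMap M N m) = algebraMap M N m) →
      (∀ e : L, σ (algebraMap L N e) = algebraMap L N e) → σ = 1) : UnramAt K N q := by
  intro Q hQ hQq
  rw [Subgroup.eq_bot_iff_forall]
  intro σ hσ
  exact hML σ (inertia_fixes_of_unramAt hM Q hσ) (inertia_fixes_of_unramAt hL Q hσ)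

end Cross

section TotRam

variable {K M L N : Type*} [Field K] [Field M] [Field L] [Field N] [NumberField K] [NumberField M]
  [NumberField L] [NumberField N] [Algebra K M] [Algebra M N] [Algebra K N] [IsScalarTower K M N]
  [Algebra K L] [Algebra L N] [IsScalarTower K L N]
  [IsGalois K N] [IsGalois K M] [IsGalois L N]

/-- (R3-i) If `M/K` is unramified at `q`, `N/K` is ramified at `q` and `[N:M] = p` is prime, then
every prime of `N` above `q` has ramification index `p` over `K`. -/
theorem ramificationIdx_eq_of_not_unramAt {p : ℕ} (hp : p.Prime) (hNM : Module.finrank M N = p)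
    {q : HeightOneSpectrum (𝓞 K)} (hqM : UnramAt K M q) (hqN : ¬ UnramAt K N q)
    (Q : Ideal (𝓞 N)) [Q.IsPrime] [Q.LiesOver q.asIdeal] : Q.ramificationIdx (𝓞 K) = p := by
  haveI : IsGalois M N := IsGalois.tower_top_of_isGalois K M N
  -- the ramification index over `K` is not one
  have hne : Q.ramificationIdx (𝓞 K) ≠ 1 := by
    intro h1
    apply hqN
    rw [unramAt_iff_ramificationIdx]
    intro Q₀ hQ₀ hQ₀q
    rw [Ideal.ramificationIdx_eq_of_isGaloisGroup q.asIdeal Q₀ Q Gal(N/K)]
    exact h1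
  -- the prime of `M` below `Q`
  set Q' : Ideal (𝓞 M) := Q.under (𝓞 M) with hQ'
  haveI : Q.LiesOver Q' := ⟨rfl⟩
  haveI : Q'.IsPrime := Ideal.IsPrime.under (𝓞 M) Q
  haveI : Q'.LiesOver q.asIdeal := by
    constructor
    rw [hQ', Ideal.under_under]
    exact Q.over_def q.asIdeal
  have h1 : Q'.ramificationIdx (𝓞 K) = 1 := hqM.ramificationIdx_eq_one Q'
  have h2 := Ideal.ramificationIdx_tower (R := 𝓞 K) Q' Q
  rw [h1, one_mul] at h2
  -- the ramification index over `M` divides `p`
  have h3 := Ideal.ncard_primesOver_mul_ramificationIdxIn_mul_inertiaDegIn Q' (𝓞 N) Gal(N/M)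
  rw [Ideal.ramificationIdxIn_eq_ramificationIdx Q' Q Gal(N/M), IsGalois.card_aut_eq_finrank,
    hNM] at h3
  have h4 : Q.ramificationIdx (𝓞 M) ∣ p := ⟨(Q'.primesOver (𝓞 N)).ncard * Q'.inertiaDegIn (𝓞 N), by
    rw [← h3]; ring⟩
  rcases (Nat.dvd_prime hp).mp h4 with h5 | h5
  · exact absurd (h2.trans h5) hne
  · exact h2.trans h5

/-- (R3-ii) If moreover `Gal(N/L) ∩ Gal(N/M) = 1`, then every prime of `L` above `q` has
ramification index `p` over `K`. -/
theorem ramificationIdx_eq_of_not_unramAt' {p : ℕ} (hp : p.Prime) (hNM : Module.finrank M N = p)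
    {q : HeightOneSpectrum (𝓞 K)} (hqM : UnramAt K M q) (hqN : ¬ UnramAt K N q)
    (hML : ∀ τ : Gal(N/L), (∀ m : M, τ (algebraMap M N m) = algebraMap M N m) → τ = 1)
    (QL : Ideal (𝓞 L)) [QL.IsPrime] [QL.LiesOver q.asIdeal] : QL.ramificationIdx (𝓞 K) = p := by
  obtain ⟨⟨Q, hQ, hQQL⟩⟩ := Ideal.nonempty_primesOver (S := 𝓞 N) QL
  haveI : Q.LiesOver q.asIdeal := Ideal.LiesOver.trans Q QL q.asIdeal
  have h1 := ramificationIdx_eq_of_not_unramAt hp hNM hqM hqN Q
  have hQL0 : QL ≠ ⊥ := Ideal.ne_bot_of_liesOver_of_ne_bot q.ne_bot QL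
  have h2 : UnramAt L N ⟨QL, inferInstance, hQL0⟩ :=
    unramAt_top_of_unramAt (QL := ⟨QL, inferInstance, hQL0⟩) hqM hML
  have h3 : Q.ramificationIdx (𝓞 L) = 1 :=
    UnramAt.ramificationIdx_eq_one (q := ⟨QL, inferInstance, hQL0⟩) h2 Q
  have h4 := Ideal.ramificationIdx_tower (R := 𝓞 K) QL Q
  rw [h3, mul_one, h1] at h4
  exact h4.symm

/-- In a Galois extension, a prime whose ramification index is the degree has the whole Galois
group as inertia group. -/
theorem inertia_eq_top_of_ramificationIdx_eq_finrank [IsGalois K L] {q : HeightOneSpectrum (𝓞 K)}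
    (QL : Ideal (𝓞 L)) [QL.IsPrime] [QL.LiesOver q.asIdeal]
    (h : QL.ramificationIdx (𝓞 K) = Module.finrank K L) : Ideal.inertia Gal(L/K) QL = ⊤ := by
  have h1 := Ideal.card_inertia_eq_ramificationIdxIn (G := Gal(L/K)) q.asIdeal QL
  rw [Ideal.ramificationIdxIn_eq_ramificationIdx q.asIdeal QL Gal(L/K), h,
    ← IsGalois.card_aut_eq_finrank] at h1
  exact Subgroup.eq_top_of_card_eq _ h1

/-- (R3) `L/K` is totally ramified at `q`: if `M/K` is unramified at `q`, `N/K` is ramified at `q`,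
`[N:M] = [L:K] = p` is prime and `Gal(N/L) ∩ Gal(N/M) = 1`, then every prime of `L` above `q` has
inertia group `Gal(L/K)`. -/
theorem inertia_eq_top_of_not_unramAt [IsGalois K L] {p : ℕ} (hp : p.Prime)
    (hNM : Module.finrank M N = p) (hLK : Module.finrank K L = p)
    {q : HeightOneSpectrum (𝓞 K)} (hqM : UnramAt K M q) (hqN : ¬ UnramAt K N q)
    (hML : ∀ τ : Gal(N/L), (∀ m : M, τ (algebraMap M N m) = algebraMap M N m) → τ = 1)
    (QL : Ideal (𝓞 L)) [QL.IsPrime] [QL.LiesOver q.asIdeal] : Ideal.inertia Gal(L/K) QL = ⊤ :=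
  inertia_eq_top_of_ramificationIdx_eq_finrank (q := q) QL
    ((ramificationIdx_eq_of_not_unramAt' hp hNM hqM hqN hML QL).trans hLK.symm)

end TotRam

section Shapes

variable {K M L N : Type*} [Field K] [Field M] [Field L] [Field N] [NumberField K] [NumberField M]
  [NumberField L] [NumberField N] [Algebra K M] [Algebra M N] [Algebra K N] [IsScalarTower K M N]
  [Algebra K L] [Algebra L N] [IsScalarTower K L N]
  [IsGalois K N] [IsGalois K M] [IsGalois L N]

/-- (R2), global form, with the injectivity hypothesis phrased through `restrictNormalHom`. -/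
theorem unramAt_top_of_forall_unramAt' (hM : ∀ q : HeightOneSpectrum (𝓞 K), UnramAt K M q)
    (hinj : ∀ g : Gal(N/L), AlgEquiv.restrictNormalHom M (g.restrictScalars K) = 1 → g = 1)
    (QL : HeightOneSpectrum (𝓞 L)) : UnramAt L N QL := by
  intro Q hQ hQQL
  haveI : Q.LiesOver (belowPrime (K := K) QL).asIdeal :=
    Ideal.LiesOver.trans Q QL.asIdeal (belowPrime (K := K) QL).asIdeal
  rw [Subgroup.eq_bot_iff_forall]
  intro τ hτ
  exact hinj τ (restrictNormalHom_eq_one_of_mem_inertia (hM (belowPrime (K := K) QL)) Q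
    (restrictScalars_mem_inertia (K := K) Q hτ))

end Shapes

section RootsOfUnity

/-- Two powers of a primitive `l`-th root of unity which are congruent modulo a prime ideal not
containing `l` are equal. -/
theorem pow_eq_pow_of_sub_mem {R : Type*} [CommRing R] [IsDomain R] {l : ℕ} [NeZero l] {ζ : R}
    (hζ : IsPrimitiveRoot ζ l) (Q : Ideal R) [Q.IsPrime] (hl : (l : R) ∉ Q) {a b : ℕ}
    (h : ζ ^ a - ζ ^ b ∈ Q) : ζ ^ a = ζ ^ b := by
  wlog hab : b ≤ a generalizing a b
  · exact (this (by rw [← neg_sub]; exact Q.neg_mem h) (le_of_not_ge hab)).symm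
  have hl0 : l ≠ 0 := NeZero.ne l
  obtain ⟨c, rfl⟩ := Nat.exists_eq_add_of_le hab
  have h1 : ζ ^ (b + c) - ζ ^ b = ζ ^ b * (ζ ^ c - 1) := by ring
  rw [h1] at h
  have hunit : IsUnit (ζ ^ b) := (hζ.isUnit hl0).pow b
  have h2 : ζ ^ c - 1 ∈ Q := by
    rcases (Ideal.IsPrime.mem_or_mem inferInstance h) with h3 | h3
    · exact absurd (Q.eq_top_of_isUnit_mem h3 hunit) (Ideal.IsPrime.ne_top inferInstance)
    · exact h3
  -- reduce the exponent modulo `l`
  have h3 : ζ ^ c = ζ ^ (c % l) := by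
    conv_lhs => rw [← Nat.div_add_mod c l, pow_add, pow_mul, hζ.pow_eq_one, one_pow, one_mul]
  by_cases hc : c % l = 0
  · rw [pow_add, h3, hc, pow_zero, mul_one]
  · exfalso
    apply hl
    obtain ⟨l', rfl⟩ : ∃ l', l = l' + 1 := ⟨l - 1, by omega⟩
    have hprod := hζ.prod_one_sub_pow_eq_order
    have hlt : c % (l' + 1) < l' + 1 := Nat.mod_lt _ (Nat.succ_pos _)
    have hmem : c % (l' + 1) - 1 ∈ Finset.range l' := by
      rw [Finset.mem_range]; omega
    have hfac : (1 - ζ ^ (c % (l' + 1) - 1 + 1)) ∈ Q := by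
      have : c % (l' + 1) - 1 + 1 = c % (l' + 1) := by omega
      rw [this, ← h3, ← neg_sub]
      exact Q.neg_mem h2
    have : (∏ k ∈ Finset.range l', (1 - ζ ^ (k + 1))) ∈ Q :=
      Ideal.mem_of_dvd _ (Finset.dvd_prod_of_mem _ hmem) hfac
    rw [hprod] at this
    exact_mod_cast this

end RootsOfUnity

section Cyclo

variable {K M N : Type*} [Field K] [Field M] [Field N] [NumberField K] [NumberField M]
  [NumberField N] [Algebra K M] [Algebra M N] [Algebra K N] [IsScalarTower K M N]
  [IsGalois K N] [IsGalois K M]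

/-- An element of the inertia group at a prime not containing `l` fixes the `l`-th roots of
unity. -/
theorem autToPow_eq_one_of_mem_inertia {l : ℕ} [NeZero l] {ζ : N} (hζ : IsPrimitiveRoot ζ l)
    (Q : Ideal (𝓞 N)) [Q.IsPrime] (hl : (l : 𝓞 N) ∉ Q) {g : Gal(N/K)}
    (hg : g ∈ Ideal.inertia Gal(N/K) Q) : hζ.autToPow K g = 1 := by
  have hζ' : IsPrimitiveRoot hζ.toInteger l := hζ.toInteger_isPrimitiveRoot
  have h1 : g • hζ.toInteger = hζ.toInteger ^ (hζ.autToPow K g : ZMod l).val := by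
    apply RingOfIntegers.ext
    show g ζ = (hζ.toInteger ^ (hζ.autToPow K g : ZMod l).val : 𝓞 N)
    rw [← hζ.autToPow_spec K g]
    rfl
  have h2 := hg hζ.toInteger
  have h2' : g • hζ.toInteger - hζ.toInteger ∈ Q := h2
  rw [h1] at h2'
  have h3 : hζ.toInteger ^ (hζ.autToPow K g : ZMod l).val - hζ.toInteger ^ 1 ∈ Q := by
    rwa [pow_one]
  have h4 := pow_eq_pow_of_sub_mem hζ' Q hl h3
  -- hence the exponent is `1`
  by_cases hl1 : l = 1
  · subst hl1
    exact Subsingleton.elim _ _
  have hl2 : 1 < l := by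
    have := NeZero.ne l
    omega
  have h5 : (hζ.autToPow K g : ZMod l).val = 1 :=
    hζ'.pow_inj (ZMod.val_lt _) hl2 h4
  apply Units.ext
  haveI : Fact (1 < l) := ⟨hl2⟩
  rw [Units.val_one, ← ZMod.val_injective l |>.eq_iff, h5, ZMod.val_one]

/-- (R5) In the cyclotomic tower `K ⊆ M ⊆ N = M(ζ_l)` (encoded by the hypothesis `hT3`: an element
of `Gal(N/K)` which is trivial on `M` and on `ζ` is trivial), a prime `q` of `K` not containing
`l` and unramified in `M` is unramified in `N`. -/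
theorem unramAt_of_natCast_not_mem {l : ℕ} [NeZero l] {ζ : N} (hζ : IsPrimitiveRoot ζ l)
    (hT3 : ∀ g : Gal(N/K), AlgEquiv.restrictNormalHom M g = 1 → hζ.autToPow K g = 1 → g = 1)
    {q : HeightOneSpectrum (𝓞 K)} (hqM : UnramAt K M q) (hl : (l : 𝓞 K) ∉ q.asIdeal) :
    UnramAt K N q := by
  intro Q hQ hQq
  rw [Subgroup.eq_bot_iff_forall]
  intro g hg
  have hlQ : (l : 𝓞 N) ∉ Q := by
    intro h
    apply hl
    rw [Q.over_def q.asIdeal, Ideal.under_def, Ideal.mem_comap, map_natCast]
    exact h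
  exact hT3 g (restrictNormalHom_eq_one_of_mem_inertia hqM Q hg)
    (autToPow_eq_one_of_mem_inertia hζ Q hlQ hg)

end Cyclo

end Fermat.Agent.ExtVan
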