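/-
S14 long shot, brick [C] = crossing (helper8).  The concrete fields of the crossing inside
`N = M(ζ_l)`: `gammaME = Gal(N/M) ∩ (p-th power part of the cyclotomic character)`, its fixed field
`fieldME = M·E`, the embedding of `M`, and `Gal(fieldME/K)` is killed by `p`.
-/
import Fermat.Agent.ExtVan.Crossing.CycloSide
import Fermat.Agent.ExtVan.Crossing.RamBook

set_option linter.unusedSectionVars false

open NumberField nonZeroDivisors IsDedekindDomain

namespace Fermat.Agent.ExtVan.Crossing

open Fermat.Agent.ExtVan

section Fields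

variable (K M : Type*) {N : Type*} [Field K] [Field M] [Field N] [NumberField K] [NumberField M]
  [NumberField N] [Algebra K M] [Algebra M N] [Algebra K N] [IsScalarTower K M N]
  [IsAbelianGalois K N] [IsAbelianGalois K M]
  {l : ℕ} [hl : Fact l.Prime] {ζ : N} (hζ : IsPrimitiveRoot ζ l) (p : ℕ)

/-- The subgroup of `Gal(N/K)` fixing `M` and acting on `ζ` through a `p`-th power. -/
noncomputable def gammaME : Subgroup Gal(N/K) :=
  (AlgEquiv.restrictNormalHom M).ker ⊓ powSubgroup K hζ p

/-- The field `M·E` of the crossing argument, as a subfield of `N = M(ζ_l)`. -/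
noncomputable def fieldME : IntermediateField K N :=
  IntermediateField.fixedField (gammaME K M hζ p)

variable {K M hζ p}

theorem mem_gammaME_iff {g : Gal(N/K)} :
    g ∈ gammaME K M hζ p ↔ AlgEquiv.restrictNormalHom M g = 1 ∧ g ∈ powSubgroup K hζ p := by
  rw [gammaME, Subgroup.mem_inf, MonoidHom.mem_ker]

theorem fixingSubgroup_fieldME :
    (fieldME K M hζ p).fixingSubgroup = gammaME K M hζ p :=
  IntermediateField.fixingSubgroup_fixedField _

theorem restrictNormalHom_fieldME_eq_one_iff (g : Gal(N/K)) :
    AlgEquiv.restrictNormalHom (fieldME K M hζ p) g = 1 ↔ g ∈ gammaME K M hζ p := by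
  rw [restrictNormalHom_eq_one_iff, ← fixingSubgroup_fieldME,
    IntermediateField.mem_fixingSubgroup_iff]
  constructor
  · intro h x hx
    exact h ⟨x, hx⟩
  · intro h e
    exact h e e.2

theorem algebraMap_mem_fieldME (m : M) : algebraMap M N m ∈ fieldME K M hζ p := by
  rw [fieldME, IntermediateField.mem_fixedField_iff]
  intro g hg
  rw [mem_gammaME_iff] at hg
  have h := AlgEquiv.restrictNormal_commutes g M m
  rw [← h]
  have h2 : g.restrictNormal M = 1 := hg.1
  rw [h2]
  rfl

variable (K M hζ p)

/-- The embedding of `M` into `fieldME`. -/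
noncomputable def toFieldME : M →ₐ[K] fieldME K M hζ p :=
  (IsScalarTower.toAlgHom K M N).codRestrict (fieldME K M hζ p).toSubalgebra
    (fun m => algebraMap_mem_fieldME m)

noncomputable instance algebraFieldME : Algebra M (fieldME K M hζ p) :=
  (toFieldME K M hζ p).toRingHom.toAlgebra

instance isScalarTower_fieldME : IsScalarTower K M (fieldME K M hζ p) :=
  IsScalarTower.of_algebraMap_eq (fun x => ((toFieldME K M hζ p).commutes x).symm)

instance isScalarTower_fieldME' : IsScalarTower M (fieldME K M hζ p) N :=
  IsScalarTower.of_algebraMap_eq (fun _ => rfl)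

variable {K M hζ p}

/-- Restriction to `M` factors through restriction to `fieldME`. -/
theorem restrictNormalHom_restrictNormalHom_fieldME (g : Gal(N/K)) :
    AlgEquiv.restrictNormalHom M (AlgEquiv.restrictNormalHom (fieldME K M hζ p) g) =
      AlgEquiv.restrictNormalHom M g := by
  ext m
  apply (algebraMap M N).injective
  have h1 := AlgEquiv.restrictNormal_commutes g M m
  have h2 := AlgEquiv.restrictNormal_commutes g (fieldME K M hζ p) (algebraMap M _ m)
  have h3 := AlgEquiv.restrictNormal_commutes
    (AlgEquiv.restrictNormalHom (fieldME K M hζ p) g) M m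
  calc algebraMap M N ((AlgEquiv.restrictNormalHom M
          (AlgEquiv.restrictNormalHom (fieldME K M hζ p) g)) m)
      = algebraMap (fieldME K M hζ p) N (algebraMap M (fieldME K M hζ p)
          (((AlgEquiv.restrictNormalHom (fieldME K M hζ p) g).restrictNormal M) m)) := by
        rw [← IsScalarTower.algebraMap_apply M (fieldME K M hζ p) N]; rfl
    _ = algebraMap (fieldME K M hζ p) N ((g.restrictNormal (fieldME K M hζ p))
          (algebraMap M (fieldME K M hζ p) m)) := by rw [h3]; rfl
    _ = g (algebraMap M N m) := by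
        rw [h2, ← IsScalarTower.algebraMap_apply M (fieldME K M hζ p) N]
    _ = algebraMap M N ((AlgEquiv.restrictNormalHom M g) m) := h1.symm

/-- `p`-th powers in `Gal(N/K)` lie in `gammaME`. -/
theorem pow_mem_gammaME (hM : Module.finrank K M = p) (g : Gal(N/K)) :
    g ^ p ∈ gammaME K M hζ p := by
  rw [mem_gammaME_iff]
  constructor
  · rw [map_pow, ← hM, ← IsGalois.card_aut_eq_finrank]
    exact pow_card_eq_one'
  · rw [mem_powSubgroup_iff]
    exact ⟨cycloChar K hζ g, by rw [map_pow]⟩

/-- `Gal(fieldME/K)` is killed by `p`. -/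
theorem pow_eq_one_fieldME (hM : Module.finrank K M = p) (g' : Gal((fieldME K M hζ p)/K)) :
    g' ^ p = 1 := by
  obtain ⟨g, rfl⟩ := AlgEquiv.restrictNormalHom_surjective N g'
  rw [← map_pow, restrictNormalHom_fieldME_eq_one_iff]
  exact pow_mem_gammaME hM g

end Fields

end Fermat.Agent.ExtVan.Crossing
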