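/-
S14 long shot, crossing sub-brick (X3-a)/(X3-b) (helper1): norm residues.

* (X3-a) In a Galois extension `L/K` of number fields, at a prime `Q` of `𝓞 L` whose inertia group
  is all of `Gal(L/K)` (totally ramified), every `β : 𝓞 L` is congruent mod `Q` to some `b : 𝓞 K`
  and then `N_{L/K} β ≡ b ^ [L:K]` modulo the prime below.
* (X3-b) If `K/ℚ` is Galois, `𝔩₁` a prime of `𝓞 K` of norm `l`, and `γ : 𝓞 K` is an `n`-th power
  modulo every prime of `𝓞 K` above `l`, then `N_{K/ℚ} γ` is an `n`-th power mod `l`.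
-/
import Mathlib

set_option autoImplicit false
set_option linter.unusedSectionVars false
set_option linter.style.haveILetI false

open NumberField

namespace Fermat.Agent.ExtVan

section TotRam

variable {K L : Type*} [Field K] [Field L] [NumberField K] [NumberField L] [Algebra K L]
  [IsGalois K L]

/-- The relative norm of integers as the product of the Galois conjugates. -/
theorem algebraMap_intNorm_eq_prod_smul (β : 𝓞 L) :
    algebraMap (𝓞 K) (𝓞 L) (Algebra.intNorm (𝓞 K) (𝓞 L) β) = ∏ σ : Gal(L/K), σ • β := by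
  apply RingOfIntegers.ext
  have h1 : ((algebraMap (𝓞 K) (𝓞 L) (Algebra.intNorm (𝓞 K) (𝓞 L) β) : 𝓞 L) : L) =
      algebraMap K L (algebraMap (𝓞 K) K (Algebra.intNorm (𝓞 K) (𝓞 L) β)) := by
    rw [RingOfIntegers.coe_eq_algebraMap, ← IsScalarTower.algebraMap_apply,
      ← IsScalarTower.algebraMap_apply]
  rw [h1, Algebra.algebraMap_intNorm (A := 𝓞 K) (K := K) (L := L) (B := 𝓞 L),
    Algebra.norm_eq_prod_automorphisms]
  rw [RingOfIntegers.coe_eq_algebraMap, map_prod]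
  rfl

/-- (X3-a), congruence part: if the inertia group of `Q` is everything and `β ≡ b mod Q` with
`b : 𝓞 K`, then `N_{L/K} β ≡ b ^ [L:K]` modulo the prime below `Q`. -/
theorem intNorm_sub_pow_mem_of_inertia_eq_top (P : Ideal (𝓞 K)) (Q : Ideal (𝓞 L)) [Q.LiesOver P]
    (hQ : Ideal.inertia Gal(L/K) Q = ⊤) (β : 𝓞 L) (b : 𝓞 K)
    (hb : β - algebraMap (𝓞 K) (𝓞 L) b ∈ Q) :
    Algebra.intNorm (𝓞 K) (𝓞 L) β - b ^ Module.finrank K L ∈ P := by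
  rw [Q.over_def P, Ideal.under_def, Ideal.mem_comap, map_sub, map_pow,
    algebraMap_intNorm_eq_prod_smul, ← Ideal.Quotient.eq, map_prod, map_pow]
  have h1 : ∀ σ : Gal(L/K), Ideal.Quotient.mk Q (σ • β) =
      Ideal.Quotient.mk Q (algebraMap (𝓞 K) (𝓞 L) b) := by
    intro σ
    have hσ : σ ∈ Ideal.inertia Gal(L/K) Q := by rw [hQ]; trivial
    have h2 : σ • β - β ∈ Q := hσ β
    rw [Ideal.Quotient.eq]
    have : σ • β - algebraMap (𝓞 K) (𝓞 L) b = (σ • β - β) + (β - algebraMap (𝓞 K) (𝓞 L) b) := by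
      ring
    rw [this]
    exact Q.add_mem h2 hb
  rw [Finset.prod_congr rfl (fun σ _ => h1 σ), Finset.prod_const, Finset.card_univ,
    ← Nat.card_eq_fintype_card, IsGalois.card_aut_eq_finrank]

/-- If the inertia group of `Q` is all of `Gal(L/K)` then the residue degree of `Q` is one. -/
theorem inertiaDeg_eq_one_of_inertia_eq_top (P : Ideal (𝓞 K)) [P.IsPrime] (hP : P ≠ ⊥)
    (Q : Ideal (𝓞 L)) [Q.IsPrime] [Q.LiesOver P] (hQ : Ideal.inertia Gal(L/K) Q = ⊤) :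
    Q.inertiaDeg (𝓞 K) = 1 := by
  have : P.IsMaximal := Ring.DimensionLEOne.maximalOfPrime hP inferInstance
  have h := Ideal.ncard_primesOver_mul_card_inertia_mul_finrank (G := Gal(L/K)) P Q
  rw [hQ, Subgroup.card_top] at h
  have hpos : 0 < Nat.card Gal(L/K) := Nat.card_pos
  have h2 : (P.primesOver (𝓞 L)).ncard * Q.inertiaDeg (𝓞 K) = 1 := by
    have : Nat.card Gal(L/K) * ((P.primesOver (𝓞 L)).ncard * Q.inertiaDeg (𝓞 K)) =
        Nat.card Gal(L/K) * 1 := by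
      rw [mul_one]
      calc Nat.card Gal(L/K) * ((P.primesOver (𝓞 L)).ncard * Q.inertiaDeg (𝓞 K))
          = (P.primesOver (𝓞 L)).ncard * Nat.card Gal(L/K) * Q.inertiaDeg (𝓞 K) := by ring
        _ = Nat.card Gal(L/K) := h
    exact Nat.eq_of_mul_eq_mul_left hpos this
  exact Nat.eq_one_of_mul_eq_one_left h2

/-- (X3-a), existence part: at a totally ramified prime every integer of `L` is congruent to an
integer of `K`. -/
theorem exists_sub_algebraMap_mem_of_inertia_eq_top (P : Ideal (𝓞 K)) [P.IsPrime] (hP : P ≠ ⊥)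
    (Q : Ideal (𝓞 L)) [Q.IsPrime] [Q.LiesOver P] (hQ : Ideal.inertia Gal(L/K) Q = ⊤) (β : 𝓞 L) :
    ∃ b : 𝓞 K, β - algebraMap (𝓞 K) (𝓞 L) b ∈ Q := by
  have hPmax : P.IsMaximal := Ring.DimensionLEOne.maximalOfPrime hP inferInstance
  have hQmax : Q.IsMaximal :=
    Ring.DimensionLEOne.maximalOfPrime (Ideal.ne_bot_of_liesOver_of_ne_bot hP Q) inferInstance
  have h1 := inertiaDeg_eq_one_of_inertia_eq_top P hP Q hQ
  rw [Ideal.inertiaDeg_eq_of_isMaximal P Q] at h1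
  letI : Field (𝓞 K ⧸ P) := Ideal.Quotient.field P
  have h2 := (finrank_eq_one_iff_of_nonzero' (1 : 𝓞 L ⧸ Q) one_ne_zero).1 h1
    (Ideal.Quotient.mk Q β)
  obtain ⟨c, hc⟩ := h2
  obtain ⟨b, rfl⟩ := Ideal.Quotient.mk_surjective c
  refine ⟨b, ?_⟩
  rw [← Ideal.Quotient.eq, ← hc, Algebra.smul_def, mul_one]
  rfl

/-- (X3-a): at a totally ramified prime `Q` over `P`, every relative norm is a `[L:K]`-th power
modulo `P`. -/
theorem exists_intNorm_sub_pow_mem (P : Ideal (𝓞 K)) [P.IsPrime] (hP : P ≠ ⊥)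
    (Q : Ideal (𝓞 L)) [Q.IsPrime] [Q.LiesOver P] (hQ : Ideal.inertia Gal(L/K) Q = ⊤) (β : 𝓞 L) :
    ∃ b : 𝓞 K, Algebra.intNorm (𝓞 K) (𝓞 L) β - b ^ Module.finrank K L ∈ P := by
  obtain ⟨b, hb⟩ := exists_sub_algebraMap_mem_of_inertia_eq_top P hP Q hQ β
  exact ⟨b, intNorm_sub_pow_mem_of_inertia_eq_top P Q hQ β b hb⟩

end TotRam

section DegreeOne

variable {K : Type*} [Field K] [NumberField K]

/-- Modulo a prime of norm `l` every integer of `K` is congruent to a rational integer. -/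
theorem exists_sub_intCast_mem_of_absNorm_eq {l : ℕ} (hl : l.Prime) (𝔩 : Ideal (𝓞 K))
    (h1 : Ideal.absNorm 𝔩 = l) (x : 𝓞 K) : ∃ c : ℤ, x - (c : 𝓞 K) ∈ 𝔩 := by
  haveI : Fact l.Prime := ⟨hl⟩
  have hcard : Nat.card (𝓞 K ⧸ 𝔩) = l := by
    rw [← h1, Ideal.absNorm_apply, Submodule.cardQuot_apply]
  have hne : (1 : 𝓞 K ⧸ 𝔩) ≠ 0 := by
    intro h
    have hsub : Subsingleton (𝓞 K ⧸ 𝔩) := subsingleton_of_zero_eq_one h.symm
    have : Nat.card (𝓞 K ⧸ 𝔩) = 1 := Nat.card_unique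
    rw [hcard] at this
    exact hl.one_lt.ne' this
  have hmem : Ideal.Quotient.mk 𝔩 x ∈ AddSubgroup.zmultiples (1 : 𝓞 K ⧸ 𝔩) :=
    mem_zmultiples_of_prime_card hcard hne
  obtain ⟨c, hc⟩ := AddSubgroup.mem_zmultiples_iff.1 hmem
  refine ⟨c, ?_⟩
  rw [← Ideal.Quotient.eq, ← hc, map_intCast]
  simp

/-- A rational integer lying in a prime of norm `l` is divisible by `l`. -/
theorem dvd_of_intCast_mem_of_absNorm_eq {l : ℕ} (hl : l.Prime) (𝔩 : Ideal (𝓞 K))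
    (h1 : Ideal.absNorm 𝔩 = l) {m : ℤ} (hm : (m : 𝓞 K) ∈ 𝔩) : (l : ℤ) ∣ m := by
  have h2 := Ideal.span_singleton_absNorm (I := 𝔩) (h1 ▸ hl)
  rw [h1] at h2
  have h3 : m ∈ Ideal.comap (algebraMap ℤ (𝓞 K)) 𝔩 := by
    rw [Ideal.mem_comap]
    simpa using hm
  rw [← h2, Ideal.mem_span_singleton] at h3
  exact h3

variable [IsGalois ℚ K]

/-- The absolute norm of an integer of a Galois number field as the product of its conjugates. -/
theorem intCast_norm_eq_prod_smul (γ : 𝓞 K) :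
    ((Algebra.norm ℤ γ : ℤ) : 𝓞 K) = ∏ σ : Gal(K/ℚ), σ • γ := by
  apply RingOfIntegers.ext
  have h1 : (((Algebra.norm ℤ γ : ℤ) : 𝓞 K) : K) = algebraMap ℚ K ((Algebra.norm ℤ γ : ℤ) : ℚ) := by
    simp
  rw [h1, Algebra.coe_norm_int, Algebra.norm_eq_prod_automorphisms]
  change _ = algebraMap (𝓞 K) K (∏ σ : Gal(K/ℚ), σ • γ)
  rw [map_prod]
  rfl

/-- (X3-b): if `γ` is an `n`-th power modulo every prime of `𝓞 K` above `l`, and some prime above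
`l` has norm `l`, then `N_{K/ℚ} γ` is an `n`-th power modulo `l`. -/
theorem exists_int_pow_dvd_norm_sub {l : ℕ} (hl : l.Prime) (n : ℕ) (𝔩₁ : Ideal (𝓞 K))
    [𝔩₁.IsPrime] (h1 : Ideal.absNorm 𝔩₁ = l) (γ : 𝓞 K)
    (hγ : ∀ 𝔩 : Ideal (𝓞 K), 𝔩.IsPrime → (l : 𝓞 K) ∈ 𝔩 → ∃ b : 𝓞 K, γ - b ^ n ∈ 𝔩) :
    ∃ c : ℤ, (l : ℤ) ∣ Algebra.norm ℤ γ - c ^ n := by
  classical
  have hl1 : (l : 𝓞 K) ∈ 𝔩₁ := h1 ▸ Ideal.absNorm_mem 𝔩₁
  -- for each `σ`, an `n`-th root of `σ γ` modulo `𝔩₁`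
  have key : ∀ σ : Gal(K/ℚ), ∃ b : 𝓞 K, σ • γ - b ^ n ∈ 𝔩₁ := by
    intro σ
    let f : 𝓞 K →+* 𝓞 K := MulSemiringAction.toRingHom Gal(K/ℚ) (𝓞 K) σ
    have hprime : (Ideal.comap f 𝔩₁).IsPrime := Ideal.comap_isPrime f 𝔩₁
    have hmem : (l : 𝓞 K) ∈ Ideal.comap f 𝔩₁ := by
      rw [Ideal.mem_comap, map_natCast]
      exact hl1
    obtain ⟨b, hb⟩ := hγ _ hprime hmem
    refine ⟨σ • b, ?_⟩
    rw [Ideal.mem_comap, map_sub, map_pow] at hb
    exact hb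
  choose b hb using key
  obtain ⟨c, hc⟩ := exists_sub_intCast_mem_of_absNorm_eq hl 𝔩₁ h1 (∏ σ : Gal(K/ℚ), b σ)
  refine ⟨c, dvd_of_intCast_mem_of_absNorm_eq hl 𝔩₁ h1 ?_⟩
  rw [Int.cast_sub, Int.cast_pow, intCast_norm_eq_prod_smul, ← Ideal.Quotient.eq, map_prod,
    map_pow]
  have h2 : ∀ σ : Gal(K/ℚ), Ideal.Quotient.mk 𝔩₁ (σ • γ) = Ideal.Quotient.mk 𝔩₁ (b σ) ^ n := by
    intro σ
    rw [← map_pow, Ideal.Quotient.eq]
    exact hb σ
  rw [Finset.prod_congr rfl (fun σ _ => h2 σ), Finset.prod_pow, ← map_prod]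
  congr 1
  rw [Ideal.Quotient.eq]
  exact hc

end DegreeOne

section Combined

variable {K L : Type*} [Field K] [Field L] [NumberField K] [NumberField L] [Algebra K L]
  [IsGalois K L] [IsGalois ℚ K]

/-- There is a prime of `𝓞 K` containing the rational prime `l`. -/
theorem exists_isPrime_natCast_mem (K : Type*) [Field K] [NumberField K] {l : ℕ} (hl : l.Prime) :
    ∃ 𝔩 : Ideal (𝓞 K), 𝔩.IsPrime ∧ (l : 𝓞 K) ∈ 𝔩 := by
  have hne : Ideal.span {(l : 𝓞 K)} ≠ ⊤ := by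
    intro h
    have h1 : Ideal.absNorm (Ideal.span {(l : 𝓞 K)}) = 1 := by rw [h, Ideal.absNorm_top]
    rw [Ideal.absNorm_span_singleton] at h1
    have h2 : ((l : ℕ) : 𝓞 K) = algebraMap ℤ (𝓞 K) (l : ℤ) := by simp
    rw [h2, Algebra.norm_algebraMap, Int.natAbs_pow, Int.natAbs_natCast] at h1
    have h3 : 0 < Module.finrank ℤ (𝓞 K) := Module.finrank_pos
    have h4 : l = 1 := by
      rcases Nat.pow_eq_one.1 h1 with h | h
      · exact h
      · omega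
    exact hl.one_lt.ne' h4
  obtain ⟨M, hM, hle⟩ := Ideal.exists_le_maximal _ hne
  exact ⟨M, hM.isPrime, hle (Ideal.subset_span rfl)⟩

/-- (X3-ab), integer form: if every prime of `K` above `l` has norm `l` and is totally ramified in
`L` (some prime above it has full inertia group), then for every `β : 𝓞 L` the integer
`N_{K/ℚ}(N_{L/K} β)` is an `[L:K]`-th power modulo `l`. -/
theorem exists_int_pow_dvd_norm_intNorm_sub {l : ℕ} (hl : l.Prime)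
    (hdeg : ∀ 𝔩 : Ideal (𝓞 K), 𝔩.IsPrime → (l : 𝓞 K) ∈ 𝔩 → Ideal.absNorm 𝔩 = l)
    (hram : ∀ 𝔩 : Ideal (𝓞 K), 𝔩.IsPrime → (l : 𝓞 K) ∈ 𝔩 →
      ∃ Q : Ideal (𝓞 L), Q.IsPrime ∧ Q.LiesOver 𝔩 ∧ Ideal.inertia Gal(L/K) Q = ⊤)
    (β : 𝓞 L) :
    ∃ c : ℤ, (l : ℤ) ∣ Algebra.norm ℤ (Algebra.intNorm (𝓞 K) (𝓞 L) β) - c ^ Module.finrank K L := by
  obtain ⟨𝔩₁, h𝔩₁, hmem⟩ := exists_isPrime_natCast_mem K hl
  refine exists_int_pow_dvd_norm_sub hl _ 𝔩₁ (hdeg 𝔩₁ h𝔩₁ hmem) _ ?_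
  intro 𝔩 h𝔩 hl𝔩
  obtain ⟨Q, hQ, hQ𝔩, hI⟩ := hram 𝔩 h𝔩 hl𝔩
  have hne : 𝔩 ≠ ⊥ := by
    intro h
    rw [h, Ideal.mem_bot] at hl𝔩
    exact hl.ne_zero (by exact_mod_cast hl𝔩)
  exact exists_intNorm_sub_pow_mem 𝔩 hne Q hI β

/-- (X3-ab), `ZMod` form: under the same hypotheses, for `[L:K]` odd, the absolute norm of the
relative norm of the principal ideal `(β)` is an `[L:K]`-th power in `ZMod l`. -/
theorem exists_zmod_pow_eq_absNorm_relNorm_span {l : ℕ} (hl : l.Prime)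
    (hodd : Odd (Module.finrank K L))
    (hdeg : ∀ 𝔩 : Ideal (𝓞 K), 𝔩.IsPrime → (l : 𝓞 K) ∈ 𝔩 → Ideal.absNorm 𝔩 = l)
    (hram : ∀ 𝔩 : Ideal (𝓞 K), 𝔩.IsPrime → (l : 𝓞 K) ∈ 𝔩 →
      ∃ Q : Ideal (𝓞 L), Q.IsPrime ∧ Q.LiesOver 𝔩 ∧ Ideal.inertia Gal(L/K) Q = ⊤)
    (β : 𝓞 L) :
    ∃ c : ZMod l, ((Ideal.absNorm (Ideal.relNorm (𝓞 K) (Ideal.span {β})) : ℕ) : ZMod l) =
      c ^ Module.finrank K L := by
  obtain ⟨c, hc⟩ := exists_int_pow_dvd_norm_intNorm_sub hl hdeg hram β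
  rw [Ideal.relNorm_singleton, Ideal.absNorm_span_singleton]
  set N : ℤ := Algebra.norm ℤ (Algebra.intNorm (𝓞 K) (𝓞 L) β) with hN
  have h1 : ((N : ℤ) : ZMod l) = (c : ZMod l) ^ Module.finrank K L := by
    have := (ZMod.intCast_zmod_eq_zero_iff_dvd _ l).2 hc
    rw [Int.cast_sub, Int.cast_pow, sub_eq_zero] at this
    exact this
  have h2 : ((N.natAbs : ℕ) : ZMod l) = ((N.natAbs : ℤ) : ZMod l) := by simp
  rcases Int.natAbs_eq N with h | h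
  · refine ⟨c, ?_⟩
    rw [h2, ← h, h1]
  · refine ⟨-c, ?_⟩
    have h3 : ((N.natAbs : ℤ) : ZMod l) = -((N : ℤ) : ZMod l) := by
      have : (N.natAbs : ℤ) = -N := by omega
      rw [this, Int.cast_neg]
    rw [h2, h3, h1, hodd.neg_pow]

end Combined

end Fermat.Agent.ExtVan
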