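import Mathlib

/-
S14 long shot, brick [C] = crossing (helper8).  Abstract algebra behind the crossing argument:
coprimality to a rational prime via absolute norms, the moving lemma, cancellation of the
`ℓ`-part, and the kernel of a reciprocity character (`mk0_mem_normClasses_of_map_eq_one`).
-/

open NumberField nonZeroDivisors

namespace Fermat.Agent.ExtVan.Crossing

section Coprime

variable {R : Type*} [CommRing R] [IsDedekindDomain R] [Module.Free ℤ R] [Module.Finite ℤ R]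

theorem not_isUnit_natCast_prime {ℓ : ℕ} (hℓ : ℓ.Prime) : ¬ IsUnit (ℓ : R) := by
  intro h
  have h1 : Ideal.absNorm (Ideal.span {(ℓ : R)}) = 1 := by
    rw [Ideal.absNorm_eq_one_iff, Ideal.span_singleton_eq_top]; exact h
  rw [Ideal.absNorm_span_singleton] at h1
  have h2 : Algebra.norm ℤ (ℓ : R) = (ℓ : ℤ) ^ Module.finrank ℤ R := by
    have := Algebra.norm_algebraMap (S := R) (ℓ : ℤ)
    simpa using this
  rw [h2, Int.natAbs_pow, Int.natAbs_natCast] at h1
  have h3 : Module.finrank ℤ R = 0 := by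
    by_contra h0
    have := Nat.one_lt_pow h0 hℓ.one_lt
    omega
  have := (Module.finrank_zero_iff (R := ℤ) (M := R)).1 h3
  exact not_subsingleton R this

/-- An ideal is coprime to the rational prime `ℓ` iff `ℓ` does not divide its absolute norm. -/
theorem sup_span_natCast_eq_top_iff {ℓ : ℕ} (hℓ : ℓ.Prime) (I : Ideal R) :
    I ⊔ Ideal.span {(ℓ : R)} = ⊤ ↔ ¬ ℓ ∣ Ideal.absNorm I := by
  constructor
  · intro h hdvd
    by_cases hI : I = ⊥
    · subst hI
      rw [bot_sup_eq, Ideal.span_singleton_eq_top] at h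
      exact not_isUnit_natCast_prime hℓ h
    · have hfin : Finite (R ⧸ I) := (Ideal.absNorm_ne_zero_iff I).1
        (fun h0 => hI (Ideal.absNorm_eq_zero_iff.1 h0))
      have : Fintype (R ⧸ I) := Fintype.ofFinite _
      rw [Ideal.absNorm_apply, Submodule.cardQuot_apply, Nat.card_eq_fintype_card] at hdvd
      have : Fact ℓ.Prime := ⟨hℓ⟩
      obtain ⟨x, hx⟩ := exists_prime_addOrderOf_dvd_card ℓ hdvd
      obtain ⟨y, rfl⟩ := Ideal.Quotient.mk_surjective x
      have hx1 : (ℓ : ℕ) • (Ideal.Quotient.mk I y) = 0 := by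
        rw [← hx]; exact addOrderOf_nsmul_eq_zero _
      have hx0 : Ideal.Quotient.mk I y ≠ 0 := by
        intro h0
        rw [h0, addOrderOf_zero] at hx
        exact hℓ.one_lt.ne hx
      rw [Ideal.eq_top_iff_one, Submodule.mem_sup] at h
      obtain ⟨i, hi, j, hj, hij⟩ := h
      obtain ⟨t, rfl⟩ := Ideal.mem_span_singleton'.1 hj
      apply hx0
      have : Ideal.Quotient.mk I y = Ideal.Quotient.mk I ((i + t * (ℓ : R)) * y) := by
        rw [hij, one_mul]
      rw [this, add_mul, map_add, Ideal.Quotient.eq_zero_iff_mem.2 (Ideal.mul_mem_right _ _ hi),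
        zero_add, mul_assoc, map_mul, ← nsmul_eq_mul, map_nsmul, hx1, mul_zero]
  · intro h
    have hcop : Nat.Coprime (Ideal.absNorm I) ℓ := (Nat.Coprime.symm ((Nat.Prime.coprime_iff_not_dvd hℓ).2 h))
    rw [Ideal.eq_top_iff_one]
    obtain ⟨a, b, hab⟩ : ∃ a b : ℤ, a * (Ideal.absNorm I : ℤ) + b * (ℓ : ℤ) = 1 := by
      have := Nat.Coprime.isCoprime hcop
      obtain ⟨a, b, hab⟩ := this
      exact ⟨a, b, hab⟩
    have h1 : (1 : R) = (a : R) * (Ideal.absNorm I : R) + (b : R) * (ℓ : R) := by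
      have := congrArg (Int.cast : ℤ → R) hab
      push_cast at this
      exact this.symm
    rw [h1]
    exact Ideal.add_mem _ (Ideal.mem_sup_left (Ideal.mul_mem_left _ _ (Ideal.absNorm_mem I)))
      (Ideal.mem_sup_right (Ideal.mul_mem_left _ _ (Ideal.subset_span rfl)))


/-- Cancellation of the `ℓ`-part: if `(x) B = (y) B''` with `B`, `B''` prime to `ℓ`, then
`x / y = s / d` with `s`, `d` prime to `ℓ`. -/
theorem exists_coprime_ratio {ℓ : ℕ} (hℓ : ℓ.Prime) {x y : R} (hx : x ≠ 0) (hy : y ≠ 0)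
    {B B'' : Ideal R} (hB : ¬ ℓ ∣ Ideal.absNorm B) (hB'' : ¬ ℓ ∣ Ideal.absNorm B'')
    (h : Ideal.span {x} * B = Ideal.span {y} * B'') :
    ∃ s d : R, s ≠ 0 ∧ d ≠ 0 ∧ ¬ ℓ ∣ Ideal.absNorm (Ideal.span {s}) ∧
      ¬ ℓ ∣ Ideal.absNorm (Ideal.span {d}) ∧ x * d = y * s := by
  have h1 := (sup_span_natCast_eq_top_iff hℓ B).2 hB
  rw [Ideal.eq_top_iff_one, Submodule.mem_sup] at h1
  obtain ⟨d, hd, j, hj, hdj⟩ := h1
  have hxd : x * d ∈ Ideal.span {y} * B'' := by
    rw [← h]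
    exact Ideal.mul_mem_mul (Ideal.subset_span rfl) hd
  obtain ⟨s, hs, hys⟩ := Ideal.mem_span_singleton_mul.1 hxd
  have hdcop : ¬ ℓ ∣ Ideal.absNorm (Ideal.span {d}) := by
    rw [← sup_span_natCast_eq_top_iff hℓ, Ideal.eq_top_iff_one, ← hdj]
    exact Ideal.add_mem _ (Ideal.mem_sup_left (Ideal.subset_span rfl)) (Ideal.mem_sup_right hj)
  have hd0 : d ≠ 0 := by
    rintro rfl
    apply hdcop
    have h0 : (Ideal.span {(0 : R)}) = ⊥ := by simp
    rw [h0, Ideal.absNorm_bot]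
    exact dvd_zero _
  have hs0 : s ≠ 0 := by
    rintro rfl
    rw [mul_zero] at hys
    exact mul_ne_zero hx hd0 hys.symm
  have hkey : Ideal.span {d} * B'' = Ideal.span {s} * B := by
    have h2 : Ideal.span {x} * Ideal.span {d} = Ideal.span {y} * Ideal.span {s} := by
      rw [Ideal.span_singleton_mul_span_singleton, Ideal.span_singleton_mul_span_singleton, hys]
    have hxy : Ideal.span {x} * Ideal.span {y} ≠ (0 : Ideal R) := by
      rw [Ideal.zero_eq_bot, Ideal.span_singleton_mul_span_singleton, Ne,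
        Ideal.span_singleton_eq_bot]
      exact mul_ne_zero hx hy
    apply mul_left_cancel₀ hxy
    calc Ideal.span {x} * Ideal.span {y} * (Ideal.span {d} * B'')
        = (Ideal.span {x} * Ideal.span {d}) * (Ideal.span {y} * B'') := by ring
      _ = (Ideal.span {y} * Ideal.span {s}) * (Ideal.span {x} * B) := by rw [h2, h]
      _ = Ideal.span {x} * Ideal.span {y} * (Ideal.span {s} * B) := by ring
  refine ⟨s, d, hs0, hd0, ?_, hdcop, hys.symm ▸ rfl⟩
  intro hdvd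
  have h3 := congrArg Ideal.absNorm hkey
  rw [map_mul, map_mul] at h3
  have h4 : ℓ ∣ Ideal.absNorm (Ideal.span {d}) * Ideal.absNorm B'' := by
    rw [h3]; exact Dvd.dvd.mul_right hdvd _
  rcases (Nat.Prime.dvd_mul hℓ).1 h4 with h5 | h5
  · exact hdcop h5
  · exact hB'' h5

end Coprime

section Moving

variable {R : Type*} [CommRing R] [IsDedekindDomain R]

/-- Moving lemma: every nonzero ideal `I` of a Dedekind domain is equivalent (up to principal
ideals) to an ideal coprime to a given nonzero ideal `J`. -/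
theorem exists_equiv_coprime {I J : Ideal R} (hI : I ≠ ⊥) (hJ : J ≠ ⊥) :
    ∃ (x y : R) (I' : Ideal R), x ≠ 0 ∧ y ≠ 0 ∧
      Ideal.span {x} * I = Ideal.span {y} * I' ∧ I' ⊔ J = ⊤ := by
  by_cases hJtop : J = ⊤
  · exact ⟨1, 1, I, one_ne_zero, one_ne_zero, rfl, by rw [hJtop, sup_top_eq]⟩
  obtain ⟨c, hcI, hc0⟩ := Submodule.exists_mem_ne_zero_of_ne_bot hI
  obtain ⟨I₀, hI₀⟩ : I ∣ Ideal.span {c} := by
    rw [Ideal.dvd_iff_le, Ideal.span_singleton_le_iff_mem]; exact hcI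
  have hI₀0 : I₀ ≠ ⊥ := by
    rintro rfl
    rw [Ideal.mul_bot, Ideal.span_singleton_eq_bot] at hI₀
    exact hc0 hI₀
  have hle : I₀ * J ≤ I₀ := Ideal.mul_le_left
  have hne : I₀ * J ≠ 0 := by
    rw [Ideal.zero_eq_bot]
    exact mul_ne_zero hI₀0 hJ
  obtain ⟨a, ha⟩ := IsDedekindDomain.exists_sup_span_eq hle hne
  have haI₀ : a ∈ I₀ := by
    rw [← ha]; exact Ideal.mem_sup_right (Ideal.subset_span rfl)
  obtain ⟨I', hI'⟩ : I₀ ∣ Ideal.span {a} := by
    rw [Ideal.dvd_iff_le, Ideal.span_singleton_le_iff_mem]; exact haI₀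
  have hcop : I' ⊔ J = ⊤ := by
    have h1 : I₀ * (J ⊔ I') = I₀ * ⊤ := by
      rw [Ideal.mul_sup, ← hI', ha, Ideal.mul_top]
    have := mul_left_cancel₀ (a := I₀) (by rwa [Ne, Ideal.zero_eq_bot]) h1
    rwa [sup_comm] at this
  have ha0 : a ≠ 0 := by
    rintro rfl
    apply hJtop
    have h0 : (Ideal.span {(0 : R)}) = ⊥ := by simp
    rw [h0, eq_comm, Ideal.mul_eq_bot] at hI'
    rcases hI' with h | h
    · exact absurd h hI₀0
    · rwa [h, bot_sup_eq] at hcop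
  refine ⟨a, c, I', ha0, hc0, ?_, hcop⟩
  rw [hI', hI₀]
  ring

end Moving

section NF

variable (F L : Type*) [Field F] [NumberField F] [Field L] [NumberField L] [Algebra F L]

/-- The relative ideal norm on nonzero ideals. -/
noncomputable def relNorm0 : (Ideal (𝓞 L))⁰ →* (Ideal (𝓞 F))⁰ where
  toFun A := ⟨Ideal.relNorm (𝓞 F) (A : Ideal (𝓞 L)), mem_nonZeroDivisors_iff_ne_zero.2 (by
    rw [Ne, Ideal.zero_eq_bot, Ideal.relNorm_eq_bot_iff]
    exact nonZeroDivisors.ne_zero A.2)⟩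
  map_one' := Subtype.ext (by simp [Ideal.one_eq_top, Ideal.relNorm_top])
  map_mul' A B := Subtype.ext (by simp [map_mul])

@[simp] theorem coe_relNorm0 (A : (Ideal (𝓞 L))⁰) :
    ((relNorm0 F L A : (Ideal (𝓞 F))⁰) : Ideal (𝓞 F)) = Ideal.relNorm (𝓞 F) (A : Ideal (𝓞 L)) := rfl

/-- The subgroup of the class group of `F` consisting of the classes of relative norms of
ideals of `L`. -/
noncomputable def normClasses : Subgroup (ClassGroup (𝓞 F)) :=
  Subgroup.closure (Set.range ((ClassGroup.mk0).comp (relNorm0 F L)))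

theorem mem_normClasses_iff (c : ClassGroup (𝓞 F)) :
    c ∈ normClasses F L ↔ ∃ A : (Ideal (𝓞 L))⁰, ClassGroup.mk0 (relNorm0 F L A) = c := by
  have h1 : (normClasses F L).toSubmonoid =
      MonoidHom.mrange ((ClassGroup.mk0).comp (relNorm0 F L)) := by
    rw [normClasses, Subgroup.closure_toSubmonoid_of_finite, ← MonoidHom.coe_mrange,
      Submonoid.closure_eq]
  rw [← Subgroup.mem_toSubmonoid, h1, MonoidHom.mem_mrange]
  rfl

/-- The principal nonzero ideal generated by a nonzero element. -/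
noncomputable def spanS {x : 𝓞 F} (hx : x ≠ 0) : (Ideal (𝓞 F))⁰ :=
  ⟨Ideal.span {x}, mem_nonZeroDivisors_iff_ne_zero.2 (by
    rw [Ne, Ideal.zero_eq_bot, Ideal.span_singleton_eq_bot]; exact hx)⟩


variable {F L}

omit [NumberField F] in
theorem spanS_mul {x y : 𝓞 F} (hx : x ≠ 0) (hy : y ≠ 0) :
    spanS F hx * spanS F hy = spanS F (mul_ne_zero hx hy) :=
  Subtype.ext (by simp [spanS, Ideal.span_singleton_mul_span_singleton])

theorem relNorm0_spanS {x : 𝓞 L} (hx : x ≠ 0) :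
    relNorm0 F L (spanS L hx) = spanS F (x := Algebra.intNorm (𝓞 F) (𝓞 L) x)
      (by rwa [Ne, Algebra.intNorm_eq_zero]) :=
  Subtype.ext (by simp [spanS, Ideal.relNorm_singleton])

variable {Γ : Type*} [Group Γ] (A : (Ideal (𝓞 F))⁰ →* Γ) {ℓ : ℕ} (hℓ : ℓ.Prime)

include hℓ in
/-- Key step: a character of the ideal group which kills principal ideals prime to `ℓ` and all
norms from `L` takes equal values on two ideals prime to `ℓ` that differ by a principal ideal and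
a norm. -/
theorem map_eq_of_rel
    (hprin : ∀ (x : 𝓞 F) (hx : x ≠ 0), ¬ ℓ ∣ Ideal.absNorm (Ideal.span {x}) → A (spanS F hx) = 1)
    (hnorm : ∀ 𝔄 : (Ideal (𝓞 L))⁰, A (relNorm0 F L 𝔄) = 1)
    {B B' : (Ideal (𝓞 F))⁰} (hB : ¬ ℓ ∣ Ideal.absNorm (B : Ideal (𝓞 F)))
    (hB' : ¬ ℓ ∣ Ideal.absNorm (B' : Ideal (𝓞 F)))
    {x y : 𝓞 F} (hx : x ≠ 0) (hy : y ≠ 0) (𝔄 : (Ideal (𝓞 L))⁰)
    (h : spanS F hx * (B * relNorm0 F L 𝔄) = spanS F hy * B') : A B = A B' := by
  have hℓL : Ideal.span {((ℓ : ℕ) : 𝓞 L)} ≠ ⊥ := by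
    rw [Ne, Ideal.span_singleton_eq_bot, Nat.cast_eq_zero]
    exact hℓ.ne_zero
  obtain ⟨δ₁, δ₂, 𝔄', hδ₁, hδ₂, hmove, hcop⟩ :=
    exists_equiv_coprime (nonZeroDivisors.ne_zero 𝔄.2 : (𝔄 : Ideal (𝓞 L)) ≠ ⊥) hℓL
  have h𝔄'0 : 𝔄' ≠ ⊥ := by
    rintro rfl
    rw [Ideal.mul_bot, Ideal.mul_eq_bot, Ideal.span_singleton_eq_bot] at hmove
    rcases hmove with h0 | h0
    · exact hδ₁ h0
    · exact nonZeroDivisors.ne_zero 𝔄.2 h0
  let 𝔄'₀ : (Ideal (𝓞 L))⁰ := ⟨𝔄', mem_nonZeroDivisors_iff_ne_zero.2 h𝔄'0⟩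
  have hmove0 : spanS L hδ₁ * 𝔄 = spanS L hδ₂ * 𝔄'₀ := Subtype.ext hmove
  have hN := congrArg (relNorm0 F L) hmove0
  rw [map_mul, map_mul, relNorm0_spanS, relNorm0_spanS] at hN
  set n₁ := Algebra.intNorm (𝓞 F) (𝓞 L) δ₁ with hn₁
  set n₂ := Algebra.intNorm (𝓞 F) (𝓞 L) δ₂ with hn₂
  have hn₁0 : n₁ ≠ 0 := by rwa [Ne, Algebra.intNorm_eq_zero]
  have hn₂0 : n₂ ≠ 0 := by rwa [Ne, Algebra.intNorm_eq_zero]
  -- the new relation
  have hrel : spanS F (mul_ne_zero hx hn₂0) * (B * relNorm0 F L 𝔄'₀) =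
      spanS F (mul_ne_zero hy hn₁0) * B' := by
    rw [← spanS_mul hx hn₂0, ← spanS_mul hy hn₁0]
    calc spanS F hx * spanS F hn₂0 * (B * relNorm0 F L 𝔄'₀)
        = spanS F hx * B * (spanS F hn₂0 * relNorm0 F L 𝔄'₀) := by
          simp only [mul_assoc, mul_left_comm]
      _ = spanS F hx * B * (spanS F hn₁0 * relNorm0 F L 𝔄) := by rw [hN]
      _ = spanS F hn₁0 * (spanS F hx * (B * relNorm0 F L 𝔄)) := by
          simp only [mul_assoc, mul_left_comm, mul_comm]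
      _ = spanS F hy * spanS F hn₁0 * B' := by
          rw [h]; simp only [mul_assoc, mul_left_comm]
  -- coprimality of `B * relNorm 𝔄'`
  have h𝔄'cop : ¬ ℓ ∣ Ideal.absNorm 𝔄' := (sup_span_natCast_eq_top_iff hℓ 𝔄').1 hcop
  have hBN : ¬ ℓ ∣ Ideal.absNorm ((B * relNorm0 F L 𝔄'₀ : (Ideal (𝓞 F))⁰) : Ideal (𝓞 F)) := by
    rw [Submonoid.coe_mul, map_mul, coe_relNorm0, Ideal.absNorm_relNorm]
    intro hdvd
    rcases (Nat.Prime.dvd_mul hℓ).1 hdvd with h5 | h5
    · exact hB h5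
    · exact h𝔄'cop h5
  obtain ⟨s, d, hs0, hd0, hscop, hdcop, hsd⟩ := exists_coprime_ratio hℓ
    (mul_ne_zero hx hn₂0) (mul_ne_zero hy hn₁0) hBN hB' (congrArg Subtype.val hrel)
  have h1 := congrArg A hrel
  rw [map_mul, map_mul, map_mul, hnorm, mul_one] at h1
  have h2 : spanS F (mul_ne_zero hx hn₂0) * spanS F hd0 =
      spanS F (mul_ne_zero hy hn₁0) * spanS F hs0 := by
    rw [spanS_mul, spanS_mul]
    exact Subtype.ext (by simp only [spanS]; rw [hsd])
  have h3 := congrArg A h2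
  rw [map_mul, map_mul, hprin d hd0 hdcop, hprin s hs0 hscop, mul_one, mul_one] at h3
  rw [h3] at h1
  exact mul_left_cancel h1

include hℓ in
/-- **Kernel of a reciprocity character.**  Let `A` be a character of the ideal group of `F`
with values in a group, killing the principal ideals prime to `ℓ` and the norms from `L`.  If some
ideal prime to `ℓ` is sent to an element of prime order `p` and the norm class subgroup has index
at most `p` (second inequality), then every ideal prime to `ℓ` in the kernel of `A` lies in a norm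
class. -/
theorem mk0_mem_normClasses_of_map_eq_one {p : ℕ}
    (hprin : ∀ (x : 𝓞 F) (hx : x ≠ 0), ¬ ℓ ∣ Ideal.absNorm (Ideal.span {x}) → A (spanS F hx) = 1)
    (hnorm : ∀ 𝔄 : (Ideal (𝓞 L))⁰, A (relNorm0 F L 𝔄) = 1)
    (B₁ : (Ideal (𝓞 F))⁰) (hB₁ : ¬ ℓ ∣ Ideal.absNorm (B₁ : Ideal (𝓞 F)))
    (hord : orderOf (A B₁) = p) (hidx : (normClasses F L).index ≤ p)
    {B : (Ideal (𝓞 F))⁰} (hB : ¬ ℓ ∣ Ideal.absNorm (B : Ideal (𝓞 F))) (hAB : A B = 1) :
    ClassGroup.mk0 B ∈ normClasses F L := by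
  set H := normClasses F L with hH
  -- Claim: `A` factors through the quotient on ideals prime to `ℓ`
  have claim : ∀ (C C' : (Ideal (𝓞 F))⁰), ¬ ℓ ∣ Ideal.absNorm (C : Ideal (𝓞 F)) →
      ¬ ℓ ∣ Ideal.absNorm (C' : Ideal (𝓞 F)) →
      (QuotientGroup.mk (ClassGroup.mk0 C) : ClassGroup (𝓞 F) ⧸ H) =
        QuotientGroup.mk (ClassGroup.mk0 C') → A C = A C' := by
    intro C C' hC hC' hCC'
    rw [QuotientGroup.eq, hH, mem_normClasses_iff] at hCC'
    obtain ⟨𝔄, h𝔄⟩ := hCC'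
    have h1 : ClassGroup.mk0 (C * relNorm0 F L 𝔄) = ClassGroup.mk0 C' := by
      rw [map_mul, h𝔄, mul_inv_cancel_left]
    rw [ClassGroup.mk0_eq_mk0_iff] at h1
    obtain ⟨x, y, hx, hy, hxy⟩ := h1
    exact map_eq_of_rel A hℓ hprin hnorm hC hC' hx hy 𝔄 (Subtype.ext hxy)
  have hpow : ∀ j : ℕ, ¬ ℓ ∣ Ideal.absNorm ((B₁ ^ j : (Ideal (𝓞 F))⁰) : Ideal (𝓞 F)) := by
    intro j hdvd
    rw [SubmonoidClass.coe_pow, map_pow] at hdvd
    exact hB₁ (hℓ.dvd_of_dvd_pow hdvd)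
  let f : Fin p → ClassGroup (𝓞 F) ⧸ H := fun j => QuotientGroup.mk (ClassGroup.mk0 (B₁ ^ (j : ℕ)))
  have hf : Function.Injective f := by
    intro i j hij
    have h1 := claim _ _ (hpow i) (hpow j) hij
    rw [map_pow, map_pow, pow_eq_pow_iff_modEq, hord] at h1
    exact Fin.ext (by
      have := Nat.ModEq.eq_of_lt_of_lt h1 i.2 j.2
      exact this)
  have hcard : Nat.card (ClassGroup (𝓞 F) ⧸ H) ≤ Nat.card (Fin p) := by
    rw [Nat.card_fin]
    exact hidx
  have hbij := hf.bijective_of_nat_card_le hcard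
  obtain ⟨j, hj⟩ := hbij.2 (QuotientGroup.mk (ClassGroup.mk0 B))
  have h2 := claim _ _ (hpow j) hB hj
  rw [hAB, map_pow] at h2
  have h3 : (j : ℕ) = 0 := by
    have h4 := orderOf_dvd_of_pow_eq_one h2
    rw [hord] at h4
    exact Nat.eq_zero_of_dvd_of_lt h4 j.2
  have h5 : f j = 1 := by
    simp only [f, h3, pow_zero, map_one, QuotientGroup.mk_one]
  rw [h5] at hj
  have := hj.symm
  rwa [QuotientGroup.eq_one_iff] at this

end NF

end Fermat.Agent.ExtVan.Crossing
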