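/-
S14 long shot, brick [C] = crossing (helper8).  The abstract crossing lemma
`pair_mem_normClasses`: towers `K ⊆ M ⊆ T`, `K ⊆ L ⊆ T` with `L` the fixed field of the Frobenius
of `q₁` in the abelian extension `T/K`.
-/
import Fermat.Agent.ExtVan.ArtinCyclo
import Fermat.Agent.ExtVan.Crossing.NormClass

open NumberField nonZeroDivisors IsDedekindDomain

namespace Fermat.Agent.ExtVan.Crossing

open Fermat.Agent.ExtVan

section Pair

variable {K M T : Type*} [Field K] [Field M] [Field T] [NumberField K] [NumberField M]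
  [NumberField T] [Algebra K M] [Algebra M T] [Algebra K T] [IsScalarTower K M T]
  [IsAbelianGalois K T] [IsAbelianGalois K M]

variable (q₁ : HeightOneSpectrum (𝓞 K))

/-- The decomposition-type field of the crossing: fixed field of the Frobenius of `q₁`. -/
noncomputable def crossField : IntermediateField K T :=
  IntermediateField.fixedField (Subgroup.zpowers (frob K T q₁))

variable {q₁}

theorem mem_fixingSubgroup_crossField_iff (g : Gal(T/K)) :
    g ∈ (crossField (T := T) q₁).fixingSubgroup ↔ g ∈ Subgroup.zpowers (frob K T q₁) := by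
  rw [crossField, IntermediateField.fixingSubgroup_fixedField]

/-- Elements of `Gal(T/L)` are powers of the Frobenius of `q₁`. -/
theorem restrictScalars_mem_zpowers (g : Gal(T/(crossField (T := T) q₁))) :
    g.restrictScalars K ∈ Subgroup.zpowers (frob K T q₁) := by
  rw [← mem_fixingSubgroup_crossField_iff, IntermediateField.mem_fixingSubgroup_iff]
  intro x hx
  exact g.commutes ⟨x, hx⟩

theorem finrank_crossField {p : ℕ} (hord : orderOf (frob K T q₁) = p) :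
    Module.finrank (crossField (T := T) q₁) T = p := by
  rw [crossField, IntermediateField.finrank_fixedField_eq_card, Nat.card_zpowers, hord]

/-- If the Frobenius of `q` in `T/K` is a power of that of `q₁`, then every prime of `L` above `q`
has residue degree one over `q`. -/
theorem inertiaDeg_eq_one_of_frob_mem {q : HeightOneSpectrum (𝓞 K)} (hq : UnramAt K T q)
    (hmem : frob K T q ∈ Subgroup.zpowers (frob K T q₁))
    (Q' : Ideal (𝓞 (crossField (T := T) q₁))) [Q'.IsPrime] [Q'.LiesOver q.asIdeal] :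
    Q'.inertiaDeg (𝓞 K) = 1 := by
  rw [← frob_mem_fixingSubgroup_iff (crossField (T := T) q₁) hq Q',
    mem_fixingSubgroup_crossField_iff]
  exact hmem

/-- The Frobenius in `T/L` of a prime `Q'` of `L` of residue degree one over `q` is the Frobenius
of `q` in `T/K`. -/
theorem restrictScalars_frob_of_inertiaDeg_eq_one {q : HeightOneSpectrum (𝓞 K)}
    (hq : UnramAt K T q) (Q' : HeightOneSpectrum (𝓞 (crossField (T := T) q₁)))
    [Q'.asIdeal.LiesOver q.asIdeal] (hf : Q'.asIdeal.inertiaDeg (𝓞 K) = 1) :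
    (frob (crossField (T := T) q₁) T Q').restrictScalars K = frob K T q := by
  have hbelow : primeBelow K (crossField (T := T) q₁) Q' = q := by
    apply HeightOneSpectrum.ext
    show Q'.asIdeal.under (𝓞 K) = q.asIdeal
    exact (Q'.asIdeal.over_def q.asIdeal).symm
  have h := restrictScalars_frob (K := K) (E := crossField (T := T) q₁) (N := T) Q'
    (by rw [hbelow]; exact hq)
  rw [hbelow, hf, pow_one] at h
  exact h

theorem relNorm0_eq_relNorm₀ {F L : Type*} [Field F] [NumberField F] [Field L] [NumberField L]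
    [Algebra F L] [IsAbelianGalois F L] (𝔄 : (Ideal (𝓞 L))⁰) :
    relNorm0 F L 𝔄 = relNorm₀ F L 𝔄 :=
  Subtype.ext rfl

/-- **Abstract crossing.**  `K ⊆ M ⊆ T` with `T/K` abelian of exponent `p`, `M/K` unramified,
`L` the fixed field of the Frobenius `F₁` of `q₁` in `T/K`, `T/L` unramified; `q₁` inert in `M`,
`Frob_{T/K}(q₂) = F₁ ^ k`.  If `Art_{T/L}` kills the principal ideals prime to `ℓ` and the second
inequality holds for `T/L`, then `q₁ ^ k * q₂ ^ (p-1)` lies in a norm class of `M/K`. -/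
theorem pair_mem_normClasses {p ℓ : ℕ} (hp : p.Prime) (hℓ : ℓ.Prime)
    (hexp : ∀ g : Gal(T/K), g ^ p = 1)
    (hunrL : ∀ Q' : HeightOneSpectrum (𝓞 (crossField (T := T) q₁)),
      UnramAt (crossField (T := T) q₁) T Q')
    {q₂ : HeightOneSpectrum (𝓞 K)} (hq₁ : UnramAt K T q₁) (hq₂ : UnramAt K T q₂)
    (h₁ : frob K M q₁ ≠ 1) {k : ℕ} (h₂ : frob K T q₂ = frob K T q₁ ^ k)
    (hℓ₁ : ¬ ℓ ∣ Ideal.absNorm q₁.asIdeal) (hℓ₂ : ¬ ℓ ∣ Ideal.absNorm q₂.asIdeal)
    (hrec : ∀ (β : 𝓞 (crossField (T := T) q₁)) (hβ : β ≠ 0),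
      ¬ ℓ ∣ Ideal.absNorm (Ideal.span {β}) → artin (crossField (T := T) q₁) T (spanS _ hβ) = 1)
    (hsec : (normClasses (crossField (T := T) q₁) T).index ≤
      Module.finrank (crossField (T := T) q₁) T) :
    ClassGroup.mk0 (primeIdeal K q₁ ^ k * primeIdeal K q₂ ^ (p - 1)) ∈ normClasses K M := by
  have : Fact p.Prime := ⟨hp⟩
  have : IsAbelianGalois M T := IsAbelianGalois.tower_top K M T
  set L := crossField (T := T) q₁ with hL
  set F₁ := frob K T q₁ with hF₁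
  -- (i) the order of `F₁`
  have hres : AlgEquiv.restrictNormalHom M F₁ = frob K M q₁ := restrictNormalHom_frob (E := M) hq₁
  have hF₁ne : F₁ ≠ 1 := by
    intro h
    rw [h, map_one] at hres
    exact h₁ hres.symm
  have hord : orderOf F₁ = p := orderOf_eq_prime (hexp F₁) hF₁ne
  have hfin : Module.finrank L T = p := finrank_crossField hord
  -- (iv) primes of `L` above `q₁`, `q₂`
  obtain ⟨⟨Q₁, hQ₁p, hQ₁o⟩⟩ := Ideal.nonempty_primesOver (S := 𝓞 L) q₁.asIdeal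
  obtain ⟨⟨Q₂, hQ₂p, hQ₂o⟩⟩ := Ideal.nonempty_primesOver (S := 𝓞 L) q₂.asIdeal
  let 𝔔₁ : HeightOneSpectrum (𝓞 L) := ⟨Q₁, hQ₁p, Ideal.ne_bot_of_liesOver_of_ne_bot q₁.ne_bot Q₁⟩
  let 𝔔₂ : HeightOneSpectrum (𝓞 L) := ⟨Q₂, hQ₂p, Ideal.ne_bot_of_liesOver_of_ne_bot q₂.ne_bot Q₂⟩
  have : 𝔔₁.asIdeal.LiesOver q₁.asIdeal := hQ₁o
  have : 𝔔₂.asIdeal.LiesOver q₂.asIdeal := hQ₂o
  have hf₁ : 𝔔₁.asIdeal.inertiaDeg (𝓞 K) = 1 :=
    inertiaDeg_eq_one_of_frob_mem hq₁ (Subgroup.mem_zpowers _) Q₁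
  have hf₂ : 𝔔₂.asIdeal.inertiaDeg (𝓞 K) = 1 :=
    inertiaDeg_eq_one_of_frob_mem hq₂ (by rw [h₂]; exact Subgroup.npow_mem_zpowers _ _) Q₂
  -- (v) their Frobenius elements
  have hfr₁ : (frob L T 𝔔₁).restrictScalars K = F₁ :=
    restrictScalars_frob_of_inertiaDeg_eq_one hq₁ 𝔔₁ hf₁
  have hfr₂ : (frob L T 𝔔₂).restrictScalars K = F₁ ^ k := by
    rw [restrictScalars_frob_of_inertiaDeg_eq_one hq₂ 𝔔₂ hf₂, h₂]
  have hinj : Function.Injective (resScalarsHom (K := K) (E := L) (N := T)) :=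
    AlgEquiv.restrictScalars_injective K
  -- norms
  have hN₁ : Ideal.absNorm 𝔔₁.asIdeal = Ideal.absNorm q₁.asIdeal := by
    rw [← Ideal.absNorm_pow_inertiaDeg q₁.asIdeal 𝔔₁.asIdeal, hf₁, pow_one]
  have hN₂ : Ideal.absNorm 𝔔₂.asIdeal = Ideal.absNorm q₂.asIdeal := by
    rw [← Ideal.absNorm_pow_inertiaDeg q₂.asIdeal 𝔔₂.asIdeal, hf₂, pow_one]
  -- (vi) the ideal `𝔅`
  set 𝔅 : (Ideal (𝓞 L))⁰ := primeIdeal L 𝔔₁ ^ k * primeIdeal L 𝔔₂ ^ (p - 1) with h𝔅
  have hA𝔅 : artin L T 𝔅 = 1 := by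
    apply hinj
    rw [map_one, h𝔅, map_mul, map_pow, map_pow, artin_primeIdeal, artin_primeIdeal, map_mul,
      map_pow, map_pow, resScalarsHom_apply, resScalarsHom_apply, hfr₁, hfr₂, ← pow_mul, ← pow_add]
    have : k + k * (p - 1) = k * p := by
      have := hp.one_le
      nth_rewrite 1 [← mul_one k]
      rw [← mul_add, Nat.add_sub_cancel' this]
    rw [this, mul_comm, pow_mul, hexp, one_pow]
  have h𝔅cop : ¬ ℓ ∣ Ideal.absNorm (𝔅 : Ideal (𝓞 L)) := by
    rw [h𝔅, Submonoid.coe_mul, SubmonoidClass.coe_pow, SubmonoidClass.coe_pow, map_mul, map_pow,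
      map_pow, coe_primeIdeal, coe_primeIdeal, hN₁, hN₂]
    intro hdvd
    rcases (Nat.Prime.dvd_mul hℓ).1 hdvd with h | h
    · exact hℓ₁ (hℓ.dvd_of_dvd_pow h)
    · exact hℓ₂ (hℓ.dvd_of_dvd_pow h)
  -- (vii) the kernel lemma
  have hB₁ord : orderOf (artin L T (primeIdeal L 𝔔₁)) = p := by
    rw [artin_primeIdeal, ← orderOf_injective (resScalarsHom (K := K) (E := L) (N := T)) hinj,
      resScalarsHom_apply, hfr₁, hord]
  have hmem : ClassGroup.mk0 𝔅 ∈ normClasses L T :=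
    mk0_mem_normClasses_of_map_eq_one (artin L T) hℓ hrec
      (fun 𝔄 => by rw [relNorm0_eq_relNorm₀]; exact artin_relNorm₀ L T hunrL 𝔄)
      (primeIdeal L 𝔔₁) (by rw [coe_primeIdeal, hN₁]; exact hℓ₁) hB₁ord (hfin ▸ hsec) h𝔅cop hA𝔅
  -- (viii) push down with the relative norm
  rw [mem_normClasses_iff] at hmem
  obtain ⟨𝔄, h𝔄⟩ := hmem
  rw [ClassGroup.mk0_eq_mk0_iff] at h𝔄
  obtain ⟨x, y, hx, hy, hxy⟩ := h𝔄
  rw [mem_normClasses_iff]
  refine ⟨relNorm0 M T 𝔄, ?_⟩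
  rw [ClassGroup.mk0_eq_mk0_iff]
  refine ⟨Algebra.intNorm (𝓞 K) (𝓞 L) x, Algebra.intNorm (𝓞 K) (𝓞 L) y,
    by rwa [Ne, Algebra.intNorm_eq_zero], by rwa [Ne, Algebra.intNorm_eq_zero], ?_⟩
  have h3 := congrArg (Ideal.relNorm (𝓞 K)) hxy
  rw [map_mul, map_mul, Ideal.relNorm_singleton, Ideal.relNorm_singleton, coe_relNorm0,
    Ideal.relNorm_relNorm, h𝔅, Submonoid.coe_mul, SubmonoidClass.coe_pow, SubmonoidClass.coe_pow,
    map_mul, map_pow, map_pow, coe_primeIdeal, coe_primeIdeal, relNorm_asIdeal, relNorm_asIdeal,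
    hf₁, hf₂, pow_one, pow_one] at h3
  have hb₁ : primeBelow K L 𝔔₁ = q₁ := by
    apply HeightOneSpectrum.ext
    exact (𝔔₁.asIdeal.over_def q₁.asIdeal).symm
  have hb₂ : primeBelow K L 𝔔₂ = q₂ := by
    apply HeightOneSpectrum.ext
    exact (𝔔₂.asIdeal.over_def q₂.asIdeal).symm
  rw [hb₁, hb₂] at h3
  rw [coe_relNorm0, coe_relNorm0, Ideal.relNorm_relNorm, Submonoid.coe_mul, SubmonoidClass.coe_pow,
    SubmonoidClass.coe_pow, coe_primeIdeal, coe_primeIdeal]
  exact h3.symm ▸ rfl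

end Pair

end Fermat.Agent.ExtVan.Crossing
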