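/-
S14 long shot, crossing brick (P-D) (helper3): the degree of the crossing field
`L = crossField q₁ ⊆ fieldME K M hζ p` over `K` is a positive power of `p`.
`Gal(L/K)` is a quotient of `Gal(ME/K)` (killed by `p`), and it is nontrivial because an inertia
element above `l` whose cyclotomic character is not a `p`-th power cannot restrict to a power of
the Frobenius of `q₁`.
-/
import Fermat.Agent.ExtVan.Crossing.Fields
import Fermat.Agent.ExtVan.Crossing.Pair
import Fermat.Agent.ExtVan.Crossing.RamSource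
import Fermat.Agent.ExtVan.Crossing.NormResidue

set_option autoImplicit false
set_option linter.unusedSectionVars false
set_option linter.style.haveILetI false

open NumberField nonZeroDivisors IsDedekindDomain

namespace Fermat.Agent.ExtVan.Crossing

open Fermat.Agent.ExtVan

namespace DegreePow

/-- in a finite commutative group of order divisible by the prime `p`, not every element is a
`p`-th power. -/
lemma exists_not_pow_of_dvd_card {G : Type*} [CommGroup G] [Finite G] {p : ℕ} (hp : p.Prime)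
    (hdvd : p ∣ Nat.card G) : ∃ u : G, ¬ ∃ c : G, c ^ p = u := by
  classical
  haveI : Fact p.Prime := ⟨hp⟩
  obtain ⟨x, hx⟩ := exists_prime_orderOf_dvd_card' p hdvd
  by_contra hcon
  push Not at hcon
  have hsurj : Function.Surjective (fun c : G => c ^ p) := hcon
  have hinj : Function.Injective (fun c : G => c ^ p) := Finite.injective_iff_surjective.mpr hsurj
  have h1 : x ^ p = (1 : G) ^ p := by
    rw [one_pow, ← hx]; exact pow_orderOf_eq_one x
  have hx1 : x = 1 := hinj h1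
  rw [hx1, orderOf_one] at hx
  exact hp.one_lt.ne hx


end DegreePow

open DegreePow

section DegreePowMain

variable {K M : Type*} {N : Type*} [Field K] [Field M] [Field N] [NumberField K] [NumberField M]
  [NumberField N] [Algebra K M] [Algebra M N] [Algebra K N] [IsScalarTower K M N]
  [IsAbelianGalois K N] [IsAbelianGalois K M]
  {l : ℕ} [hl : Fact l.Prime] {ζ : N} (hζ : IsPrimitiveRoot ζ l) {p : ℕ}

/-- **(P-D)** the degree of the crossing field `L` over `K` is a positive power of `p`. -/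
theorem exists_one_le_finrank_crossField_eq_pow (hp : p.Prime) (hdeg : Module.finrank K M = p)
    (hT3 : ∀ g : Gal(N/K), AlgEquiv.restrictNormalHom M g = 1 → cycloChar K hζ g = 1 → g = 1)
    (hM : ∀ q : HeightOneSpectrum (𝓞 K), UnramAt K M q)
    (hK : ∀ 𝔩 : Ideal (𝓞 K), 𝔩.IsPrime → (l : 𝓞 K) ∈ 𝔩 → 𝔩.ramificationIdx ℤ = 1)
    (hpl : p ∣ l - 1) {q₁ : HeightOneSpectrum (𝓞 K)}
    (hq₁ : UnramAt K (fieldME K M hζ p) q₁) (hne : frob K M q₁ ≠ 1) :
    ∃ n, 1 ≤ n ∧ Module.finrank K (crossField (T := fieldME K M hζ p) q₁) = p ^ n := by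
  classical
  haveI : Fact p.Prime := ⟨hp⟩
  haveI : NeZero l := ⟨hl.out.ne_zero⟩
  haveI : IsAbelianGalois M (fieldME K M hζ p) := IsAbelianGalois.tower_top K M (fieldME K M hζ p)
  set F₁ := frob K (fieldME K M hζ p) q₁ with hF₁
  -- `Gal(L/K)` is a `p`-group
  have hkill : ∀ σ : Gal((crossField (T := fieldME K M hζ p) q₁)/K), σ ^ p = 1 := by
    intro σ
    obtain ⟨g', rfl⟩ := AlgEquiv.restrictNormalHom_surjective (fieldME K M hζ p) σ
    rw [← map_pow, pow_eq_one_fieldME hdeg, map_one]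
  have hpg : IsPGroup p Gal((crossField (T := fieldME K M hζ p) q₁)/K) :=
    fun σ => ⟨1, by rw [pow_one]; exact hkill σ⟩
  obtain ⟨n, hn⟩ := IsPGroup.iff_card.mp hpg
  have hn' := hn
  rw [IsGalois.card_aut_eq_finrank] at hn'
  refine ⟨n, ?_, hn'⟩
  by_contra h0
  have hn0 : n = 0 := by omega
  rw [hn0, pow_zero] at hn
  haveI : Subsingleton Gal((crossField (T := fieldME K M hζ p) q₁)/K) :=
    (Nat.card_eq_one_iff_unique.mp hn).1
  -- a unit which is not a `p`-th power
  obtain ⟨u, hu⟩ := exists_not_pow_of_dvd_card (G := (ZMod l)ˣ) hp (by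
    rw [Nat.card_eq_fintype_card, ZMod.card_units_eq_totient, Nat.totient_prime hl.out]
    exact hpl)
  obtain ⟨Q, hQ, hlQ⟩ := exists_isPrime_natCast_mem N hl.out
  haveI := hQ
  obtain ⟨i, hi, hiu⟩ := exists_mem_inertia_autToPow_eq (M := M) hl.out hζ hK hM hT3 Q hlQ u
  -- the prime of `K` below `Q`
  set 𝔩 : Ideal (𝓞 K) := Q.under (𝓞 K) with h𝔩
  haveI : Q.LiesOver 𝔩 := ⟨rfl⟩
  haveI h𝔩prime : 𝔩.IsPrime := Ideal.IsPrime.under (𝓞 K) Q
  have hl𝔩 : (l : 𝓞 K) ∈ 𝔩 := by
    rw [h𝔩, Ideal.under_def, Ideal.mem_comap, map_natCast]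
    exact hlQ
  have h𝔩0 : 𝔩 ≠ ⊥ := by
    intro h
    rw [h, Ideal.mem_bot] at hl𝔩
    exact hl.out.ne_zero (by exact_mod_cast hl𝔩)
  let q : HeightOneSpectrum (𝓞 K) := ⟨𝔩, h𝔩prime, h𝔩0⟩
  haveI : Q.LiesOver q.asIdeal := ⟨rfl⟩
  have hresM : AlgEquiv.restrictNormalHom M i = 1 :=
    restrictNormalHom_eq_one_of_mem_inertia (M := M) (hM q) Q hi
  set i' : Gal((fieldME K M hζ p)/K) := AlgEquiv.restrictNormalHom (fieldME K M hζ p) i with hi'
  have hmem : i' ∈ Subgroup.zpowers F₁ := by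
    rw [hF₁, ← mem_fixingSubgroup_crossField_iff, IntermediateField.mem_fixingSubgroup_iff]
    intro x hx
    have h1 := AlgEquiv.restrictNormal_commutes i' (crossField (T := fieldME K M hζ p) q₁) ⟨x, hx⟩
    have h2 : i'.restrictNormal (crossField (T := fieldME K M hζ p) q₁) = 1 :=
      Subsingleton.elim _ _
    rw [h2] at h1
    exact h1.symm
  obtain ⟨j, hj⟩ := Subgroup.mem_zpowers_iff.mp hmem
  have h1 : AlgEquiv.restrictNormalHom M i' = 1 := by
    rw [hi', restrictNormalHom_restrictNormalHom_fieldME]; exact hresM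
  have h2 : AlgEquiv.restrictNormalHom M F₁ = frob K M q₁ := restrictNormalHom_frob (E := M) hq₁
  have h3 : (frob K M q₁) ^ j = 1 := by rw [← h2, ← map_zpow, hj, h1]
  have hord : orderOf (frob K M q₁) = p :=
    orderOf_eq_prime (by rw [← hdeg, ← IsGalois.card_aut_eq_finrank]; exact pow_card_eq_one') hne
  have hpj : (p : ℤ) ∣ j := by rw [← hord]; exact orderOf_dvd_iff_zpow_eq_one.mpr h3
  have hi'1 : i' = 1 := by
    obtain ⟨t, rfl⟩ := hpj
    rw [← hj, zpow_mul, zpow_natCast, pow_eq_one_fieldME hdeg, one_zpow]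
  have hig : i ∈ gammaME K M hζ p := (restrictNormalHom_fieldME_eq_one_iff i).mp hi'1
  rw [mem_gammaME_iff, mem_powSubgroup_iff] at hig
  obtain ⟨c, hc⟩ := hig.2
  exact hu ⟨c, by rw [hc]; exact hiu⟩


/-- a prime ideal containing the rational prime `l` has absolute norm divisible by `l`. -/
lemma DegreePow.dvd_absNorm_of_natCast_mem_prime {q : HeightOneSpectrum (𝓞 K)} (hlq : (l : 𝓞 K) ∈ q.asIdeal) :
    l ∣ Ideal.absNorm q.asIdeal := by
  have hle : Ideal.span {(l : 𝓞 K)} ≤ q.asIdeal := (Ideal.span_singleton_le_iff_mem _).mpr hlq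
  have hdvd := Ideal.absNorm_dvd_absNorm_of_le hle
  rw [Ideal.absNorm_span_singleton] at hdvd
  have h2 : ((l : ℕ) : 𝓞 K) = algebraMap ℤ (𝓞 K) (l : ℤ) := by simp
  rw [h2, Algebra.norm_algebraMap, Int.natAbs_pow, Int.natAbs_natCast] at hdvd
  obtain ⟨k, -, hk⟩ := (Nat.dvd_prime_pow hl.out).mp hdvd
  have hk0 : k ≠ 0 := by
    rintro rfl
    rw [pow_zero, Ideal.absNorm_eq_one_iff] at hk
    exact q.isPrime.ne_top hk
  rw [hk]
  exact dvd_pow_self l hk0

/-- (P-A)-type helper: primes of `K` prime to `l` are unramified in `fieldME`. -/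
theorem DegreePow.unramAt_fieldME_of_not_dvd
    (hT3 : ∀ g : Gal(N/K), AlgEquiv.restrictNormalHom M g = 1 → cycloChar K hζ g = 1 → g = 1)
    {q : HeightOneSpectrum (𝓞 K)} (hqM : UnramAt K M q)
    (h : ¬ l ∣ Ideal.absNorm q.asIdeal) : UnramAt K (fieldME K M hζ p) q := by
  haveI : NeZero l := ⟨hl.out.ne_zero⟩
  have hN : UnramAt K N q :=
    unramAt_of_natCast_not_mem (M := M) hζ hT3 hqM (fun hmem => h (dvd_absNorm_of_natCast_mem_prime hmem))
  exact hN.tower_bot (E := fieldME K M hζ p)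

/-- **(P-D)**, with the hypothesis `¬ l ∣ absNorm q₁`. -/
theorem exists_one_le_finrank_crossField_eq_pow' (hp : p.Prime) (hdeg : Module.finrank K M = p)
    (hT3 : ∀ g : Gal(N/K), AlgEquiv.restrictNormalHom M g = 1 → cycloChar K hζ g = 1 → g = 1)
    (hM : ∀ q : HeightOneSpectrum (𝓞 K), UnramAt K M q)
    (hK : ∀ 𝔩 : Ideal (𝓞 K), 𝔩.IsPrime → (l : 𝓞 K) ∈ 𝔩 → 𝔩.ramificationIdx ℤ = 1)
    (hpl : p ∣ l - 1) {q₁ : HeightOneSpectrum (𝓞 K)}
    (h₁ : ¬ l ∣ Ideal.absNorm q₁.asIdeal) (hne : frob K M q₁ ≠ 1) :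
    ∃ n, 1 ≤ n ∧ Module.finrank K (crossField (T := fieldME K M hζ p) q₁) = p ^ n :=
  exists_one_le_finrank_crossField_eq_pow hζ hp hdeg hT3 hM hK hpl
    (unramAt_fieldME_of_not_dvd hζ hT3 (hM q₁) h₁) hne

end DegreePowMain

end Fermat.Agent.ExtVan.Crossing
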