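/-
S14 long shot, crossing brick (d) (helper6): EXPLICIT RECIPROCITY for `T/L`, the `hrec` input of
`Crossing.pair_mem_normClasses`.  `K ⊆ T ⊆ N`, `N/K` abelian containing a primitive `l`-th root of
unity, every element of `Gal(N/T)` acts on `ζ` through a `p`-th power, `L` the fixed field of the
Frobenius of `q₁` in `T/K` where `N(q₁)` is not a `p`-th power mod `l`.  If the absolute norms of
the principal ideals `N_{L/K}(β)` are `p`-th powers mod `l`, then `Art_{T/L}((β)) = 1` for every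
`β` prime to `l`.
-/
import Fermat.Agent.ExtVan.Crossing.Pair
import Fermat.Agent.ExtVan.Crossing.CycloTower
import Fermat.Agent.ExtVan.Crossing.CycloSide
import Fermat.Agent.ExtVan.Crossing.NormResidue

set_option autoImplicit false
set_option linter.unusedSectionVars false
set_option linter.style.haveILetI false

open NumberField nonZeroDivisors IsDedekindDomain

namespace Fermat.Agent.ExtVan.Crossing

open Fermat.Agent.ExtVan

section Group

/-- In a commutative group, if `x ^ j` is a `p`-th power (`p` prime) but `x` is not, then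
`p ∣ j`. -/
lemma dvd_of_pow_eq_pow_of_not_exists {G : Type*} [CommGroup G] {p : ℕ} (hp : p.Prime) {x : G}
    (hx : ¬ ∃ u : G, x = u ^ p) {j : ℕ} (hj : ∃ v : G, x ^ j = v ^ p) : p ∣ j := by
  by_contra hpj
  apply hx
  obtain ⟨v, hv⟩ := hj
  have hcop : Nat.Coprime j p := (Nat.Prime.coprime_iff_not_dvd hp).mpr hpj |>.symm
  -- `a * j + b * p = 1` in `ℤ`
  have hg := Int.gcd_eq_gcd_ab (j : ℤ) (p : ℤ)
  have hg1 : Int.gcd (j : ℤ) (p : ℤ) = 1 := by
    rw [Int.gcd_natCast_natCast]; exact hcop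
  rw [hg1] at hg
  refine ⟨v ^ (Int.gcdA j p) * x ^ (Int.gcdB j p), ?_⟩
  set a := Int.gcdA j p
  set b := Int.gcdB j p
  calc x = x ^ (1 : ℤ) := (zpow_one x).symm
    _ = x ^ ((j : ℤ) * a + (p : ℤ) * b) := by rw [← hg]; simp
    _ = (x ^ j) ^ a * (x ^ b) ^ p := by
        rw [zpow_add, zpow_mul, zpow_natCast, mul_comm (p : ℤ) b, zpow_mul, zpow_natCast]
    _ = (v ^ p) ^ a * (x ^ b) ^ p := by rw [hv]
    _ = (v ^ a * x ^ b) ^ p := by
        rw [mul_pow, ← zpow_natCast (v ^ a) p, ← zpow_mul, mul_comm a (p : ℤ), zpow_mul,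
          zpow_natCast]

end Group

section ExplicitRecip

variable {K N : Type*} [Field K] [Field N] [NumberField K] [NumberField N] [Algebra K N]
  [IsAbelianGalois K N] {l p : ℕ} [NeZero l] {ζ : N} (hζ : IsPrimitiveRoot ζ l)
  (T : IntermediateField K N) {q₁ : HeightOneSpectrum (𝓞 K)}

/-- membership in the fixing subgroup from triviality of the restriction -/
lemma mem_fixingSubgroup_of_restrictNormalHom_eq_one {X : Gal(N/K)}
    (hX : AlgEquiv.restrictNormalHom T X = 1) : X ∈ T.fixingSubgroup := by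
  rw [IntermediateField.mem_fixingSubgroup_iff]
  intro x hx
  exact (restrictNormalHom_eq_one_iff (E := T) X).mp hX ⟨x, hx⟩

/-- **Explicit reciprocity** for `T/L`, `L` the fixed field of the Frobenius of `q₁`. -/
theorem artin_spanS_eq_one (hl : l.Prime) (hp : p.Prime)
    (hTfix : ∀ g : Gal(N/K), g ∈ T.fixingSubgroup → ∃ u : (ZMod l)ˣ, hζ.autToPow K g = u ^ p)
    (hexp : ∀ g : Gal(T/K), g ^ p = 1)
    (hunrN : ∀ q : HeightOneSpectrum (𝓞 K), ¬ l ∣ Ideal.absNorm q.asIdeal → UnramAt K N q)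
    (hq₁l : ¬ l ∣ Ideal.absNorm q₁.asIdeal)
    (hq₁ : ¬ ∃ c : ZMod l, c ^ p = (Ideal.absNorm q₁.asIdeal : ZMod l))
    (hnorm : ∀ β : 𝓞 (crossField (T := T) q₁), ∃ c : ZMod l,
      ((Ideal.absNorm (Ideal.relNorm (𝓞 K) (Ideal.span {β})) : ℕ) : ZMod l) = c ^ p)
    (β : 𝓞 (crossField (T := T) q₁)) (hβ : β ≠ 0)
    (hβl : ¬ l ∣ Ideal.absNorm (Ideal.span {β})) :
    artin (crossField (T := T) q₁) T (spanS _ hβ) = 1 := by
  haveI : Fact l.Prime := ⟨hl⟩
  set B : Ideal (𝓞 (crossField (T := T) q₁)) := Ideal.span {β} with hB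
  have hB0 : B ≠ 0 := by
    rw [hB, Ne, Ideal.zero_eq_bot, Ideal.span_singleton_eq_bot]
    exact hβ
  set I : Ideal (𝓞 K) := Ideal.relNorm (𝓞 K) B with hI
  have hI0 : I ≠ 0 := relNorm_ne_zero K (crossField (T := T) q₁) hB0
  have hIl : ¬ l ∣ Ideal.absNorm I := by
    rw [hI, Ideal.absNorm_relNorm]
    exact hβl
  have hIq : ∀ q : HeightOneSpectrum (𝓞 K), q.asIdeal ∣ I → ¬ l ∣ Ideal.absNorm q.asIdeal :=
    fun q hq h => hIl (h.trans (map_dvd Ideal.absNorm hq))
  -- base change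
  have h1 : (artinFun (crossField (T := T) q₁) T B).restrictScalars K = artinFun K T I := by
    refine restrictScalars_artinFun (K := K) (E := crossField (T := T) q₁) (N := T) B hB0 (fun Q' hQ' => ?_)
    refine (hunrN _ ?_).tower_bot (E := T)
    intro h
    apply hβl
    have h2 : Ideal.absNorm (primeBelow K (crossField (T := T) q₁) Q').asIdeal ∣ Ideal.absNorm Q'.asIdeal := by
      rw [← Ideal.absNorm_pow_inertiaDeg (primeBelow K (crossField (T := T) q₁) Q').asIdeal Q'.asIdeal]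
      haveI := Q'.isPrime
      exact dvd_pow_self _ (Ideal.inertiaDeg_pos (R := 𝓞 K) (q := Q'.asIdeal)).ne'
    exact h.trans (h2.trans (map_dvd Ideal.absNorm hQ'))
  -- restriction from `N`
  have h2 : AlgEquiv.restrictNormalHom T (artinFun K N I) = artinFun K T I :=
    restrictNormalHom_artinFun (K := K) (E := T) (N := N) I hI0 (fun q hq => hunrN q (hIq q hq))
  -- the symbol is a power of the Frobenius of `q₁`
  have h3 : (artinFun (crossField (T := T) q₁) T B).restrictScalars K ∈ Subgroup.zpowers (frob K T q₁) :=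
    restrictScalars_mem_zpowers _
  obtain ⟨j, hj⟩ := mem_powers_iff_mem_zpowers.mpr h3
  have hj' : frob K T q₁ ^ j = artinFun K T I := by rw [← h1]; exact hj
  have hq₁N : UnramAt K N q₁ := hunrN q₁ hq₁l
  have h4 : AlgEquiv.restrictNormalHom T (frob K N q₁) = frob K T q₁ :=
    restrictNormalHom_frob (E := T) hq₁N
  -- the auxiliary element of `Gal(N/T)`
  set X : Gal(N/K) := artinFun K N I * (frob K N q₁ ^ j)⁻¹ with hX
  have hX1 : AlgEquiv.restrictNormalHom T X = 1 := by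
    rw [hX, map_mul, map_inv, map_pow, h2, h4, hj', mul_inv_cancel]
  obtain ⟨u, hu⟩ := hTfix X (mem_fixingSubgroup_of_restrictNormalHom_eq_one T hX1)
  -- cyclotomic characters
  have hcopI : Nat.Coprime l (Ideal.absNorm I) := (Nat.Prime.coprime_iff_not_dvd hl).mpr hIl
  have hκI := coe_autToPow_artinFun hζ I hI0 hcopI
  obtain ⟨c, hc⟩ := hnorm β
  obtain ⟨w, hw⟩ := (exists_unit_pow_eq_iff p hp.ne_zero (hζ.autToPow K (artinFun K N I))).mpr
    ⟨c, by rw [hκI, ← hc]⟩
  have hκF := coe_autToPow_frob hζ q₁ ((Nat.Prime.coprime_iff_not_dvd hl).mpr hq₁l)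
  have hFnot : ¬ ∃ v : (ZMod l)ˣ, hζ.autToPow K (frob K N q₁) = v ^ p := by
    rintro ⟨v, hv⟩
    apply hq₁
    refine ⟨(v : ZMod l), ?_⟩
    rw [← hκF, hv]
    push_cast
    rfl
  have hFpow : ∃ v : (ZMod l)ˣ, hζ.autToPow K (frob K N q₁) ^ j = v ^ p := by
    refine ⟨w * u⁻¹, ?_⟩
    have h5 : hζ.autToPow K X =
        hζ.autToPow K (artinFun K N I) * (hζ.autToPow K (frob K N q₁) ^ j)⁻¹ := by
      rw [hX, map_mul, map_inv, map_pow]
    rw [hu, ← hw] at h5
    rw [mul_pow, inv_pow, h5]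
    simp
  have hpj : p ∣ j := dvd_of_pow_eq_pow_of_not_exists hp hFnot hFpow
  -- conclusion
  obtain ⟨m, rfl⟩ := hpj
  have h6 : artinFun K T I = 1 := by
    rw [← hj', pow_mul, hexp, one_pow]
  have h7 : (artinFun (crossField (T := T) q₁) T B).restrictScalars K = 1 := by rw [h1, h6]
  have hinj : Function.Injective (AlgEquiv.restrictScalars K : Gal(T/(crossField (T := T) q₁)) → Gal(T/K)) :=
    AlgEquiv.restrictScalars_injective K
  apply hinj
  rw [artin_apply]
  exact h7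

/-- **Explicit reciprocity**, packaged with the norm-residue computation: `hnorm` is discharged
from total ramification above `l` (`hram`) and complete splitting of `l` in `K` (`hdeg`). -/
theorem artin_spanS_eq_one_of_totRam [IsGalois ℚ K] (hl : l.Prime) (hp : p.Prime) (hp2 : p ≠ 2)
    (hTfix : ∀ g : Gal(N/K), g ∈ T.fixingSubgroup → ∃ u : (ZMod l)ˣ, hζ.autToPow K g = u ^ p)
    (hexp : ∀ g : Gal(T/K), g ^ p = 1)
    (hunrN : ∀ q : HeightOneSpectrum (𝓞 K), ¬ l ∣ Ideal.absNorm q.asIdeal → UnramAt K N q)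
    (hq₁l : ¬ l ∣ Ideal.absNorm q₁.asIdeal)
    (hq₁ : ¬ ∃ c : ZMod l, c ^ p = (Ideal.absNorm q₁.asIdeal : ZMod l))
    (hfin : Module.finrank K (crossField (T := T) q₁) = p)
    (hdeg : ∀ 𝔩 : Ideal (𝓞 K), 𝔩.IsPrime → (l : 𝓞 K) ∈ 𝔩 → Ideal.absNorm 𝔩 = l)
    (hram : ∀ 𝔩 : Ideal (𝓞 K), 𝔩.IsPrime → (l : 𝓞 K) ∈ 𝔩 →
      ∃ Q : Ideal (𝓞 (crossField (T := T) q₁)), Q.IsPrime ∧ Q.LiesOver 𝔩 ∧
        Ideal.inertia Gal((crossField (T := T) q₁)/K) Q = ⊤)
    (β : 𝓞 (crossField (T := T) q₁)) (hβ : β ≠ 0)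
    (hβl : ¬ l ∣ Ideal.absNorm (Ideal.span {β})) :
    artin (crossField (T := T) q₁) T (spanS _ hβ) = 1 := by
  refine artin_spanS_eq_one hζ T hl hp hTfix hexp hunrN hq₁l hq₁ (fun β' => ?_) β hβ hβl
  have hodd : Odd (Module.finrank K (crossField (T := T) q₁)) := by
    rw [hfin]
    exact hp.odd_of_ne_two hp2
  have h := exists_zmod_pow_eq_absNorm_relNorm_span hl hodd hdeg hram β'
  rw [hfin] at h
  exact h

end ExplicitRecip

end Fermat.Agent.ExtVan.Crossing
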