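/-
S14 long shot, crossing brick (P-E) (helper6): explicit reciprocity in the concrete setting of
`Crossing/Fields.lean`: `ME = fieldME K M hζ p`, `L = crossField q₁`.  Every principal ideal `(β)`
of `L` prime to `l` has trivial Artin symbol in `ME/L`.
-/
import Fermat.Agent.ExtVan.Crossing.ExplicitRecip
import Fermat.Agent.ExtVan.Crossing.Fields

set_option autoImplicit false
set_option linter.unusedSectionVars false
set_option linter.style.haveILetI false

open NumberField nonZeroDivisors IsDedekindDomain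

namespace Fermat.Agent.ExtVan.Crossing

open Fermat.Agent.ExtVan

section ExplicitRecipME

variable {K M N : Type*} [Field K] [Field M] [Field N] [NumberField K] [NumberField M]
  [NumberField N] [Algebra K M] [Algebra M N] [Algebra K N] [IsScalarTower K M N]
  [IsAbelianGalois K N] [IsAbelianGalois K M]
  {l : ℕ} [hl : Fact l.Prime] {ζ : N} {hζ : IsPrimitiveRoot ζ l} {p : ℕ}
  {q₁ : HeightOneSpectrum (𝓞 K)}

/-- Primes of `K` not above `l` are unramified in `N = M(ζ_l)`. -/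
theorem unramAt_cycloTop_of_not_dvd
    (hT3 : ∀ g : Gal(N/K), AlgEquiv.restrictNormalHom M g = 1 → cycloChar K hζ g = 1 → g = 1)
    (hM : ∀ q : HeightOneSpectrum (𝓞 K), UnramAt K M q) (q : HeightOneSpectrum (𝓞 K))
    (hq : ¬ l ∣ Ideal.absNorm q.asIdeal) : UnramAt K N q := by
  haveI : NeZero l := ⟨hl.out.ne_zero⟩
  refine unramAt_of_natCast_not_mem (M := M) hζ (fun g h1 h2 => hT3 g h1 h2) (hM q) ?_
  exact natCast_not_mem_of_coprime K q ((Nat.Prime.coprime_iff_not_dvd hl.out).mpr hq)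

/-- **(P-E) Explicit reciprocity** for `ME/L`. -/
theorem artin_crossField_span_eq_one [IsGalois ℚ K] (hp : p.Prime)
    (hdeg : Module.finrank K M = p)
    (hT3 : ∀ g : Gal(N/K), AlgEquiv.restrictNormalHom M g = 1 → cycloChar K hζ g = 1 → g = 1)
    (hM : ∀ q : HeightOneSpectrum (𝓞 K), UnramAt K M q)
    (h₁ : ¬ l ∣ Ideal.absNorm q₁.asIdeal)
    (hnp : ¬ ∃ c : ZMod l, c ^ p = (Ideal.absNorm q₁.asIdeal : ZMod l))
    (hdegl : ∀ 𝔩 : Ideal (𝓞 K), 𝔩.IsPrime → (l : 𝓞 K) ∈ 𝔩 → Ideal.absNorm 𝔩 = l)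
    (hram : ∀ 𝔩 : Ideal (𝓞 K), 𝔩.IsPrime → (l : 𝓞 K) ∈ 𝔩 →
      ∃ Q : Ideal (𝓞 (crossField (T := fieldME K M hζ p) q₁)), Q.IsPrime ∧ Q.LiesOver 𝔩 ∧
        Ideal.inertia Gal((crossField (T := fieldME K M hζ p) q₁)/K) Q = ⊤)
    (hpow : ∃ n, 1 ≤ n ∧ Module.finrank K (crossField (T := fieldME K M hζ p) q₁) = p ^ n)
    (hodd : p ≠ 2)
    (β : 𝓞 (crossField (T := fieldME K M hζ p) q₁)) (hβ : β ≠ 0)
    (hβl : ¬ l ∣ Ideal.absNorm (Ideal.span {β})) :
    artin (crossField (T := fieldME K M hζ p) q₁) (fieldME K M hζ p) (spanS _ hβ) = 1 := by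
  haveI : NeZero l := ⟨hl.out.ne_zero⟩
  refine artin_spanS_eq_one hζ (fieldME K M hζ p) hl.out hp ?_ (pow_eq_one_fieldME hdeg)
    (unramAt_cycloTop_of_not_dvd hT3 hM) h₁ hnp (fun β' => ?_) β hβ hβl
  · intro g hg
    rw [fixingSubgroup_fieldME, mem_gammaME_iff, mem_powSubgroup_iff] at hg
    obtain ⟨u, hu⟩ := hg.2
    exact ⟨u, hu.symm⟩
  · obtain ⟨n, hn1, hn⟩ := hpow
    have hodd' : Odd (Module.finrank K (crossField (T := fieldME K M hζ p) q₁)) := by
      rw [hn]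
      exact (hp.odd_of_ne_two hodd).pow
    obtain ⟨c, hc⟩ := exists_zmod_pow_eq_absNorm_relNorm_span hl.out hodd' hdegl hram β'
    refine ⟨c ^ p ^ (n - 1), ?_⟩
    rw [hc, hn, ← pow_mul, ← pow_succ, Nat.sub_add_cancel hn1]

end ExplicitRecipME

end Fermat.Agent.ExtVan.Crossing
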