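/-
S14 long shot, crossing: group theory of `Gal(fieldME/K)` (helper9), pieces (P-A) and (P-B).

* `unramAt_top_of_not_dvd`, `unramAt_fieldME_of_not_dvd`: primes of `K` prime to `l` are unramified
  in `N` and in `fieldME`.
* `frob_fieldME_eq_pow` (= `h₂` of `pair_mem_normClasses`): if `Frob_{M/K}(q₂) = Frob_{M/K}(q₁)^k`
  and `N q₂ = (N q₁)^k c^p` mod `l`, then `Frob_{ME/K}(q₂) = Frob_{ME/K}(q₁)^k`.
* `eq_one_of_restrict_crossField`, `unramAt_crossField` (= `hunrL` of `pair_mem_normClasses`):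
  `ME / L` is unramified everywhere, `L` the fixed field of `Frob_{ME/K}(q₁)`, when `M / K` is
  unramified everywhere and `q₁` is inert in `M`.
-/
import Fermat.Agent.ExtVan.Crossing.Fields
import Fermat.Agent.ExtVan.Crossing.Pair

set_option autoImplicit false
set_option linter.unusedSectionVars false
set_option linter.style.haveILetI false

open NumberField nonZeroDivisors IsDedekindDomain

namespace Fermat.Agent.ExtVan.Crossing

open Fermat.Agent.ExtVan

section MEGroup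

variable {K M : Type*} {N : Type*} [Field K] [Field M] [Field N] [NumberField K] [NumberField M]
  [NumberField N] [Algebra K M] [Algebra M N] [Algebra K N] [IsScalarTower K M N]
  [IsAbelianGalois K N] [IsAbelianGalois K M]
  {l : ℕ} [hl : Fact l.Prime] {ζ : N} {hζ : IsPrimitiveRoot ζ l} {p : ℕ}

/-- a rational prime not dividing the norm of a prime ideal is not contained in it. -/
theorem natCast_not_mem_of_not_dvd_absNorm {q : HeightOneSpectrum (𝓞 K)}
    (h : ¬ l ∣ Ideal.absNorm q.asIdeal) : (l : 𝓞 K) ∉ q.asIdeal := by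
  intro hmem
  have hcop : Nat.Coprime l (Ideal.absNorm q.asIdeal) :=
    (Nat.Prime.coprime_iff_not_dvd hl.out).mpr h
  obtain ⟨a, b, hab⟩ := Nat.isCoprime_iff_coprime.mpr hcop
  apply q.isPrime.ne_top
  rw [Ideal.eq_top_iff_one]
  have h1 : ((a * (l : ℤ) + b * (Ideal.absNorm q.asIdeal : ℤ) : ℤ) : 𝓞 K) = 1 := by
    rw [hab]; simp
  rw [← h1]
  push_cast
  exact q.asIdeal.add_mem (q.asIdeal.mul_mem_left _ hmem)
    (q.asIdeal.mul_mem_left _ (Ideal.absNorm_mem q.asIdeal))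

/-- (P-A) primes prime to `l` are unramified in `N`. -/
theorem unramAt_top_of_not_dvd
    (hT3 : ∀ g : Gal(N/K), AlgEquiv.restrictNormalHom M g = 1 → cycloChar K hζ g = 1 → g = 1)
    (hM : ∀ q : HeightOneSpectrum (𝓞 K), UnramAt K M q) {q : HeightOneSpectrum (𝓞 K)}
    (h : ¬ l ∣ Ideal.absNorm q.asIdeal) : UnramAt K N q := by
  haveI : NeZero l := ⟨hl.out.ne_zero⟩
  exact unramAt_of_natCast_not_mem (M := M) hζ hT3 (hM q) (natCast_not_mem_of_not_dvd_absNorm h)

/-- (P-A) primes prime to `l` are unramified in `fieldME`. -/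
theorem unramAt_fieldME_of_not_dvd
    (hT3 : ∀ g : Gal(N/K), AlgEquiv.restrictNormalHom M g = 1 → cycloChar K hζ g = 1 → g = 1)
    (hM : ∀ q : HeightOneSpectrum (𝓞 K), UnramAt K M q) {q : HeightOneSpectrum (𝓞 K)}
    (h : ¬ l ∣ Ideal.absNorm q.asIdeal) : UnramAt K (fieldME K M hζ p) q :=
  (unramAt_top_of_not_dvd hT3 hM h).tower_bot (E := fieldME K M hζ p)

/-- core of (P-A): the Frobenius elements in `fieldME / K` of two primes are related as soon as
their `M`-components are and the quotient of their Frobenius elements in `N / K` acts on `ζ`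
through a `p`-th power. -/
theorem frob_fieldME_eq_pow_of_mem {q₁ q₂ : HeightOneSpectrum (𝓞 K)} (hq₁ : UnramAt K N q₁)
    (hq₂ : UnramAt K N q₂) {k : ℕ} (hM : frob K M q₂ = frob K M q₁ ^ k)
    (hmem : frob K N q₂ * (frob K N q₁ ^ k)⁻¹ ∈ powSubgroup K hζ p) :
    frob K (fieldME K M hζ p) q₂ = frob K (fieldME K M hζ p) q₁ ^ k := by
  haveI : IsAbelianGalois M N := IsAbelianGalois.tower_top K M N
  set g : Gal(N/K) := frob K N q₂ * (frob K N q₁ ^ k)⁻¹ with hg
  have hgmem : g ∈ gammaME K M hζ p := by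
    rw [mem_gammaME_iff]
    refine ⟨?_, hmem⟩
    rw [hg, map_mul, map_inv, map_pow, restrictNormalHom_frob (E := M) hq₁,
      restrictNormalHom_frob (E := M) hq₂, hM, mul_inv_cancel]
  have h1 : AlgEquiv.restrictNormalHom (fieldME K M hζ p) g = 1 :=
    (restrictNormalHom_fieldME_eq_one_iff g).mpr hgmem
  rw [hg, map_mul, map_inv, map_pow, restrictNormalHom_frob (E := fieldME K M hζ p) hq₁,
    restrictNormalHom_frob (E := fieldME K M hζ p) hq₂, mul_inv_eq_one] at h1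
  exact h1

/-- (P-A) **the Frobenius elements in `fieldME / K`**. -/
theorem frob_fieldME_eq_pow (hp : p ≠ 0)
    (hT3 : ∀ g : Gal(N/K), AlgEquiv.restrictNormalHom M g = 1 → cycloChar K hζ g = 1 → g = 1)
    (hM : ∀ q : HeightOneSpectrum (𝓞 K), UnramAt K M q) {q₁ q₂ : HeightOneSpectrum (𝓞 K)}
    (h₁ : ¬ l ∣ Ideal.absNorm q₁.asIdeal) (h₂ : ¬ l ∣ Ideal.absNorm q₂.asIdeal) {k : ℕ}
    (hfrob : frob K M q₂ = frob K M q₁ ^ k)
    (hc : ∃ c : ZMod l, (Ideal.absNorm q₂.asIdeal : ZMod l) =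
      (Ideal.absNorm q₁.asIdeal : ZMod l) ^ k * c ^ p) :
    frob K (fieldME K M hζ p) q₂ = frob K (fieldME K M hζ p) q₁ ^ k := by
  have hq₁ : UnramAt K N q₁ := unramAt_top_of_not_dvd hT3 hM h₁
  have hq₂ : UnramAt K N q₂ := unramAt_top_of_not_dvd hT3 hM h₂
  have hl₁ : Nat.Coprime l (Ideal.absNorm q₁.asIdeal) :=
    (Nat.Prime.coprime_iff_not_dvd hl.out).mpr h₁
  have hl₂ : Nat.Coprime l (Ideal.absNorm q₂.asIdeal) :=
    (Nat.Prime.coprime_iff_not_dvd hl.out).mpr h₂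
  refine frob_fieldME_eq_pow_of_mem hq₁ hq₂ hfrob ?_
  rw [mem_powSubgroup_iff, map_mul, map_inv, map_pow]
  set a := cycloChar K hζ (frob K N q₁) with ha
  set b := cycloChar K hζ (frob K N q₂) with hb
  have hacoe : ((a : (ZMod l)ˣ) : ZMod l) = (Ideal.absNorm q₁.asIdeal : ZMod l) :=
    coe_cycloChar_frob hζ q₁ hl₁
  have hbcoe : ((b : (ZMod l)ˣ) : ZMod l) = (Ideal.absNorm q₂.asIdeal : ZMod l) :=
    coe_cycloChar_frob hζ q₂ hl₂
  obtain ⟨c, hc⟩ := hc
  rw [exists_unit_pow_eq_iff p hp]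
  refine ⟨c, ?_⟩
  have h3 : ((b : (ZMod l)ˣ) : ZMod l) = ((a ^ k : (ZMod l)ˣ) : ZMod l) * c ^ p := by
    push_cast
    rw [hacoe, hbcoe, hc]
  have h4 : ((b * (a ^ k)⁻¹ : (ZMod l)ˣ) : ZMod l) * ((a ^ k : (ZMod l)ˣ) : ZMod l) =
      c ^ p * ((a ^ k : (ZMod l)ˣ) : ZMod l) := by
    rw [← Units.val_mul, inv_mul_cancel_right, h3, mul_comm]
  exact (mul_right_cancel₀ (Units.ne_zero (a ^ k)) h4).symm

/-- the same with a different bookkeeping of the exponents (`N q₂ · (N q₁)^m` a `p`-th power mod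
`l` with `p ∣ k + m`), for `UnramAt K N` hypotheses. -/
theorem frob_fieldME_eq_pow_of_unramAt (hp : p ≠ 0) {q₁ q₂ : HeightOneSpectrum (𝓞 K)}
    (hq₁ : UnramAt K N q₁)
    (hq₂ : UnramAt K N q₂) (hl₁ : Nat.Coprime l (Ideal.absNorm q₁.asIdeal))
    (hl₂ : Nat.Coprime l (Ideal.absNorm q₂.asIdeal)) {k : ℕ}
    (hM : frob K M q₂ = frob K M q₁ ^ k)
    (hκ : ∃ (y : ZMod l) (m : ℕ), p ∣ k + m ∧
      y ^ p = (Ideal.absNorm q₂.asIdeal : ZMod l) * (Ideal.absNorm q₁.asIdeal : ZMod l) ^ m) :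
    frob K (fieldME K M hζ p) q₂ = frob K (fieldME K M hζ p) q₁ ^ k := by
  refine frob_fieldME_eq_pow_of_mem hq₁ hq₂ hM ?_
  rw [mem_powSubgroup_iff]
  obtain ⟨y, m, ⟨s, hs⟩, hy⟩ := hκ
  set a := cycloChar K hζ (frob K N q₁) with ha
  set b := cycloChar K hζ (frob K N q₂) with hb
  have hacoe : ((a : (ZMod l)ˣ) : ZMod l) = (Ideal.absNorm q₁.asIdeal : ZMod l) :=
    coe_cycloChar_frob hζ q₁ hl₁
  have hbcoe : ((b : (ZMod l)ˣ) : ZMod l) = (Ideal.absNorm q₂.asIdeal : ZMod l) :=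
    coe_cycloChar_frob hζ q₂ hl₂
  have h1 : ∃ c : ZMod l, c ^ p = ((b * a ^ m : (ZMod l)ˣ) : ZMod l) := by
    refine ⟨y, ?_⟩
    rw [hy]
    push_cast
    rw [hacoe, hbcoe]
  obtain ⟨c, hc⟩ := (exists_unit_pow_eq_iff p hp (b * a ^ m)).mpr h1
  refine ⟨c * (a ^ s)⁻¹, ?_⟩
  rw [map_mul, map_inv, map_pow, ← ha, ← hb, mul_pow, hc, inv_pow, ← pow_mul,
    mul_comm s p, ← hs, pow_add]
  rw [mul_inv, mul_assoc, ← mul_assoc (a ^ m), mul_comm (a ^ m), mul_assoc (a ^ k)⁻¹,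
    mul_inv_cancel, mul_one]

/-- (P-B) an element of `Gal(fieldME / L)` that is trivial on `M` is trivial. -/
theorem eq_one_of_restrict_crossField (hp : p.Prime) (hdeg : Module.finrank K M = p)
    {q₁ : HeightOneSpectrum (𝓞 K)} (hq₁ : UnramAt K (fieldME K M hζ p) q₁)
    (hne : frob K M q₁ ≠ 1)
    (g : Gal((fieldME K M hζ p)/(crossField (T := fieldME K M hζ p) q₁)))
    (h : AlgEquiv.restrictNormalHom M (g.restrictScalars K) = 1) : g = 1 := by
  haveI : Fact p.Prime := ⟨hp⟩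
  haveI : IsAbelianGalois M (fieldME K M hζ p) :=
    IsAbelianGalois.tower_top K M (fieldME K M hζ p)
  obtain ⟨j, hj⟩ := Subgroup.mem_zpowers_iff.mp (restrictScalars_mem_zpowers g)
  rw [← hj, map_zpow, restrictNormalHom_frob (E := M) hq₁] at h
  have hord : orderOf (frob K M q₁) = p := by
    refine orderOf_eq_prime ?_ hne
    rw [← hdeg, ← IsGalois.card_aut_eq_finrank]
    exact pow_card_eq_one'
  have hdvd : (p : ℤ) ∣ j := by
    rw [← hord]
    exact orderOf_dvd_iff_zpow_eq_one.mpr h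
  obtain ⟨t, rfl⟩ := hdvd
  have h2 : g.restrictScalars K = 1 := by
    rw [← hj, zpow_mul, zpow_natCast, pow_eq_one_fieldME hdeg, one_zpow]
  apply AlgEquiv.restrictScalars_injective K
  exact h2

/-- (P-B) `fieldME` is unramified everywhere over the fixed field of the Frobenius of an inert
prime `q₁` (`= hunrL` of `pair_mem_normClasses`). -/
theorem unramAt_crossField (hp : p.Prime) (hdeg : Module.finrank K M = p)
    (hM : ∀ q : HeightOneSpectrum (𝓞 K), UnramAt K M q) {q₁ : HeightOneSpectrum (𝓞 K)}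
    (hq₁ : UnramAt K (fieldME K M hζ p) q₁) (hne : frob K M q₁ ≠ 1)
    (Q' : HeightOneSpectrum (𝓞 (crossField (T := fieldME K M hζ p) q₁))) :
    UnramAt (crossField (T := fieldME K M hζ p) q₁) (fieldME K M hζ p) Q' := by
  haveI : IsAbelianGalois M (fieldME K M hζ p) :=
    IsAbelianGalois.tower_top K M (fieldME K M hζ p)
  exact unramAt_top_of_forall_unramAt' (K := K) (M := M)
    (L := crossField (T := fieldME K M hζ p) q₁) (N := fieldME K M hζ p) hM
    (fun g hg => eq_one_of_restrict_crossField hp hdeg hq₁ hne g hg) Q'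

/-- the same, from `UnramAt K N q₁`. -/
theorem unramAt_crossField_fieldME [hpf : Fact p.Prime] (hpM : Module.finrank K M = p)
    (hM : ∀ q : HeightOneSpectrum (𝓞 K), UnramAt K M q) {q₁ : HeightOneSpectrum (𝓞 K)}
    (hq₁ : UnramAt K N q₁) (h₁ : frob K M q₁ ≠ 1)
    (Q' : HeightOneSpectrum (𝓞 (crossField (T := fieldME K M hζ p) q₁))) :
    UnramAt (crossField (T := fieldME K M hζ p) q₁) (fieldME K M hζ p) Q' :=
  unramAt_crossField hpf.out hpM hM (hq₁.tower_bot (E := fieldME K M hζ p)) h₁ Q'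

end MEGroup

end Fermat.Agent.ExtVan.Crossing
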