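/-
S14 long shot, crossing glue (helper1): helper8's `Crossing.normClasses F L` is helper2's
`SecondIneq.normClassSubgroup F L`; hence the second inequality in the shape `hsec` of
`Crossing.pair_mem_normClasses`.
-/
import Fermat.Agent.ExtVan.Crossing.NormClass
import Fermat.Agent.ExtVan.SecondIneq.IndexBound

set_option autoImplicit false

open NumberField nonZeroDivisors

namespace Fermat.Agent.ExtVan.CrossingAux

variable (F L : Type*) [Field F] [NumberField F] [Field L] [NumberField L] [Algebra F L]

/-- helper8's and helper2's relative norms on nonzero ideals agree. -/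
theorem relNorm0_eq (A : (Ideal (𝓞 L))⁰) :
    Crossing.relNorm0 F L A = SecondIneq.relNorm0 F L A :=
  Subtype.ext rfl

/-- helper8's norm class subgroup is helper2's. -/
theorem normClasses_eq_normClassSubgroup :
    Crossing.normClasses F L = SecondIneq.normClassSubgroup F L := by
  unfold Crossing.normClasses SecondIneq.normClassSubgroup
  congr 1
  ext c
  constructor
  · rintro ⟨A, rfl⟩
    exact ⟨A, by rw [MonoidHom.comp_apply, relNorm0_eq]⟩
  · rintro ⟨A, rfl⟩
    exact ⟨A, by rw [MonoidHom.comp_apply, relNorm0_eq]⟩

/-- The second inequality for helper8's norm class subgroup. -/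
theorem index_normClasses_le : (Crossing.normClasses F L).index ≤ Module.finrank F L := by
  rw [normClasses_eq_normClassSubgroup]
  exact SecondIneq.second_ineq F L

end Fermat.Agent.ExtVan.CrossingAux
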