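/-
S14 long shot, crossing sub-brick (R4) "ramification source" (helper1).

Number fields `K ⊆ M ⊆ N`, `N ∋ ζ` a primitive `l`-th root of unity (`l` prime), `l` unramified in
`K`, `M/K` unramified everywhere, and an element of `Gal(N/K)` is determined by its restriction to
`M` and its cyclotomic character `κ = hζ.autToPow K` (hypothesis (T3)).  Then for every prime `Q`
of `𝓞 N` above `l` the cyclotomic character maps the inertia group of `Q` in `Gal(N/K)` ONTO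
`(ZMod l)ˣ`.
-/
import Fermat.Agent.ExtVan.Crossing.RamBook
import Fermat.Agent.ExtVan.Crossing.CycloDegOne

set_option autoImplicit false
set_option linter.unusedSectionVars false
set_option linter.style.haveILetI false

open NumberField IsDedekindDomain

namespace Fermat.Agent.ExtVan

section RootOfUnity

variable {N : Type*} [Field N] [NumberField N]

/-- If a prime `Q` of `𝓞 N` contains the prime `l`, then it contains `ζ - 1` for every `l`-th
root of unity `ζ` of `𝓞 N`. -/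
theorem sub_one_mem_of_natCast_mem {l : ℕ} (hl : l.Prime) {μ : 𝓞 N} (hμ : IsPrimitiveRoot μ l)
    (Q : Ideal (𝓞 N)) [Q.IsPrime] (hQ : (l : 𝓞 N) ∈ Q) : μ - 1 ∈ Q := by
  obtain ⟨n, rfl⟩ : ∃ n, l = n + 1 := ⟨l - 1, by have := hl.pos; omega⟩
  have hprod := hμ.prod_one_sub_pow_eq_order
  have hmem : ∏ k ∈ Finset.range n, (1 - μ ^ (k + 1)) ∈ Q := by
    rw [hprod]
    exact_mod_cast hQ
  obtain ⟨k, hk, hkQ⟩ := (Ideal.IsPrime.prod_mem_iff).1 hmem
  rw [Finset.mem_range] at hk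
  -- in the quotient, `μ ^ (k+1) = 1` and `μ ^ (n+1) = 1`, so `μ = 1`
  have h1 : (Ideal.Quotient.mk Q μ) ^ (k + 1) = 1 := by
    rw [← map_pow, ← map_one (Ideal.Quotient.mk Q), eq_comm, Ideal.Quotient.eq]
    exact hkQ
  have h2 : (Ideal.Quotient.mk Q μ) ^ (n + 1) = 1 := by
    rw [← map_pow, hμ.pow_eq_one, map_one]
  have h3 := pow_gcd_eq_one.2 ⟨h1, h2⟩
  have hgcd : Nat.gcd (k + 1) (n + 1) = 1 := by
    rw [Nat.gcd_comm]
    exact (Nat.Prime.coprime_iff_not_dvd hl).2 (Nat.not_dvd_of_pos_of_lt (by omega) (by omega))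
  rw [hgcd, pow_one] at h3
  rw [← Ideal.Quotient.eq, h3, map_one]

/-- A prime `Q` of `𝓞 N` above `l` has absolute ramification index at least `l - 1` when `N`
contains a primitive `l`-th root of unity. -/
theorem pred_le_ramificationIdx_int {l : ℕ} (hl : l.Prime) {ζ : N} (hζ : IsPrimitiveRoot ζ l)
    (Q : Ideal (𝓞 N)) [Q.IsPrime] (hQ : (l : 𝓞 N) ∈ Q) : l - 1 ≤ Q.ramificationIdx ℤ := by
  haveI : NeZero l := ⟨hl.ne_zero⟩
  haveI := liesOver_span_of_natCast_mem hl Q hQ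
  have hμ := hζ.toInteger_isPrimitiveRoot
  have hsub : hζ.toInteger - 1 ∈ Q := sub_one_mem_of_natCast_mem hl hμ Q hQ
  obtain ⟨z, -, hz⟩ := IsPrimitiveRoot.self_sub_one_pow_dvd_order (k := l - 1) (n := l)
    (by have := hl.pos; omega) hμ
  have hmap : (Ideal.span {(l : ℤ)}).map (algebraMap ℤ (𝓞 N)) = Ideal.span {(l : 𝓞 N)} := by
    rw [Ideal.map_span, Set.image_singleton]
    simp
  have hne : (Ideal.span {(l : ℤ)}).map (algebraMap ℤ (𝓞 N)) ≠ ⊥ := by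
    rw [hmap, Ne, Ideal.span_singleton_eq_bot]
    exact_mod_cast hl.ne_zero
  rw [Ideal.IsDedekindDomain.ramificationIdx_eq_multiplicity (Ideal.span {(l : ℤ)}) Q hne]
  have hQ0 : Q ≠ ⊥ := by
    rintro rfl
    rw [Ideal.mem_bot] at hQ
    exact hl.ne_zero (by exact_mod_cast hQ)
  have hfin : FiniteMultiplicity Q ((Ideal.span {(l : ℤ)}).map (algebraMap ℤ (𝓞 N))) := by
    apply FiniteMultiplicity.of_not_isUnit
    · rw [Ideal.isUnit_iff]
      exact Ideal.IsPrime.ne_top inferInstance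
    · exact hne
  apply hfin.le_multiplicity_of_pow_dvd
  rw [Ideal.dvd_iff_le, hmap, Ideal.span_singleton_le_iff_mem, hz]
  exact Ideal.mul_mem_left _ _ (Ideal.pow_mem_pow hsub _)

end RootOfUnity

section Source

variable {K M N : Type*} [Field K] [Field M] [Field N] [NumberField K] [NumberField M]
  [NumberField N] [Algebra K M] [Algebra M N] [Algebra K N] [IsScalarTower K M N]
  [IsGalois K N] [IsGalois K M]

/-- Lower bound for the inertia group: if `l` is unramified in `K` and `N` contains a primitive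
`l`-th root of unity, every inertia group of `Gal(N/K)` above `l` has at least `l - 1` elements. -/
theorem pred_le_card_inertia {l : ℕ} (hl : l.Prime) {ζ : N} (hζ : IsPrimitiveRoot ζ l)
    (hK : ∀ 𝔩 : Ideal (𝓞 K), 𝔩.IsPrime → (l : 𝓞 K) ∈ 𝔩 → 𝔩.ramificationIdx ℤ = 1)
    (Q : Ideal (𝓞 N)) [Q.IsPrime] (hQ : (l : 𝓞 N) ∈ Q) :
    l - 1 ≤ Nat.card (Ideal.inertia Gal(N/K) Q) := by
  set 𝔩 : Ideal (𝓞 K) := Q.under (𝓞 K) with h𝔩
  haveI : Q.LiesOver 𝔩 := ⟨rfl⟩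
  haveI : 𝔩.IsPrime := Ideal.IsPrime.under (𝓞 K) Q
  have hl𝔩 : (l : 𝓞 K) ∈ 𝔩 := by
    rw [h𝔩, Ideal.under_def, Ideal.mem_comap, map_natCast]
    exact hQ
  have h1 := pred_le_ramificationIdx_int hl hζ Q hQ
  rw [Ideal.ramificationIdx_tower (R := ℤ) 𝔩 Q, hK 𝔩 inferInstance hl𝔩, one_mul] at h1
  have h2 := Ideal.card_inertia_eq_ramificationIdxIn (G := Gal(N/K)) 𝔩 Q
  rw [Ideal.ramificationIdxIn_eq_ramificationIdx 𝔩 Q Gal(N/K)] at h2
  rw [h2]
  exact h1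

/-- **(R4) Ramification source.** Under (T3), the cyclotomic character maps every inertia group
of `Gal(N/K)` above `l` onto `(ZMod l)ˣ`. -/
theorem exists_mem_inertia_autToPow_eq {l : ℕ} [NeZero l] (hl : l.Prime) {ζ : N}
    (hζ : IsPrimitiveRoot ζ l)
    (hK : ∀ 𝔩 : Ideal (𝓞 K), 𝔩.IsPrime → (l : 𝓞 K) ∈ 𝔩 → 𝔩.ramificationIdx ℤ = 1)
    (hM : ∀ q : HeightOneSpectrum (𝓞 K), UnramAt K M q)
    (hT3 : ∀ g : Gal(N/K), AlgEquiv.restrictNormalHom M g = 1 → hζ.autToPow K g = 1 → g = 1)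
    (Q : Ideal (𝓞 N)) [Q.IsPrime] (hQ : (l : 𝓞 N) ∈ Q) (u : (ZMod l)ˣ) :
    ∃ g ∈ Ideal.inertia Gal(N/K) Q, hζ.autToPow K g = u := by
  haveI : Fact l.Prime := ⟨hl⟩
  set 𝔩 : Ideal (𝓞 K) := Q.under (𝓞 K) with h𝔩
  haveI : Q.LiesOver 𝔩 := ⟨rfl⟩
  haveI h𝔩prime : 𝔩.IsPrime := Ideal.IsPrime.under (𝓞 K) Q
  have hl𝔩 : (l : 𝓞 K) ∈ 𝔩 := by
    rw [h𝔩, Ideal.under_def, Ideal.mem_comap, map_natCast]
    exact hQ
  have h𝔩0 : 𝔩 ≠ ⊥ := by
    intro h
    rw [h, Ideal.mem_bot] at hl𝔩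
    exact hl.ne_zero (by exact_mod_cast hl𝔩)
  let q : HeightOneSpectrum (𝓞 K) := ⟨𝔩, h𝔩prime, h𝔩0⟩
  haveI : Q.LiesOver q.asIdeal := ⟨rfl⟩
  -- the cyclotomic character restricted to the inertia group
  let f : Ideal.inertia Gal(N/K) Q → (ZMod l)ˣ := fun g => hζ.autToPow K g.1
  have hinj : Function.Injective f := by
    intro g g' hgg'
    have hmem : g.1⁻¹ * g'.1 ∈ Ideal.inertia Gal(N/K) Q :=
      (Ideal.inertia Gal(N/K) Q).mul_mem ((Ideal.inertia Gal(N/K) Q).inv_mem g.2) g'.2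
    have hres := restrictNormalHom_eq_one_of_mem_inertia (M := M) (hM q) Q hmem
    have hκ : hζ.autToPow K (g.1⁻¹ * g'.1) = 1 := by
      rw [map_mul, map_inv]
      exact inv_mul_eq_one.2 hgg'
    have := hT3 _ hres hκ
    exact Subtype.ext (inv_mul_eq_one.1 this)
  have hcard : Nat.card (ZMod l)ˣ ≤ Nat.card (Ideal.inertia Gal(N/K) Q) := by
    rw [Nat.card_eq_fintype_card, ZMod.card_units_eq_totient, Nat.totient_prime hl]
    exact pred_le_card_inertia hl hζ hK Q hQ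
  obtain ⟨g, hg⟩ := (hinj.bijective_of_nat_card_le hcard).2 u
  exact ⟨g.1, g.2, hg⟩

end Source

section CycloBase

/-- In `ℚ(ζ_p)` a rational prime `l ≠ p` is unramified: the hypothesis `hK` of (R4). -/
theorem ramificationIdx_int_eq_one_of_ne {p : ℕ} [Fact p.Prime] {K : Type*} [Field K]
    [NumberField K] [IsCyclotomicExtension {p} ℚ K] {l : ℕ} (hl : l.Prime) (hlp : l ≠ p)
    (𝔩 : Ideal (𝓞 K)) [𝔩.IsPrime] (hmem : (l : 𝓞 K) ∈ 𝔩) : 𝔩.ramificationIdx ℤ = 1 := by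
  haveI : Fact l.Prime := ⟨hl⟩
  haveI : NeZero p := ⟨(Fact.out : p.Prime).ne_zero⟩
  haveI := liesOver_span_of_natCast_mem hl 𝔩 hmem
  have hndvd : ¬ l ∣ p := fun h => hlp ((Nat.prime_dvd_prime_iff_eq hl Fact.out).1 h)
  exact IsCyclotomicExtension.Rat.ramificationIdx_eq_of_not_dvd (m := p) l K 𝔩 hndvd

end CycloBase

end Fermat.Agent.ExtVan
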