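/-
S14 long shot, crossing: total ramification of `L/K` above `l` in the cyclotomic tower (helper4).

Number fields `K ⊆ M ⊆ N` and `K ⊆ L ⊆ N`, `N ∋ ζ` a primitive `l`-th root of unity, `l` unramified
in `K`, `M/K` unramified everywhere, (T3): an element of `Gal(N/K)` is determined by its restriction
to `M` and its cyclotomic character.  If some `g₁ ∈ Gal(N/K)` fixes `L` and restricts to a generator
of `Gal(M/K)`, then every prime of `L` above `l` has inertia group `Gal(L/K)`.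
-/
import Fermat.Agent.ExtVan.Crossing.RamSource

set_option autoImplicit false
set_option linter.unusedSectionVars false
set_option linter.style.haveILetI false

open NumberField IsDedekindDomain

namespace Fermat.Agent.ExtVan

section TotRamCyclo

variable {K M L N : Type*} [Field K] [Field M] [Field L] [Field N] [NumberField K] [NumberField M]
  [NumberField L] [NumberField N] [Algebra K M] [Algebra M N] [Algebra K N] [IsScalarTower K M N]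
  [Algebra K L] [Algebra L N] [IsScalarTower K L N]
  [IsGalois K N] [IsGalois K M] [IsGalois K L]

/-- In the cyclotomic tower, an element of `Gal(N/K)` which is trivial on `M` lies in every inertia
group above `l`. -/
theorem mem_inertia_of_restrictNormalHom_eq_one {l : ℕ} [NeZero l] (hl : l.Prime) {ζ : N}
    (hζ : IsPrimitiveRoot ζ l)
    (hK : ∀ 𝔩 : Ideal (𝓞 K), 𝔩.IsPrime → (l : 𝓞 K) ∈ 𝔩 → 𝔩.ramificationIdx ℤ = 1)
    (hM : ∀ q : HeightOneSpectrum (𝓞 K), UnramAt K M q)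
    (hT3 : ∀ g : Gal(N/K), AlgEquiv.restrictNormalHom M g = 1 → hζ.autToPow K g = 1 → g = 1)
    (Q : Ideal (𝓞 N)) [Q.IsPrime] (hQ : (l : 𝓞 N) ∈ Q) {h : Gal(N/K)}
    (hh : AlgEquiv.restrictNormalHom M h = 1) : h ∈ Ideal.inertia Gal(N/K) Q := by
  obtain ⟨i, hi, hκ⟩ := exists_mem_inertia_autToPow_eq hl hζ hK hM hT3 Q hQ (hζ.autToPow K h)
  -- the prime of `K` below `Q`
  set 𝔩 : Ideal (𝓞 K) := Q.under (𝓞 K) with h𝔩
  haveI h𝔩prime : 𝔩.IsPrime := Ideal.IsPrime.under (𝓞 K) Q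
  have hl𝔩 : (l : 𝓞 K) ∈ 𝔩 := by
    rw [h𝔩, Ideal.under_def, Ideal.mem_comap, map_natCast]
    exact hQ
  have h𝔩0 : 𝔩 ≠ ⊥ := by
    intro h0
    rw [h0, Ideal.mem_bot] at hl𝔩
    exact hl.ne_zero (by exact_mod_cast hl𝔩)
  let q : HeightOneSpectrum (𝓞 K) := ⟨𝔩, h𝔩prime, h𝔩0⟩
  haveI : Q.LiesOver q.asIdeal := ⟨rfl⟩
  have hres : AlgEquiv.restrictNormalHom M i = 1 :=
    restrictNormalHom_eq_one_of_mem_inertia (M := M) (hM q) Q hi
  have h1 : h * i⁻¹ = 1 := by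
    apply hT3
    · rw [map_mul, map_inv, hh, hres, inv_one, mul_one]
    · rw [map_mul, map_inv, hκ, mul_inv_cancel]
  rw [mul_inv_eq_one] at h1
  rw [h1]
  exact hi

/-- **Total ramification above `l`.**  If `g₁ ∈ Gal(N/K)` fixes `L` and its restriction to `M`
generates `Gal(M/K)`, then every prime of `L` above `l` has inertia group `Gal(L/K)`. -/
theorem inertia_eq_top_of_cyclo {l : ℕ} [NeZero l] (hl : l.Prime) {ζ : N}
    (hζ : IsPrimitiveRoot ζ l)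
    (hK : ∀ 𝔩 : Ideal (𝓞 K), 𝔩.IsPrime → (l : 𝓞 K) ∈ 𝔩 → 𝔩.ramificationIdx ℤ = 1)
    (hM : ∀ q : HeightOneSpectrum (𝓞 K), UnramAt K M q)
    (hT3 : ∀ g : Gal(N/K), AlgEquiv.restrictNormalHom M g = 1 → hζ.autToPow K g = 1 → g = 1)
    (g₁ : Gal(N/K)) (hg₁ : AlgEquiv.restrictNormalHom L g₁ = 1)
    (hgen : ∀ a : Gal(M/K), ∃ j : ℕ, a = (AlgEquiv.restrictNormalHom M g₁) ^ j)
    (QL : Ideal (𝓞 L)) [QL.IsPrime] (hQL : (l : 𝓞 L) ∈ QL) :
    Ideal.inertia Gal(L/K) QL = ⊤ := by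
  rw [eq_top_iff]
  intro σ _
  -- a prime of `N` above `QL`
  obtain ⟨⟨Q, hQ, hQQL⟩⟩ := Ideal.nonempty_primesOver (S := 𝓞 N) QL
  have hlQ : (l : 𝓞 N) ∈ Q := by
    have h1 : (l : 𝓞 L) ∈ Q.under (𝓞 L) := by rw [← Q.over_def QL]; exact hQL
    rw [Ideal.under_def, Ideal.mem_comap, map_natCast] at h1
    exact h1
  -- lift `σ` to `N`
  obtain ⟨g, rfl⟩ := AlgEquiv.restrictNormalHom_surjective (F := K) (K₁ := L) N σ
  obtain ⟨j, hj⟩ := hgen (AlgEquiv.restrictNormalHom M g)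
  have hh : AlgEquiv.restrictNormalHom M (g * (g₁ ^ j)⁻¹) = 1 := by
    rw [map_mul, map_inv, map_pow, hj, mul_inv_cancel]
  have hmem := mem_inertia_of_restrictNormalHom_eq_one hl hζ hK hM hT3 Q hlQ hh
  have h2 := restrictNormalHom_mem_inertia (K := K) (M := L) Q QL hmem
  rwa [map_mul, map_inv, map_pow, hg₁, one_pow, inv_one, mul_one] at h2

/-- Packaged form: the hypothesis `hram` of the norm-residue computation. -/
theorem exists_inertia_eq_top_of_cyclo {l : ℕ} [NeZero l] (hl : l.Prime) {ζ : N}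
    (hζ : IsPrimitiveRoot ζ l)
    (hK : ∀ 𝔩 : Ideal (𝓞 K), 𝔩.IsPrime → (l : 𝓞 K) ∈ 𝔩 → 𝔩.ramificationIdx ℤ = 1)
    (hM : ∀ q : HeightOneSpectrum (𝓞 K), UnramAt K M q)
    (hT3 : ∀ g : Gal(N/K), AlgEquiv.restrictNormalHom M g = 1 → hζ.autToPow K g = 1 → g = 1)
    (g₁ : Gal(N/K)) (hg₁ : AlgEquiv.restrictNormalHom L g₁ = 1)
    (hgen : ∀ a : Gal(M/K), ∃ j : ℕ, a = (AlgEquiv.restrictNormalHom M g₁) ^ j)
    (𝔩 : Ideal (𝓞 K)) (h𝔩 : 𝔩.IsPrime) (hmem : (l : 𝓞 K) ∈ 𝔩) :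
    ∃ Q : Ideal (𝓞 L), Q.IsPrime ∧ Q.LiesOver 𝔩 ∧ Ideal.inertia Gal(L/K) Q = ⊤ := by
  obtain ⟨⟨Q, hQ, hQ𝔩⟩⟩ := Ideal.nonempty_primesOver (S := 𝓞 L) 𝔩
  refine ⟨Q, hQ, hQ𝔩, ?_⟩
  have hlQ : (l : 𝓞 L) ∈ Q := by
    have h1 : (l : 𝓞 K) ∈ Q.under (𝓞 K) := by rw [← Q.over_def 𝔩]; exact hmem
    rw [Ideal.under_def, Ideal.mem_comap, map_natCast] at h1
    exact h1
  exact inertia_eq_top_of_cyclo hl hζ hK hM hT3 g₁ hg₁ hgen Q hlQ

end TotRamCyclo

end Fermat.Agent.ExtVan
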