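/-
S14 long shot, crossing (helper4): in the concrete setting of `Crossing/Fields.lean`
(`T = fieldME = M·E ⊆ N = M(ζ_l)`, `L = crossField q₁` the fixed field of `Frob_{T/K}(q₁)`),
the absolute norm of the relative norm of every principal ideal of `𝓞 L` is a `p`-th power
modulo `l`.  This discharges the hypothesis `hnorm` of the explicit reciprocity law.
-/
import Fermat.Agent.ExtVan.Crossing.Fields
import Fermat.Agent.ExtVan.Crossing.Pair
import Fermat.Agent.ExtVan.Crossing.TotRamCyclo
import Fermat.Agent.ExtVan.Crossing.NormResidue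

set_option autoImplicit false
set_option linter.unusedSectionVars false
set_option linter.style.haveILetI false

open NumberField nonZeroDivisors IsDedekindDomain

namespace Fermat.Agent.ExtVan.Crossing

open Fermat.Agent.ExtVan

section NormPow

variable {K M N : Type*} [Field K] [Field M] [Field N] [NumberField K] [NumberField M]
  [NumberField N] [Algebra K M] [Algebra M N] [Algebra K N] [IsScalarTower K M N]
  [IsAbelianGalois K N] [IsAbelianGalois K M]
  {l : ℕ} [hl : Fact l.Prime] {ζ : N} (hζ : IsPrimitiveRoot ζ l) {p : ℕ}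
  {q₁ : HeightOneSpectrum (𝓞 K)}

/-- The Frobenius of `q₁` in `N/K` restricts to the Frobenius of `q₁` in `T/K`. -/
theorem restrictNormalHom_fieldME_frob (hq₁N : UnramAt K N q₁) :
    AlgEquiv.restrictNormalHom (fieldME K M hζ p) (frob K N q₁) =
      frob K (fieldME K M hζ p) q₁ :=
  restrictNormalHom_frob (E := fieldME K M hζ p) hq₁N

/-- The restriction to `M` of the Frobenius of `q₁` in `T/K`. -/
theorem restrictNormalHom_frob_fieldME (hq₁N : UnramAt K N q₁) :
    AlgEquiv.restrictNormalHom M (frob K (fieldME K M hζ p) q₁) = frob K M q₁ := by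
  haveI : IsAbelianGalois M N := IsAbelianGalois.tower_top K M N
  rw [← restrictNormalHom_fieldME_frob hζ hq₁N, restrictNormalHom_restrictNormalHom_fieldME,
    restrictNormalHom_frob (E := M) hq₁N]

/-- An element of `Gal(N/K)` whose restriction to `T` is a power of the Frobenius of `q₁` fixes the
crossing field `L`. -/
theorem restrictNormalHom_crossField_eq_one {g : Gal(N/K)}
    (hg : AlgEquiv.restrictNormalHom (fieldME K M hζ p) g ∈
      Subgroup.zpowers (frob K (fieldME K M hζ p) q₁)) :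
    AlgEquiv.restrictNormalHom (crossField (T := fieldME K M hζ p) q₁) g = 1 := by
  apply AlgEquiv.ext
  intro x
  apply (algebraMap (crossField (T := fieldME K M hζ p) q₁) N).injective
  have h1 := AlgEquiv.restrictNormal_commutes g (crossField (T := fieldME K M hζ p) q₁) x
  have h2 := AlgEquiv.restrictNormal_commutes g (fieldME K M hζ p)
    (x : fieldME K M hζ p)
  have h3 : (AlgEquiv.restrictNormalHom (fieldME K M hζ p) g) (x : fieldME K M hζ p) =
      (x : fieldME K M hζ p) := by
    have hx : (x : fieldME K M hζ p) ∈ IntermediateField.fixedField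
        (Subgroup.zpowers (frob K (fieldME K M hζ p) q₁)) := x.2
    rw [IntermediateField.mem_fixedField_iff] at hx
    exact hx _ hg
  have h4 : algebraMap (crossField (T := fieldME K M hζ p) q₁) N x =
      algebraMap (fieldME K M hζ p) N (x : fieldME K M hζ p) := rfl
  show algebraMap _ N ((g.restrictNormal (crossField (T := fieldME K M hζ p) q₁)) x) =
    algebraMap _ N x
  rw [h1, h4, ← h2]
  exact congrArg _ h3

/-- Conversely, an element of `Gal(N/K)` fixing the crossing field `L` restricts on `T` to a power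
of the Frobenius of `q₁`. -/
theorem restrictNormalHom_fieldME_mem_zpowers {g : Gal(N/K)}
    (hg : AlgEquiv.restrictNormalHom (crossField (T := fieldME K M hζ p) q₁) g = 1) :
    AlgEquiv.restrictNormalHom (fieldME K M hζ p) g ∈
      Subgroup.zpowers (frob K (fieldME K M hζ p) q₁) := by
  rw [← mem_fixingSubgroup_crossField_iff, IntermediateField.mem_fixingSubgroup_iff]
  intro x hx
  apply (algebraMap (fieldME K M hζ p) N).injective
  have h2 := AlgEquiv.restrictNormal_commutes g (fieldME K M hζ p) x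
  have h1 := AlgEquiv.restrictNormal_commutes g (crossField (T := fieldME K M hζ p) q₁) ⟨x, hx⟩
  have h3 : g.restrictNormal (crossField (T := fieldME K M hζ p) q₁) = 1 := hg
  rw [h3] at h1
  show algebraMap _ N ((g.restrictNormal (fieldME K M hζ p)) x) = algebraMap _ N x
  rw [h2]
  exact h1.symm

/-- `Gal(L/K)` is killed by `p`. -/
theorem pow_eq_one_crossField (hpM : Module.finrank K M = p)
    (σ : Gal((crossField (T := fieldME K M hζ p) q₁)/K)) : σ ^ p = 1 := by
  obtain ⟨τ, rfl⟩ := AlgEquiv.restrictNormalHom_surjective (F := K)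
    (K₁ := crossField (T := fieldME K M hζ p) q₁) (fieldME K M hζ p) σ
  rw [← map_pow, pow_eq_one_fieldME hpM, map_one]

/-- The degree of `L/K` is a power of `p`. -/
theorem exists_finrank_crossField_eq_pow [Fact p.Prime] (hpM : Module.finrank K M = p) :
    ∃ a : ℕ, Module.finrank K (crossField (T := fieldME K M hζ p) q₁) = p ^ a := by
  have hP : IsPGroup p Gal((crossField (T := fieldME K M hζ p) q₁)/K) :=
    fun σ => ⟨1, by rw [pow_one]; exact pow_eq_one_crossField hζ hpM σ⟩
  obtain ⟨a, ha⟩ := hP.exists_card_eq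
  exact ⟨a, by rw [← IsGalois.card_aut_eq_finrank]; exact ha⟩

/-- The extension `L/K` is nontrivial: some element of `Gal(N/K)` trivial on `M` does not fix `L`.
(Here `y` is any element trivial on `M` whose cyclotomic character is not a `p`-th power.) -/
theorem restrictNormalHom_crossField_ne_one [Fact p.Prime] (hpM : Module.finrank K M = p)
    (hq₁N : UnramAt K N q₁) (h₁ : frob K M q₁ ≠ 1) {y : Gal(N/K)}
    (hyM : AlgEquiv.restrictNormalHom M y = 1) (hy : y ∉ powSubgroup K hζ p) :
    AlgEquiv.restrictNormalHom (crossField (T := fieldME K M hζ p) q₁) y ≠ 1 := by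
  intro h
  apply hy
  have h2 := restrictNormalHom_fieldME_mem_zpowers hζ h
  obtain ⟨j, hj⟩ := Subgroup.mem_zpowers_iff.mp h2
  -- restrict to `M`
  have h3 := congrArg (AlgEquiv.restrictNormalHom M) hj
  rw [map_zpow, restrictNormalHom_frob_fieldME hζ hq₁N,
    restrictNormalHom_restrictNormalHom_fieldME, hyM] at h3
  have hord : orderOf (frob K M q₁) = p := by
    apply orderOf_eq_prime _ h₁
    rw [← hpM, ← IsGalois.card_aut_eq_finrank]
    exact pow_card_eq_one'
  have hdvd : (p : ℤ) ∣ j := by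
    rw [← hord]
    exact orderOf_dvd_iff_zpow_eq_one.mpr h3
  obtain ⟨c, rfl⟩ := hdvd
  rw [zpow_mul, zpow_natCast, pow_eq_one_fieldME hpM, one_zpow] at hj
  have h4 := (restrictNormalHom_fieldME_eq_one_iff (K := K) (M := M) (hζ := hζ) (p := p) y).mp
    hj.symm
  exact (mem_gammaME_iff.mp h4).2

/-- Variant of (R1) for a prime of `𝓞 N` given by the condition `l ∈ Q`. -/
theorem restrictNormalHom_eq_one_of_mem_inertia_of_natCast_mem
    (hM : ∀ q : HeightOneSpectrum (𝓞 K), UnramAt K M q) (Q : Ideal (𝓞 N)) [Q.IsPrime]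
    (hlQ : (l : 𝓞 N) ∈ Q) {y : Gal(N/K)} (hy : y ∈ Ideal.inertia Gal(N/K) Q) :
    AlgEquiv.restrictNormalHom M y = 1 := by
  set 𝔩 : Ideal (𝓞 K) := Q.under (𝓞 K) with h𝔩
  haveI h𝔩prime : 𝔩.IsPrime := Ideal.IsPrime.under (𝓞 K) Q
  have hl𝔩 : (l : 𝓞 K) ∈ 𝔩 := by
    rw [h𝔩, Ideal.under_def, Ideal.mem_comap, map_natCast]
    exact hlQ
  have h𝔩0 : 𝔩 ≠ ⊥ := by
    intro h0
    rw [h0, Ideal.mem_bot] at hl𝔩
    exact hl.out.ne_zero (by exact_mod_cast hl𝔩)
  let q : HeightOneSpectrum (𝓞 K) := ⟨𝔩, h𝔩prime, h𝔩0⟩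
  haveI : Q.LiesOver q.asIdeal := ⟨rfl⟩
  exact restrictNormalHom_eq_one_of_mem_inertia (M := M) (hM q) Q hy

/-- **Norm residues from `L`.**  In the concrete crossing setting, the absolute norm of the
relative norm (to `K`) of every principal ideal of `𝓞 L` is a `p`-th power modulo `l`. -/
theorem exists_pow_eq_absNorm_relNorm_crossField [Fact p.Prime] [IsGalois ℚ K] (hp2 : p ≠ 2)
    (hpM : Module.finrank K M = p)
    (hM : ∀ q : HeightOneSpectrum (𝓞 K), UnramAt K M q)
    (hT3 : ∀ g : Gal(N/K), AlgEquiv.restrictNormalHom M g = 1 → hζ.autToPow K g = 1 → g = 1)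
    (hK : ∀ 𝔩 : Ideal (𝓞 K), 𝔩.IsPrime → (l : 𝓞 K) ∈ 𝔩 → 𝔩.ramificationIdx ℤ = 1)
    (hdeg : ∀ 𝔩 : Ideal (𝓞 K), 𝔩.IsPrime → (l : 𝓞 K) ∈ 𝔩 → Ideal.absNorm 𝔩 = l)
    (hq₁N : UnramAt K N q₁) (h₁ : frob K M q₁ ≠ 1)
    (hcop : Nat.Coprime l (Ideal.absNorm q₁.asIdeal))
    (hq₁ : ¬ ∃ c : ZMod l, c ^ p = (Ideal.absNorm q₁.asIdeal : ZMod l))
    (β : 𝓞 (crossField (T := fieldME K M hζ p) q₁)) :
    ∃ c : ZMod l,
      ((Ideal.absNorm (Ideal.relNorm (𝓞 K) (Ideal.span {β})) : ℕ) : ZMod l) = c ^ p := by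
  have hp : p.Prime := Fact.out
  have hp0 : p ≠ 0 := hp.ne_zero
  set g₁ : Gal(N/K) := frob K N q₁ with hg₁def
  -- `g₁` does not act through a `p`-th power
  have hg₁pow : g₁ ∉ powSubgroup K hζ p := by
    rw [frob_mem_powSubgroup_iff hζ p hp0 q₁ hcop]
    exact hq₁
  -- `g₁` fixes `L`
  have hg₁L : AlgEquiv.restrictNormalHom (crossField (T := fieldME K M hζ p) q₁) g₁ = 1 := by
    apply restrictNormalHom_crossField_eq_one
    rw [restrictNormalHom_fieldME_frob hζ hq₁N]
    exact Subgroup.mem_zpowers _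
  -- the restriction of `g₁` to `M` generates `Gal(M/K)`
  have hresM : AlgEquiv.restrictNormalHom M g₁ = frob K M q₁ := by
    haveI : IsAbelianGalois M N := IsAbelianGalois.tower_top K M N
    exact restrictNormalHom_frob (E := M) hq₁N
  have hcard : Nat.card Gal(M/K) = p := by rw [IsGalois.card_aut_eq_finrank, hpM]
  have hgen : ∀ a : Gal(M/K), ∃ j : ℕ, a = (AlgEquiv.restrictNormalHom M g₁) ^ j := by
    intro a
    rw [hresM]
    have hmem : a ∈ Subgroup.zpowers (frob K M q₁) := by
      rw [zpowers_eq_top_of_prime_card hcard h₁]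
      exact Subgroup.mem_top a
    rw [← mem_powers_iff_mem_zpowers, Submonoid.mem_powers_iff] at hmem
    obtain ⟨j, hj⟩ := hmem
    exact ⟨j, hj.symm⟩
  -- total ramification
  have hram := exists_inertia_eq_top_of_cyclo (K := K) (M := M)
    (L := crossField (T := fieldME K M hζ p) q₁) (N := N) hl.out hζ hK hM hT3 g₁ hg₁L hgen
  -- the degree of `L/K`
  obtain ⟨a, ha⟩ := exists_finrank_crossField_eq_pow (q₁ := q₁) hζ hpM
  have hodd : Odd (Module.finrank K (crossField (T := fieldME K M hζ p) q₁)) := by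
    rw [ha]
    exact (hp.odd_of_ne_two hp2).pow
  obtain ⟨c, hc⟩ := exists_zmod_pow_eq_absNorm_relNorm_span hl.out hodd hdeg hram β
  rw [ha] at hc
  -- `a ≠ 0`
  have ha0 : a ≠ 0 := by
    rintro rfl
    rw [pow_zero] at ha
    -- an element trivial on `M` with the same cyclotomic character as `g₁`
    obtain ⟨Q, hQ, hlQ⟩ := exists_isPrime_natCast_mem N hl.out
    obtain ⟨y, hy, hκ⟩ := exists_mem_inertia_autToPow_eq hl.out hζ hK hM hT3 Q hlQ
      (hζ.autToPow K g₁)
    have hyM : AlgEquiv.restrictNormalHom M y = 1 :=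
      restrictNormalHom_eq_one_of_mem_inertia_of_natCast_mem hM Q hlQ hy
    have hypow : y ∉ powSubgroup K hζ p := by
      intro hmem
      apply hg₁pow
      rw [mem_powSubgroup_iff] at hmem ⊢
      obtain ⟨u, hu⟩ := hmem
      exact ⟨u, hu.trans hκ⟩
    have hne := restrictNormalHom_crossField_ne_one (q₁ := q₁) hζ hpM hq₁N h₁ hyM hypow
    apply hne
    have hsub : Subsingleton Gal((crossField (T := fieldME K M hζ p) q₁)/K) := by
      rw [← Finite.card_le_one_iff_subsingleton, IsGalois.card_aut_eq_finrank, ha]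
    exact Subsingleton.elim _ _
  obtain ⟨a', rfl⟩ := Nat.exists_eq_succ_of_ne_zero ha0
  exact ⟨c ^ p ^ a', by rw [hc, ← pow_mul, pow_succ]⟩

end NormPow

end Fermat.Agent.ExtVan.Crossing
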