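/-
S14 long shot, last step of the crossing: "pair lemma + first inequality ⇒ reciprocity".

If `art` is a homomorphism from the nonzero ideals of `𝓞 K` to a group of prime order `p`, `Nsub` is
a proper subgroup of the class group containing all `p`-th powers and the classes of the primes in
the kernel of `art`, and the classes of the primes outside the kernel are related modulo `Nsub` in
the same way as their `art`-values (the pair lemma), then `art` is trivial on principal ideals.
-/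
import Fermat.Agent.ExtVan.Artin

set_option autoImplicit false
set_option linter.style.haveILetI false
set_option linter.unusedSectionVars false

namespace Fermat.Agent.ExtVan

open NumberField IsDedekindDomain
open scoped nonZeroDivisors

section Abstract

variable {K : Type*} [Field K] [NumberField K]

/-- induction over the prime factorisation of a nonzero ideal. -/
theorem nonzero_ideal_induction (P : (Ideal (𝓞 K))⁰ → Prop) (h1 : P 1)
    (hmul : ∀ (q : HeightOneSpectrum (𝓞 K)) (I : (Ideal (𝓞 K))⁰), P I → P (primeIdeal K q * I))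
    (I : (Ideal (𝓞 K))⁰) : P I := by
  obtain ⟨I, hI⟩ := I
  have hI0 : I ≠ ⊥ := nonZeroDivisors.ne_zero hI
  induction I using UniqueFactorizationMonoid.induction_on_prime with
  | h₁ => exact absurd rfl hI0
  | h₂ x hx =>
    rw [Ideal.isUnit_iff] at hx
    subst hx
    have h2 : (⟨⊤, hI⟩ : (Ideal (𝓞 K))⁰) = 1 := Subtype.ext Ideal.one_eq_top.symm
    rw [h2]
    exact h1
  | h₃ a q ha0 hq ih =>
    have hq0 : q ≠ ⊥ := hq.ne_zero
    have ha : a ∈ (Ideal (𝓞 K))⁰ := mem_nonZeroDivisors_of_ne_zero ha0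
    have := hmul ⟨q, Ideal.isPrime_of_prime hq, hq0⟩ ⟨a, ha⟩ (ih ha ha0)
    exact this

variable {G : Type*} [Group G] {p : ℕ} [hp : Fact p.Prime]

/-- **pair lemma + first inequality ⇒ reciprocity** (abstract form). -/
theorem art_eq_one_of_mk0_eq_one (hG : Nat.card G = p) (art : (Ideal (𝓞 K))⁰ →* G)
    (Nsub : Subgroup (ClassGroup (𝓞 K))) (hN : Nsub ≠ ⊤)
    (hpow : ∀ c : ClassGroup (𝓞 K), c ^ p ∈ Nsub)
    (D : HeightOneSpectrum (𝓞 K) → HeightOneSpectrum (𝓞 K) → Prop)
    (hsplit : ∀ q, art (primeIdeal K q) = 1 → ClassGroup.mk0 (primeIdeal K q) ∈ Nsub)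
    (hpair : ∀ q1 q2, D q1 q2 → art (primeIdeal K q1) ≠ 1 → art (primeIdeal K q2) ≠ 1 →
      ∀ k : ℕ, art (primeIdeal K q2) = art (primeIdeal K q1) ^ k →
        ClassGroup.mk0 (primeIdeal K q2) / ClassGroup.mk0 (primeIdeal K q1) ^ k ∈ Nsub)
    (hthird : ∀ q1 q2, art (primeIdeal K q1) ≠ 1 → art (primeIdeal K q2) ≠ 1 →
      ∃ q3, art (primeIdeal K q3) ≠ 1 ∧ D q1 q3 ∧ D q3 q2)
    (I : (Ideal (𝓞 K))⁰) (hI : ClassGroup.mk0 I = 1) : art I = 1 := by
  classical
  have hpp : p.Prime := hp.out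
  by_cases hall : ∀ q, art (primeIdeal K q) = 1
  · -- `art` is trivial
    refine nonzero_ideal_induction (fun I => art I = 1) (map_one art) ?_ I
    intro q I hI
    rw [map_mul, hall q, hI, one_mul]
  push Not at hall
  obtain ⟨q1, hq1⟩ := hall
  set g := art (primeIdeal K q1) with hg
  -- the quotient of the class group
  let π : ClassGroup (𝓞 K) →* ClassGroup (𝓞 K) ⧸ Nsub := QuotientGroup.mk' Nsub
  have hπ1 : ∀ c, π c = 1 ↔ c ∈ Nsub := fun c => QuotientGroup.eq_one_iff c
  have hπp : ∀ x : ClassGroup (𝓞 K) ⧸ Nsub, x ^ p = 1 := by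
    intro x
    obtain ⟨c, rfl⟩ := QuotientGroup.mk'_surjective Nsub x
    rw [← map_pow]
    exact (hπ1 _).mpr (hpow c)
  -- generators of `G`
  have hgen : ∀ {h : G}, h ≠ 1 → ∀ x : G, ∃ k : ℕ, x = h ^ k := by
    intro h hh x
    have htop := zpowers_eq_top_of_prime_card hG hh
    have hx : x ∈ Subgroup.zpowers h := htop ▸ Subgroup.mem_top x
    haveI : Finite G := Nat.finite_of_card_ne_zero (by rw [hG]; exact hpp.ne_zero)
    obtain ⟨k, hk⟩ := (Submonoid.mem_powers_iff x h).mp (mem_powers_iff_mem_zpowers.mpr hx)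
    exact ⟨k, hk.symm⟩
  have hord : ∀ {h : G}, h ≠ 1 → orderOf h = p := by
    intro h hh
    haveI : Finite G := Nat.finite_of_card_ne_zero (by rw [hG]; exact hpp.ne_zero)
    have h1 : h ^ p = 1 := by rw [← hG]; exact pow_card_eq_one'
    exact orderOf_eq_prime h1 hh
  -- powers in the quotient only depend on the exponent mod `p`
  have hpowmod : ∀ (x : ClassGroup (𝓞 K) ⧸ Nsub) {a b : ℕ}, a ≡ b [MOD p] → x ^ a = x ^ b := by
    intro x a b hab
    rw [pow_eq_pow_iff_modEq]
    exact hab.of_dvd (orderOf_dvd_of_pow_eq_one (hπp x))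
  have hGmod : ∀ {h : G}, h ≠ 1 → ∀ {a b : ℕ}, h ^ a = h ^ b → a ≡ b [MOD p] := by
    intro h hh a b hab
    have := pow_eq_pow_iff_modEq.mp hab
    rwa [hord hh] at this
  -- the pair lemma for related primes, in the quotient
  have hpairπ : ∀ q q', D q q' → art (primeIdeal K q) ≠ 1 → art (primeIdeal K q') ≠ 1 →
      ∀ k : ℕ, art (primeIdeal K q') = art (primeIdeal K q) ^ k →
        π (ClassGroup.mk0 (primeIdeal K q')) = π (ClassGroup.mk0 (primeIdeal K q)) ^ k := by
    intro q q' hD hq hq' k hk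
    have := (hπ1 _).mpr (hpair q q' hD hq hq' k hk)
    rw [map_div, map_pow, div_eq_one] at this
    exact this
  -- the full pair lemma relative to `q1`
  have hfull : ∀ q2 (k : ℕ), art (primeIdeal K q2) = g ^ k →
      π (ClassGroup.mk0 (primeIdeal K q2)) = π (ClassGroup.mk0 (primeIdeal K q1)) ^ k := by
    intro q2 k hk
    by_cases hq2 : art (primeIdeal K q2) = 1
    · rw [(hπ1 _).mpr (hsplit q2 hq2)]
      have h0 : g ^ k = g ^ 0 := by rw [← hk, hq2, pow_zero]
      rw [hpowmod _ (hGmod hq1 h0), pow_zero]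
    · obtain ⟨q3, hq3, hD13, hD32⟩ := hthird q1 q2 hq1 hq2
      obtain ⟨j, hj⟩ := hgen hq1 (art (primeIdeal K q3))
      obtain ⟨m, hm⟩ := hgen hq3 (art (primeIdeal K q2))
      have e1 := hpairπ q1 q3 hD13 hq1 hq3 j hj
      have e2 := hpairπ q3 q2 hD32 hq3 hq2 m hm
      have h0 : g ^ k = g ^ (j * m) := by rw [← hk, hm, hj, pow_mul]
      rw [e2, e1, ← pow_mul]
      exact (hpowmod _ (hGmod hq1 h0)).symm
  -- the claim for all nonzero ideals
  have hclaim : ∀ J : (Ideal (𝓞 K))⁰, ∀ k : ℕ, art J = g ^ k →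
      π (ClassGroup.mk0 J) = π (ClassGroup.mk0 (primeIdeal K q1)) ^ k := by
    intro J
    refine nonzero_ideal_induction (fun J => ∀ k : ℕ, art J = g ^ k →
      π (ClassGroup.mk0 J) = π (ClassGroup.mk0 (primeIdeal K q1)) ^ k) ?_ ?_ J
    · intro k hk
      rw [map_one] at hk
      have h0 : g ^ k = g ^ 0 := by rw [← hk, pow_zero]
      rw [map_one, map_one, hpowmod _ (hGmod hq1 h0), pow_zero]
    · intro q J hJ k hk
      obtain ⟨a, ha⟩ := hgen hq1 (art (primeIdeal K q))
      obtain ⟨b, hb⟩ := hgen hq1 (art J)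
      have h0 : g ^ k = g ^ (a + b) := by rw [← hk, map_mul, ha, hb, pow_add]
      rw [map_mul, map_mul, hfull q a ha, hJ b hb, ← pow_add]
      exact (hpowmod _ (hGmod hq1 h0)).symm
  -- conclusion
  obtain ⟨k, hk⟩ := hgen hq1 (art I)
  have h1 := hclaim I k hk
  rw [hI, map_one] at h1
  by_cases hpk : p ∣ k
  · rw [hk]
    obtain ⟨m, rfl⟩ := hpk
    rw [pow_mul, ← hord hq1, pow_orderOf_eq_one, one_pow]
  · exfalso
    -- `π (cls q1) = 1`
    have hcop : Nat.Coprime k p := (Nat.Coprime.symm ((Nat.Prime.coprime_iff_not_dvd hpp).mpr hpk))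
    have h2 : π (ClassGroup.mk0 (primeIdeal K q1)) = 1 := by
      have h3 : π (ClassGroup.mk0 (primeIdeal K q1)) ^ (k.gcd p) = 1 :=
        pow_gcd_eq_one.mpr ⟨h1.symm, hπp _⟩
      rwa [hcop, pow_one] at h3
    apply hN
    rw [eq_top_iff]
    intro c _
    obtain ⟨J, rfl⟩ := ClassGroup.mk0_surjective c
    obtain ⟨b, hb⟩ := hgen hq1 (art J)
    have := hclaim J b hb
    rw [h2, one_pow] at this
    exact (hπ1 _).mp this

end Abstract

end Fermat.Agent.ExtVan
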