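/-
S14 long shot, last step of the crossing, instantiated: for an everywhere unramified abelian
extension `M / K` of prime degree `p` of a totally complex number field, the pair lemma
(`frob q₂ = frob q₁ ^ k ⇒ q₁ ^ k q₂ ^ (p-1)` is a norm class, for `q₁, q₂` of distinct residue
characteristics) implies that the Artin map kills the principal ideals.
-/
import Fermat.Agent.ExtVan.Crossing.PairToRecip
import Fermat.Agent.ExtVan.FirstIneqFrob
import Fermat.Agent.ExtVan.DegOneFrob
import Fermat.Agent.ExtVan.SecondIneq.ZetaOne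
import Fermat.Agent.ExtVan.SecondIneq.NormClass

set_option autoImplicit false
set_option linter.style.haveILetI false
set_option linter.unusedSectionVars false

namespace Fermat.Agent.ExtVan

open NumberField IsDedekindDomain Module
open scoped nonZeroDivisors Pointwise

section Generalities

variable {K M : Type*} [Field K] [NumberField K] [Field M] [NumberField M] [Algebra K M]

theorem cls_pow {R : Type*} [CommRing R] [IsDedekindDomain R] {𝔞 : Ideal R} (h : 𝔞 ≠ ⊥) (n : ℕ) :
    cls (𝔞 ^ n) = cls 𝔞 ^ n := by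
  induction n with
  | zero =>
    rw [pow_zero, pow_zero, Ideal.one_eq_top, ← Ideal.span_singleton_one,
      cls_span_singleton one_ne_zero]
  | succ n ih => rw [pow_succ, pow_succ, cls_mul (pow_ne_zero n h) h, ih]

/-- the subgroup of norm classes is the range of the norm homomorphism on class groups. -/
theorem normClassSubgroup_eq_range_clNorm :
    SecondIneq.normClassSubgroup K M = (clNorm (K := K) (M := M)).range := by
  have hset : {c | ∃ A : (Ideal (𝓞 M))⁰, c = ClassGroup.mk0 (SecondIneq.relNorm0 K M A)} =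
      ((clNorm (K := K) (M := M)).range : Set (ClassGroup (𝓞 K))) := by
    ext c
    simp only [Set.mem_ofPred_eq, SetLike.mem_coe, MonoidHom.mem_range]
    constructor
    · rintro ⟨A, rfl⟩
      refine ⟨ClassGroup.mk0 A, ?_⟩
      rw [← cls_coe A, clNorm_cls (nonZeroDivisors.coe_ne_zero A), ← cls_coe]
      rfl
    · rintro ⟨c', rfl⟩
      obtain ⟨A, rfl⟩ := ClassGroup.mk0_surjective c'
      refine ⟨A, ?_⟩
      rw [← cls_coe A, clNorm_cls (nonZeroDivisors.coe_ne_zero A), ← cls_coe]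
      rfl
  rw [SecondIneq.normClassSubgroup, hset, Subgroup.closure_eq]

/-- `p`-th powers (`p` the degree) are norm classes. -/
theorem pow_finrank_mem_range_clNorm (c : ClassGroup (𝓞 K)) :
    c ^ finrank K M ∈ (clNorm (K := K) (M := M)).range := by
  obtain ⟨𝔞, h𝔞, rfl⟩ := exists_cls_eq c
  refine ⟨cls (𝔞.map (algebraMap (𝓞 K) (𝓞 M))), ?_⟩
  rw [clNorm_cls (map_algebraMap_ne_bot h𝔞), Ideal.relNorm_algebraMap, cls_pow h𝔞,
    IsFractionRing.finrank_eq (𝓞 K) K (𝓞 M) M]

/-- a rational prime contained in a proper ideal divides its absolute norm. -/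
theorem dvd_absNorm_of_natCast_mem {q : Ideal (𝓞 K)} (hq : q ≠ ⊤) {r : ℕ} (hr : r.Prime)
    (h : (r : 𝓞 K) ∈ q) : r ∣ Ideal.absNorm q := by
  by_contra hnd
  have hcop : Nat.Coprime r (Ideal.absNorm q) := (Nat.Prime.coprime_iff_not_dvd hr).mpr hnd
  obtain ⟨a, b, hab⟩ := Nat.isCoprime_iff_coprime.mpr hcop
  apply hq
  rw [Ideal.eq_top_iff_one]
  have h1 : ((a * (r : ℤ) + b * (Ideal.absNorm q : ℤ) : ℤ) : 𝓞 K) = 1 := by
    rw [hab]; simp
  rw [← h1]
  push_cast
  exact q.add_mem (q.mul_mem_left _ h) (q.mul_mem_left _ (Ideal.absNorm_mem q))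

end Generalities

section Main

variable {K M : Type*} [Field K] [NumberField K] [Field M] [NumberField M] [Algebra K M]
  [IsAbelianGalois K M]

/-- `UnramAt` at all primes gives `Algebra.IsUnramifiedAt` at all nonzero primes above. -/
theorem isUnramifiedAt_of_forall_unramAt (hunr : ∀ q : HeightOneSpectrum (𝓞 K), UnramAt K M q)
    (Q : Ideal (𝓞 M)) [Q.IsPrime] (hQ : Q ≠ ⊥) : Algebra.IsUnramifiedAt (𝓞 K) Q := by
  set q : HeightOneSpectrum (𝓞 K) :=
    ⟨Q.under (𝓞 K), Ideal.IsPrime.under (𝓞 K) Q, Ideal.under_ne_bot (𝓞 K) hQ⟩ with hq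
  have hlies : Q.LiesOver q.asIdeal := ⟨rfl⟩
  exact unramAt_iff_isUnramifiedAt.mp (hunr q) Q hlies

/-- primes with trivial Frobenius are norm classes. -/
theorem mk0_primeIdeal_mem_range_clNorm (hunr : ∀ q : HeightOneSpectrum (𝓞 K), UnramAt K M q)
    (q : HeightOneSpectrum (𝓞 K)) (hfrob : frob K M q = 1) :
    ClassGroup.mk0 (primeIdeal K q) ∈ (clNorm (K := K) (M := M)).range := by
  set Q : Ideal (𝓞 M) := (primeAbove K M q).1 with hQ
  haveI : Q.IsPrime := inferInstanceAs ((primeAbove K M q).1.IsPrime)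
  haveI hlies : Q.LiesOver q.asIdeal := inferInstanceAs ((primeAbove K M q).1.LiesOver q.asIdeal)
  have hQ0 : Q ≠ ⊥ := ne_bot_of_liesOver K M q Q
  have hf : Q.inertiaDeg (𝓞 K) = 1 := (frob_eq_one_iff (hunr q) Q).mp hfrob
  haveI : Q.IsMaximal := Ideal.IsPrime.isMaximal inferInstance hQ0
  haveI : q.asIdeal.IsMaximal := q.isMaximal
  have hrel : Ideal.relNorm (𝓞 K) Q = q.asIdeal := by
    rw [Ideal.relNorm_eq_pow_of_isMaximal Q q.asIdeal, hf, pow_one]
  refine ⟨cls Q, ?_⟩
  rw [clNorm_cls hQ0, hrel, ← cls_coe]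
  rfl

/-- infinitely many primes with non-trivial Frobenius. -/
theorem exists_frob_ne_one_not_mem {p : ℕ} [hp : Fact p.Prime] (hpM : finrank K M = p)
    (hunr : ∀ q : HeightOneSpectrum (𝓞 K), UnramAt K M q)
    (S : Finset (HeightOneSpectrum (𝓞 K))) : ∃ q ∉ S, frob K M q ≠ 1 := by
  obtain ⟨q, hqS, -, hq⟩ := exists_degOne_prime_frob_ne_one (F := K) (L := M)
    (by rw [hpM]; exact hp.out.two_le)
    (SecondIneq.LS.exists_lower_bound_primeSum K) (SecondIneq.LS.exists_upper_bound_primeSum M) S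
    (fun q _ => unramAt_iff_ramificationIdx.mp (hunr q))
  exact ⟨q, hqS, hq⟩

variable [IsTotallyComplex K] {p : ℕ} [hp : Fact p.Prime]

/-- **pair lemma ⇒ reciprocity** for an everywhere unramified abelian extension of prime degree of
a totally complex number field. -/
theorem artin_eq_one_of_isPrincipal_of_pair (hpM : finrank K M = p)
    (hunr : ∀ q : HeightOneSpectrum (𝓞 K), UnramAt K M q)
    (hpair : ∀ (q1 q2 : HeightOneSpectrum (𝓞 K)) (k : ℕ), frob K M q1 ≠ 1 →
      frob K M q2 = frob K M q1 ^ k →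
      (∀ r : ℕ, r.Prime → (r : 𝓞 K) ∈ q1.asIdeal → (r : 𝓞 K) ∉ q2.asIdeal) →
      ClassGroup.mk0 (primeIdeal K q1 ^ k * primeIdeal K q2 ^ (p - 1)) ∈
        SecondIneq.normClassSubgroup K M)
    (I : (Ideal (𝓞 K))⁰) (hI : (I : Ideal (𝓞 K)).IsPrincipal) : artin K M I = 1 := by
  classical
  have hpp : p.Prime := hp.out
  haveI : FiniteDimensional K M :=
    FiniteDimensional.of_finrank_pos (by rw [hpM]; exact hpp.pos)
  have hG : Nat.card Gal(M/K) = p := by rw [IsGalois.card_aut_eq_finrank, hpM]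
  have hunrA : ∀ (Q : Ideal (𝓞 M)) [Q.IsPrime], Q ≠ ⊥ → Algebra.IsUnramifiedAt (𝓞 K) Q :=
    fun Q _ hQ => isUnramifiedAt_of_forall_unramAt hunr Q hQ
  set Nsub := SecondIneq.normClassSubgroup K M with hNsub
  have hNeq : Nsub = (clNorm (K := K) (M := M)).range := normClassSubgroup_eq_range_clNorm
  have hN : Nsub ≠ ⊤ := by
    rw [hNeq, Ne, MonoidHom.range_eq_top]
    exact not_surjective_clNorm hpM (unramifiedEverywhere_of_forall_isUnramifiedAt hunrA)
  have hpow : ∀ c : ClassGroup (𝓞 K), c ^ p ∈ Nsub := by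
    intro c
    rw [hNeq, ← hpM]
    exact pow_finrank_mem_range_clNorm c
  let D : HeightOneSpectrum (𝓞 K) → HeightOneSpectrum (𝓞 K) → Prop := fun q1 q2 =>
    ∀ r : ℕ, r.Prime → (r : 𝓞 K) ∈ q1.asIdeal → (r : 𝓞 K) ∉ q2.asIdeal
  refine art_eq_one_of_mk0_eq_one hG (artin K M) Nsub hN hpow D ?_ ?_ ?_ I
    ((ClassGroup.mk0_eq_one_iff I.2).mpr hI)
  · -- split primes
    intro q hq
    rw [artin_primeIdeal] at hq
    rw [hNeq]
    exact mk0_primeIdeal_mem_range_clNorm hunr q hq
  · -- pair lemma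
    intro q1 q2 hD hq1 _ k hk
    rw [artin_primeIdeal] at hq1
    rw [artin_primeIdeal, artin_primeIdeal] at hk
    have h1 := hpair q1 q2 k hq1 hk hD
    rw [map_mul, map_pow, map_pow] at h1
    have h2 := hpow (ClassGroup.mk0 (primeIdeal K q2))
    have hp1 : (p - 1) + 1 = p := by have := hpp.pos; omega
    have key : ∀ (a b : ClassGroup (𝓞 K)) (n : ℕ), a / b = a ^ (n + 1) * (b * a ^ n)⁻¹ := by
      intro a b n
      rw [eq_mul_inv_iff_mul_eq, pow_succ', div_eq_mul_inv]
      calc a * b⁻¹ * (b * a ^ n) = a * (b⁻¹ * b) * a ^ n := by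
            simp only [mul_assoc]
        _ = a * a ^ n := by rw [inv_mul_cancel, mul_one]
    have h3 := key (ClassGroup.mk0 (primeIdeal K q2)) (ClassGroup.mk0 (primeIdeal K q1) ^ k) (p - 1)
    rw [hp1] at h3
    rw [h3]
    exact Nsub.mul_mem h2 (Nsub.inv_mem h1)
  · -- third prime
    intro q1 q2 _ _
    set n : ℕ := Ideal.absNorm q1.asIdeal * Ideal.absNorm q2.asIdeal with hn
    have hn0 : n ≠ 0 := by
      apply mul_ne_zero
      · rw [Ne, Ideal.absNorm_eq_zero_iff]; exact q1.ne_bot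
      · rw [Ne, Ideal.absNorm_eq_zero_iff]; exact q2.ne_bot
    have hspan : (Ideal.span {(n : 𝓞 K)} : Ideal (𝓞 K)) ≠ 0 := by
      rw [Ne, Ideal.zero_eq_bot, Ideal.span_singleton_eq_bot]
      exact_mod_cast hn0
    have hfin := Ideal.finite_factors hspan
    obtain ⟨q3, hq3S, hq3⟩ := exists_frob_ne_one_not_mem hpM hunr hfin.toFinset
    have hq3n : (n : 𝓞 K) ∉ q3.asIdeal := by
      intro hmem
      apply hq3S
      rw [Set.Finite.mem_toFinset, Set.mem_ofPred_eq, Ideal.dvd_span_singleton]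
      exact hmem
    have hdvd : ∀ r : ℕ, r ∣ n → (r : 𝓞 K) ∉ q3.asIdeal := by
      rintro r ⟨m, hm⟩ hr
      apply hq3n
      rw [hm]
      push_cast
      exact q3.asIdeal.mul_mem_right _ hr
    refine ⟨q3, by rwa [artin_primeIdeal], ?_, ?_⟩
    · intro r hr hr1
      exact hdvd r (Dvd.dvd.mul_right
        (dvd_absNorm_of_natCast_mem q1.isPrime.ne_top hr hr1) _)
    · intro r hr hr3 hr2
      exact hdvd r (Dvd.dvd.mul_left
        (dvd_absNorm_of_natCast_mem q2.isPrime.ne_top hr hr2) _) hr3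

end Main

end Fermat.Agent.ExtVan
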