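/-
S14 long shot, brick [C] = crossing (helper8): FINAL GLUE.  `hpair`: the crossing lemma for an
unramified abelian extension `M/K` of degree `p` of `K = ℚ(ζ_p)`, assembled from
`pair_mem_normClasses` (Pair), `Fields`, `MEGroup` (helper9), `ExplicitRecip` (helper6),
`NormPow`/`RamBook`/`TotRamCyclo` (helper4), `RamSource`/`CycloDegOne`/`NormClassBridge` (helper1),
`AuxPrime` (helper3), `CycloTower` (helper6), `second_ineq` (helper2).
-/
import Fermat.Agent.ExtVan.Crossing.ExplicitRecip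
import Fermat.Agent.ExtVan.Crossing.MEGroup
import Fermat.Agent.ExtVan.Crossing.NormClassBridge
import Fermat.Agent.ExtVan.Crossing.RamBook
import Fermat.Agent.ExtVan.Crossing.RecipOfPair
import Fermat.Agent.ExtVan.Crossing.AuxPrime
import Fermat.Agent.ExtVan.Crossing.CycloDegOne
import Fermat.Agent.ExtVan.Crossing.NormPow
import Fermat.Agent.ExtVan.Crossing.RamSource
import Fermat.Agent.ExtVan.Crossing.CycloTower

set_option linter.unusedSectionVars false
set_option linter.style.haveILetI false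

open NumberField nonZeroDivisors IsDedekindDomain

namespace Fermat.Agent.ExtVan.Crossing

open Fermat.Agent.ExtVan

/-- A nonzero prime of a number ring contains a rational prime. -/
theorem exists_natPrime_mem_asIdeal {K : Type*} [Field K] [NumberField K]
    (q : HeightOneSpectrum (𝓞 K)) : ∃ r : ℕ, r.Prime ∧ (r : 𝓞 K) ∈ q.asIdeal := by
  have key : ∀ n : ℕ, n ≠ 0 → (n : 𝓞 K) ∈ q.asIdeal → ∃ r : ℕ, r.Prime ∧ (r : 𝓞 K) ∈ q.asIdeal := by
    intro n
    induction n using Nat.recOnMul with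
    | zero => intro h; exact absurd rfl h
    | one =>
      intro _ h
      rw [Nat.cast_one] at h
      exact absurd ((Ideal.eq_top_iff_one _).2 h) q.isPrime.ne_top
    | prime r hr => intro _ h; exact ⟨r, hr, h⟩
    | mul a b iha ihb =>
      intro hab h
      rw [Nat.cast_mul] at h
      rcases q.isPrime.mem_or_mem h with h' | h'
      · exact iha (left_ne_zero_of_mul hab) h'
      · exact ihb (right_ne_zero_of_mul hab) h'
  refine key (Ideal.absNorm q.asIdeal) ?_ (Ideal.absNorm_mem _)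
  rw [Ne, Ideal.absNorm_eq_zero_iff]
  exact q.ne_bot

/-- In the `p`-th cyclotomic field, the absolute norm of a nonzero prime is `r ^ f` with `r` the
rational prime below and `p ∤ f`. -/
theorem exists_absNorm_eq_pow {p : ℕ} [hp : Fact p.Prime] {K : Type*} [Field K] [NumberField K]
    [IsCyclotomicExtension {p} ℚ K] (q : HeightOneSpectrum (𝓞 K)) :
    ∃ r f : ℕ, r.Prime ∧ (r : 𝓞 K) ∈ q.asIdeal ∧ Ideal.absNorm q.asIdeal = r ^ f ∧ ¬ p ∣ f := by
  obtain ⟨r, hr, hmem⟩ := exists_natPrime_mem_asIdeal q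
  have : Fact r.Prime := ⟨hr⟩
  have : NeZero p := ⟨hp.out.ne_zero⟩
  have hq : q.asIdeal.IsPrime := q.isPrime
  have hlo := liesOver_span_of_natCast_mem hr q.asIdeal hmem
  have hmax : q.asIdeal.IsMaximal := q.isMaximal
  have hmax' : (Ideal.span {(r : ℤ)}).IsMaximal :=
    ((Ideal.span_singleton_prime (by exact_mod_cast hr.ne_zero)).2
      (Nat.prime_iff_prime_int.1 hr)).isMaximal (by simpa using hr.ne_zero)
  have habs := Ideal.absNorm_eq_pow_inertiaDeg' q.asIdeal hr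
  rw [Ideal.inertiaDeg'_eq_inertiaDeg (Ideal.span {(r : ℤ)}) q.asIdeal] at habs
  refine ⟨r, q.asIdeal.inertiaDeg ℤ, hr, hmem, habs, ?_⟩
  by_cases hrp : r = p
  · subst hrp
    rw [IsCyclotomicExtension.Rat.inertiaDeg_eq_of_prime r K q.asIdeal]
    exact hr.not_dvd_one
  · have hndvd : ¬ r ∣ p := by
      intro h
      exact hrp ((Nat.prime_dvd_prime_iff_eq hr hp.out).1 h)
    rw [IsCyclotomicExtension.Rat.inertiaDeg_eq_of_not_dvd (m := p) r K q.asIdeal hndvd]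
    intro hdvd
    -- orderOf divides p - 1
    have hunit : IsUnit ((r : ℕ) : ZMod p) := by
      rw [ZMod.isUnit_iff_coprime]
      exact (Nat.coprime_primes hr hp.out).2 hrp
    obtain ⟨u, hu⟩ := hunit
    have h1 : orderOf ((r : ℕ) : ZMod p) = orderOf u := by
      rw [← hu]; exact (orderOf_units (y := u))
    have h2 : orderOf u ∣ p - 1 := by
      have := orderOf_dvd_card (x := u)
      rwa [ZMod.card_units_eq_totient, Nat.totient_prime hp.out] at this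
    rw [h1] at hdvd
    have h3 := Nat.le_of_dvd (by have := hp.out.two_le; omega) (hdvd.trans h2)
    have := hp.out.two_le
    omega


/-- The auxiliary prime in the shape used by the crossing. -/
theorem exists_aux_prime_cross {p : ℕ} [hp : Fact p.Prime] {r₁ r₂ : ℕ} (hr₁ : r₁.Prime)
    (hr₂ : r₂.Prime) (hne : r₁ ≠ r₂) {f₁ f₂ : ℕ} (hf₁ : ¬ p ∣ f₁) (hf₂ : ¬ p ∣ f₂) (k : ℕ) :
    ∃ l : ℕ, l.Prime ∧ l ≠ p ∧ l ≠ r₁ ∧ l ≠ r₂ ∧ p ∣ l - 1 ∧
      (¬ ∃ x : ZMod l, x ^ p = ((r₁ ^ f₁ : ℕ) : ZMod l)) ∧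
      ∃ c : ZMod l, ((r₂ ^ f₂ : ℕ) : ZMod l) = ((r₁ ^ f₁ : ℕ) : ZMod l) ^ k * c ^ p := by
  obtain ⟨l, hl, hN, hpl, hnot, y, hy⟩ :=
    exists_aux_prime hr₁ hr₂ hne hf₁ hf₂ (f₁ * (k * (p - 1))) (r₁ + r₂ + p)
  have : Fact l.Prime := ⟨hl⟩
  refine ⟨l, hl, by omega, by omega, by omega, hpl, ?_, ?_⟩
  · simpa using hnot
  · have hr₁0 : ((r₁ : ℕ) : ZMod l) ≠ 0 := by
      rw [Ne, ZMod.natCast_eq_zero_iff]
      intro h
      have := Nat.le_of_dvd hr₁.pos h
      omega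
    set a : ZMod l := ((r₁ ^ f₁ : ℕ) : ZMod l) with ha
    have ha' : a = (r₁ : ZMod l) ^ f₁ := by rw [ha]; push_cast; rfl
    have ha0 : a ≠ 0 := by rw [ha']; exact pow_ne_zero _ hr₁0
    refine ⟨y * (a ^ k)⁻¹, ?_⟩
    have hk0 : a ^ k ≠ 0 := pow_ne_zero _ ha0
    rw [mul_pow, hy, pow_mul, ← ha']
    push_cast
    have hp1 : 1 ≤ p := hp.out.one_le
    have h2 : a ^ k * ((r₂ : ZMod l) ^ f₂ * (a ^ (k * (p - 1))) * ((a ^ k)⁻¹) ^ p) =
        (r₂ : ZMod l) ^ f₂ * ((a ^ k) ^ p * ((a ^ k)⁻¹) ^ p) := by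
      have h3 : (a ^ k) ^ p = a ^ k * a ^ (k * (p - 1)) := by
        rw [← pow_mul, ← pow_add]
        congr 1
        have : p = 1 + (p - 1) := by omega
        nth_rewrite 1 [this]
        ring
      rw [h3]; ring
    rw [h2, ← mul_pow, mul_inv_cancel₀ hk0, one_pow, mul_one]


section HPairAux

variable {K M : Type*} {N : Type*} [Field K] [Field M] [Field N] [NumberField K] [NumberField M]
  [NumberField N] [Algebra K M] [Algebra M N] [Algebra K N] [IsScalarTower K M N]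
  [IsAbelianGalois K N] [IsAbelianGalois K M]
  {l : ℕ} [hl : Fact l.Prime] {ζ : N} (hζ : IsPrimitiveRoot ζ l) {p : ℕ} [hp : Fact p.Prime]

/-- The crossing for a fixed auxiliary prime `l` and top field `N ∋ ζ_l`. -/
theorem hpair_aux
    (hT3 : ∀ g : Gal(N/K), AlgEquiv.restrictNormalHom M g = 1 →
      (haveI : NeZero l := ⟨hl.out.ne_zero⟩; hζ.autToPow K g) = 1 → g = 1)
    (hpM : Module.finrank K M = p) (hunr : ∀ q : HeightOneSpectrum (𝓞 K), UnramAt K M q)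
    {q₁ q₂ : HeightOneSpectrum (𝓞 K)} {k : ℕ} (h₁ : frob K M q₁ ≠ 1)
    (h₂ : frob K M q₂ = frob K M q₁ ^ k)
    (hl₁ : ¬ l ∣ Ideal.absNorm q₁.asIdeal) (hl₂ : ¬ l ∣ Ideal.absNorm q₂.asIdeal)
    (hnot : ¬ ∃ x : ZMod l, x ^ p = (Ideal.absNorm q₁.asIdeal : ZMod l))
    (hc : ∃ c : ZMod l, (Ideal.absNorm q₂.asIdeal : ZMod l) =
      (Ideal.absNorm q₁.asIdeal : ZMod l) ^ k * c ^ p)
    (hnorm : ∀ β : 𝓞 (crossField (T := fieldME K M hζ p) q₁), ∃ c : ZMod l,
      ((Ideal.absNorm (Ideal.relNorm (𝓞 K) (Ideal.span {β})) : ℕ) : ZMod l) = c ^ p) :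
    ClassGroup.mk0 (primeIdeal K q₁ ^ k * primeIdeal K q₂ ^ (p - 1)) ∈
      SecondIneq.normClassSubgroup K M := by
  haveI : NeZero l := ⟨hl.out.ne_zero⟩
  -- unramifiedness in `N` away from `l`
  have hunrN : ∀ q : HeightOneSpectrum (𝓞 K), ¬ l ∣ Ideal.absNorm q.asIdeal → UnramAt K N q := by
    intro q hq
    refine unramAt_of_natCast_not_mem hζ hT3 (hunr q) ?_
    intro hmem
    exact hq (dvd_absNorm_of_natCast_mem q.isPrime.ne_top hl.out hmem)
  have hq₁N := hunrN q₁ hl₁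
  have hq₂N := hunrN q₂ hl₂
  have hexp : ∀ g : Gal((fieldME K M hζ p)/K), g ^ p = 1 := pow_eq_one_fieldME hpM
  -- the Frobenius relation in `fieldME`
  have hfrob : frob K (fieldME K M hζ p) q₂ = frob K (fieldME K M hζ p) q₁ ^ k := by
    refine frob_fieldME_eq_pow_of_unramAt hp.out.ne_zero hq₁N hq₂N
      ((Nat.Prime.coprime_iff_not_dvd hl.out).2 hl₁)
      ((Nat.Prime.coprime_iff_not_dvd hl.out).2 hl₂) h₂ ?_
    obtain ⟨c, hc⟩ := hc
    refine ⟨(Ideal.absNorm q₁.asIdeal : ZMod l) ^ k * c, k * (p - 1), ?_, ?_⟩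
    · refine ⟨k, ?_⟩
      have := hp.out.one_le
      nth_rewrite 1 [← mul_one k]
      rw [← mul_add, Nat.add_sub_cancel' this, mul_comm]
    · rw [hc, mul_pow]
      have h3 : ((Ideal.absNorm q₁.asIdeal : ZMod l) ^ k) ^ p =
          (Ideal.absNorm q₁.asIdeal : ZMod l) ^ k * (Ideal.absNorm q₁.asIdeal : ZMod l) ^ (k * (p - 1)) := by
        rw [← pow_mul, ← pow_add]
        congr 1
        have : p = 1 + (p - 1) := by have := hp.out.one_le; omega
        nth_rewrite 1 [this]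
        ring
      rw [h3]; ring
  -- explicit reciprocity
  have hTfix : ∀ g : Gal(N/K), g ∈ (fieldME K M hζ p).fixingSubgroup →
      ∃ u : (ZMod l)ˣ, hζ.autToPow K g = u ^ p := by
    intro g hg
    rw [fixingSubgroup_fieldME, mem_gammaME_iff, mem_powSubgroup_iff] at hg
    obtain ⟨u, hu⟩ := hg.2
    exact ⟨u, hu.symm⟩
  have hrec := artin_spanS_eq_one hζ (fieldME K M hζ p) (q₁ := q₁) hl.out hp.out hTfix hexp hunrN
    hl₁ hnot hnorm
  have key := pair_mem_normClasses (K := K) (M := M) (T := fieldME K M hζ p) (q₁ := q₁) hp.out hl.out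
    hexp (unramAt_crossField_fieldME hpM hunr hq₁N h₁)
    (hq₁N.tower_bot (E := fieldME K M hζ p)) (hq₂N.tower_bot (E := fieldME K M hζ p)) h₁ hfrob
    hl₁ hl₂ hrec (CrossingAux.index_normClasses_le _ _)
  rwa [CrossingAux.normClasses_eq_normClassSubgroup] at key

end HPairAux

section HPair

variable {K M : Type*} [Field K] [Field M] [NumberField K] [NumberField M] [Algebra K M]
  [IsAbelianGalois K M] {p : ℕ} [hp : Fact p.Prime] [IsCyclotomicExtension {p} ℚ K]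

/-- **The crossing lemma** (`hpair`): for an unramified abelian extension `M/K` of degree `p` of
the `p`-th cyclotomic field, `q₁` inert with `Frob(q₂) = Frob(q₁) ^ k`, `q₁` and `q₂` over distinct
rational primes: `q₁ ^ k * q₂ ^ (p - 1)` lies in a norm class. -/
theorem hpair (hp2 : p ≠ 2) (hpM : Module.finrank K M = p)
    (hunr : ∀ q : HeightOneSpectrum (𝓞 K), UnramAt K M q)
    (q₁ q₂ : HeightOneSpectrum (𝓞 K)) (k : ℕ) (h₁ : frob K M q₁ ≠ 1)
    (h₂ : frob K M q₂ = frob K M q₁ ^ k)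
    (hdiff : ∀ r : ℕ, r.Prime → (r : 𝓞 K) ∈ q₁.asIdeal → (r : 𝓞 K) ∉ q₂.asIdeal) :
    ClassGroup.mk0 (primeIdeal K q₁ ^ k * primeIdeal K q₂ ^ (p - 1)) ∈
      SecondIneq.normClassSubgroup K M := by
  obtain ⟨r₁, f₁, hr₁, hr₁q, hN₁, hf₁⟩ := exists_absNorm_eq_pow (p := p) q₁
  obtain ⟨r₂, f₂, hr₂, hr₂q, hN₂, hf₂⟩ := exists_absNorm_eq_pow (p := p) q₂
  have hr12 : r₁ ≠ r₂ := fun h => hdiff r₁ hr₁ hr₁q (h ▸ hr₂q)
  obtain ⟨l, hl, hlp, hl1, hl2, hpl, hnot, hc⟩ := exists_aux_prime_cross (p := p) hr₁ hr₂ hr12 hf₁ hf₂ k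
  haveI : Fact l.Prime := ⟨hl⟩
  haveI : NeZero l := ⟨hl.ne_zero⟩
  haveI : IsGalois ℚ K := IsCyclotomicExtension.isGalois {p} ℚ K
  have hl₁ : ¬ l ∣ Ideal.absNorm q₁.asIdeal := by
    rw [hN₁]
    intro h
    exact hl1 ((Nat.prime_dvd_prime_iff_eq hl hr₁).1 (hl.dvd_of_dvd_pow h))
  have hl₂ : ¬ l ∣ Ideal.absNorm q₂.asIdeal := by
    rw [hN₂]
    intro h
    exact hl2 ((Nat.prime_dvd_prime_iff_eq hl hr₂).1 (hl.dvd_of_dvd_pow h))
  -- the top field
  let N := CyclotomicField l M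
  haveI : NumberField N := IsCyclotomicExtension.numberField {l} M N
  haveI : IsAbelianGalois K N := isAbelianGalois_cyclo_tower M l
  have hζ : IsPrimitiveRoot (IsCyclotomicExtension.zeta l M N) l :=
    IsCyclotomicExtension.zeta_spec l M N
  have hT3 : ∀ g : Gal(N/K), AlgEquiv.restrictNormalHom M g = 1 → hζ.autToPow K g = 1 → g = 1 :=
    fun g => eq_one_of_restrictNormalHom_eq_one_of_autToPow_eq_one hζ g
  have hnot' : ¬ ∃ x : ZMod l, x ^ p = (Ideal.absNorm q₁.asIdeal : ZMod l) := by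
    rw [hN₁]; exact hnot
  have hc' : ∃ c : ZMod l, (Ideal.absNorm q₂.asIdeal : ZMod l) =
      (Ideal.absNorm q₁.asIdeal : ZMod l) ^ k * c ^ p := by
    rw [hN₁, hN₂]; exact hc
  have hq₁N : UnramAt K N q₁ := by
    refine unramAt_of_natCast_not_mem hζ hT3 (hunr q₁) ?_
    intro hmem
    exact hl₁ (dvd_absNorm_of_natCast_mem q₁.isPrime.ne_top hl hmem)
  refine hpair_aux (N := N) hζ hT3 hpM hunr h₁ h₂ hl₁ hl₂ hnot' hc' ?_
  intro β
  exact exists_pow_eq_absNorm_relNorm_crossField hζ hp2 hpM hunr hT3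
    (fun 𝔩 h𝔩 hmem => ramificationIdx_int_eq_one_of_ne hl hlp 𝔩 hmem)
    (fun 𝔩 h𝔩 hmem => absNorm_eq_of_natCast_mem_of_dvd_sub_one hl hpl 𝔩 hmem)
    hq₁N h₁ ((Nat.Prime.coprime_iff_not_dvd hl).2 hl₁) hnot' β

end HPair

end Fermat.Agent.ExtVan.Crossing
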