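/-
S14 long shot, crossing (helper4): the final instantiation of the abstract pair lemma
`pair_mem_normClasses`, given an auxiliary prime `l`.  `K = ℚ(ζ_p)`, `M/K` abelian of degree `p`,
unramified everywhere; `N := M(ζ_l)`, `T := fieldME ⊆ N`, `L := crossField q₁ ⊆ T`.
-/
import Fermat.Agent.ExtVan.Crossing.MEGroup
import Fermat.Agent.ExtVan.Crossing.ExplicitRecip
import Fermat.Agent.ExtVan.Crossing.NormClassBridge
import Fermat.Agent.ExtVan.Crossing.NormPow
import Fermat.Agent.ExtVan.Crossing.RecipOfPair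

set_option autoImplicit false
set_option linter.unusedSectionVars false
set_option linter.style.haveILetI false

open NumberField nonZeroDivisors IsDedekindDomain

namespace Fermat.Agent.ExtVan.Crossing

open Fermat.Agent.ExtVan

section HPairAux

variable {p : ℕ} [hpF : Fact p.Prime] {K M : Type*} [Field K] [NumberField K]
  [IsCyclotomicExtension {p} ℚ K] [Field M] [NumberField M] [Algebra K M] [IsAbelianGalois K M]

/-- **The pair lemma, given an auxiliary prime `l`.** -/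
theorem pair_mem_normClassSubgroup_of_aux_prime (hp2 : p ≠ 2) (hpM : Module.finrank K M = p)
    (hunr : ∀ q : HeightOneSpectrum (𝓞 K), UnramAt K M q)
    {q₁ q₂ : HeightOneSpectrum (𝓞 K)} {k : ℕ} (h₁ : frob K M q₁ ≠ 1)
    (h₂ : frob K M q₂ = frob K M q₁ ^ k)
    {l : ℕ} (hl : l.Prime) (hpl : p ∣ l - 1)
    (hl₁ : ¬ l ∣ Ideal.absNorm q₁.asIdeal) (hl₂ : ¬ l ∣ Ideal.absNorm q₂.asIdeal)
    (hq₁ : ¬ ∃ c : ZMod l, c ^ p = (Ideal.absNorm q₁.asIdeal : ZMod l))
    (hc : ∃ c : ZMod l, (Ideal.absNorm q₂.asIdeal : ZMod l) =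
      (Ideal.absNorm q₁.asIdeal : ZMod l) ^ k * c ^ p) :
    ClassGroup.mk0 (primeIdeal K q₁ ^ k * primeIdeal K q₂ ^ (p - 1)) ∈
      SecondIneq.normClassSubgroup K M := by
  have hp : p.Prime := hpF.out
  haveI : Fact l.Prime := ⟨hl⟩
  haveI : NeZero l := ⟨hl.ne_zero⟩
  have hlp : l ≠ p := by
    rintro rfl
    have h1 : l ≤ l - 1 := Nat.le_of_dvd (by have := hl.two_le; omega) hpl
    have := hl.two_le
    omega
  haveI : IsGalois ℚ K := IsCyclotomicExtension.isGalois {p} ℚ K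
  -- the field `N = M(ζ_l)`
  let N := CyclotomicField l M
  haveI : NumberField N := IsCyclotomicExtension.numberField {l} M N
  haveI : IsAbelianGalois K N := isAbelianGalois_cyclo_tower M l
  have hζ : IsPrimitiveRoot (IsCyclotomicExtension.zeta l M N) l :=
    IsCyclotomicExtension.zeta_spec l M N
  -- (T3)
  have hT3 : ∀ g : Gal(N/K), AlgEquiv.restrictNormalHom M g = 1 → hζ.autToPow K g = 1 → g = 1 :=
    fun g hg1 hg2 => eq_one_of_restrictNormalHom_eq_one_of_autToPow_eq_one hζ g hg1 hg2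
  -- unramifiedness outside `l`
  have hunrN : ∀ q : HeightOneSpectrum (𝓞 K), ¬ l ∣ Ideal.absNorm q.asIdeal → UnramAt K N q := by
    intro q hq
    refine unramAt_of_natCast_not_mem hζ hT3 (hunr q) ?_
    intro hmem
    exact hq (dvd_absNorm_of_natCast_mem q.isPrime.ne_top hl hmem)
  have hq₁N : UnramAt K N q₁ := hunrN q₁ hl₁
  have hq₂N : UnramAt K N q₂ := hunrN q₂ hl₂
  have hcop₁ : Nat.Coprime l (Ideal.absNorm q₁.asIdeal) :=
    (Nat.Prime.coprime_iff_not_dvd hl).mpr hl₁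
  -- `K = ℚ(ζ_p)`: `l` is unramified and splits completely
  have hK : ∀ 𝔩 : Ideal (𝓞 K), 𝔩.IsPrime → (l : 𝓞 K) ∈ 𝔩 → 𝔩.ramificationIdx ℤ = 1 :=
    fun 𝔩 h𝔩 hmem => ramificationIdx_int_eq_one_of_ne hl hlp 𝔩 hmem
  have hdeg : ∀ 𝔩 : Ideal (𝓞 K), 𝔩.IsPrime → (l : 𝓞 K) ∈ 𝔩 → Ideal.absNorm 𝔩 = l :=
    fun 𝔩 h𝔩 hmem => absNorm_eq_of_natCast_mem_of_dvd_sub_one hl hpl 𝔩 hmem
  -- the abstract pair lemma with `T = fieldME`
  have hexp : ∀ g : Gal((fieldME K M hζ p)/K), g ^ p = 1 := pow_eq_one_fieldME hpM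
  have hTfix : ∀ g : Gal(N/K), g ∈ (fieldME K M hζ p).fixingSubgroup →
      ∃ u : (ZMod l)ˣ, hζ.autToPow K g = u ^ p := by
    intro g hg
    rw [fixingSubgroup_fieldME, mem_gammaME_iff, mem_powSubgroup_iff] at hg
    obtain ⟨u, hu⟩ := hg.2
    exact ⟨u, hu.symm⟩
  have hmem := pair_mem_normClasses (K := K) (M := M) (T := fieldME K M hζ p) (q₁ := q₁)
    (q₂ := q₂) (k := k) hp hl hexp
    (fun Q' => unramAt_crossField_fieldME hpM hunr hq₁N h₁ Q')
    (hq₁N.tower_bot (E := fieldME K M hζ p)) (hq₂N.tower_bot (E := fieldME K M hζ p)) h₁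
    (frob_fieldME_eq_pow hp.ne_zero hT3 hunr hl₁ hl₂ h₂ hc) hl₁ hl₂
    (fun β hβ hβl => artin_spanS_eq_one hζ (fieldME K M hζ p) hl hp hTfix hexp hunrN hl₁ hq₁
      (fun β' => exists_pow_eq_absNorm_relNorm_crossField hζ hp2 hpM hunr hT3 hK hdeg hq₁N h₁
        hcop₁ hq₁ β') β hβ hβl)
    (CrossingAux.index_normClasses_le _ _)
  rw [CrossingAux.normClasses_eq_normClassSubgroup] at hmem
  exact hmem

end HPairAux

end Fermat.Agent.ExtVan.Crossing
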