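/-
S14 long shot, crossing helper lemmas (helper1): the "moving lemma" for ideal classes of a
Dedekind domain (every class contains an integral ideal coprime to a given nonzero ideal) and
its consequences for monoid homs on nonzero ideals killing the principal ideals coprime to `𝔪`.
-/
import Mathlib

set_option autoImplicit false
set_option linter.unusedSectionVars false

open scoped nonZeroDivisors

namespace Fermat.Agent.ExtVan

section Moving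

variable {R : Type*} [CommRing R] [IsDedekindDomain R]

/-- For nonzero ideals `J`, `𝔪` there is a nonzero ideal `K` coprime to `𝔪` with `J * K`
principal. -/
theorem exists_mul_eq_span_sup_eq_top {J 𝔪 : Ideal R} (hJ : J ≠ 0) (h𝔪 : 𝔪 ≠ 0) :
    ∃ (K : Ideal R) (a : R), a ≠ 0 ∧ J * K = Ideal.span {a} ∧ K ⊔ 𝔪 = ⊤ := by
  obtain ⟨a, ha⟩ := IsDedekindDomain.exists_sup_span_eq (I := J * 𝔪) (J := J) Ideal.mul_le_left
    (mul_ne_zero hJ h𝔪)
  by_cases ha0 : a = 0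
  · -- then `J * 𝔪 = J`, so `𝔪 = ⊤`
    subst ha0
    have h1 : J * 𝔪 = J * 1 := by
      rw [mul_one]
      simpa using ha
    have h2 : 𝔪 = 1 := mul_left_cancel₀ hJ h1
    obtain ⟨b, hbJ, hb0⟩ := Submodule.exists_mem_ne_zero_of_ne_bot hJ
    obtain ⟨K, hK⟩ : J ∣ Ideal.span {b} := by
      rw [Ideal.dvd_iff_le, Ideal.span_singleton_le_iff_mem]
      exact hbJ
    refine ⟨K, b, hb0, hK.symm, ?_⟩
    rw [h2, Ideal.one_eq_top, sup_top_eq]
  · have haJ : a ∈ J := by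
      rw [← ha]
      exact Ideal.mem_sup_right (Ideal.mem_span_singleton_self a)
    obtain ⟨K, hK⟩ : J ∣ Ideal.span {a} := by
      rw [Ideal.dvd_iff_le, Ideal.span_singleton_le_iff_mem]
      exact haJ
    refine ⟨K, a, ha0, hK.symm, ?_⟩
    have h1 : J * (K ⊔ 𝔪) = J * 1 := by
      rw [mul_one, Ideal.mul_sup, ← hK, sup_comm]
      exact ha
    have h2 := mul_left_cancel₀ hJ h1
    rw [h2, Ideal.one_eq_top]

/-- **Moving lemma**: every ideal class contains an integral ideal coprime to `𝔪`. -/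
theorem exists_mk0_eq_sup_eq_top (C : ClassGroup R) {𝔪 : Ideal R} (h𝔪 : 𝔪 ≠ 0) :
    ∃ I : (Ideal R)⁰, ClassGroup.mk0 I = C ∧ (I : Ideal R) ⊔ 𝔪 = ⊤ := by
  obtain ⟨J, hJ⟩ := ClassGroup.mk0_surjective C⁻¹
  have hJ0 : (J : Ideal R) ≠ 0 := nonZeroDivisors.coe_ne_zero J
  obtain ⟨K, a, ha0, hKa, hK𝔪⟩ := exists_mul_eq_span_sup_eq_top hJ0 h𝔪
  have hK0 : K ≠ 0 := by
    rintro rfl
    rw [mul_zero] at hKa
    exact ha0 (by simpa using hKa.symm)
  refine ⟨⟨K, mem_nonZeroDivisors_iff_ne_zero.2 hK0⟩, ?_, hK𝔪⟩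
  have hprod : ClassGroup.mk0 (J * ⟨K, mem_nonZeroDivisors_iff_ne_zero.2 hK0⟩) = 1 := by
    rw [ClassGroup.mk0_eq_one_iff]
    exact ⟨a, hKa⟩
  rw [map_mul, hJ] at hprod
  exact (inv_mul_eq_one.1 hprod).symm

/-- Products of ideals coprime to `𝔪` are coprime to `𝔪`. -/
theorem mul_sup_eq_top {I J 𝔪 : Ideal R} (hI : I ⊔ 𝔪 = ⊤) (hJ : J ⊔ 𝔪 = ⊤) : I * J ⊔ 𝔪 = ⊤ := by
  rw [← Ideal.isCoprime_iff_sup_eq] at hI hJ ⊢
  exact IsCoprime.mul_left hI hJ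

/-- If `I`, `I'` are coprime to `𝔪` and lie in the same class, then `(x) I = (y) I'` with `(x)`,
`(y)` coprime to `𝔪`. -/
theorem exists_span_mul_eq_span_mul_of_mk0_eq {I I' : (Ideal R)⁰} {𝔪 : Ideal R} (h𝔪 : 𝔪 ≠ 0)
    (hI : (I : Ideal R) ⊔ 𝔪 = ⊤) (hI' : (I' : Ideal R) ⊔ 𝔪 = ⊤)
    (h : ClassGroup.mk0 I = ClassGroup.mk0 I') :
    ∃ x y : R, x ≠ 0 ∧ y ≠ 0 ∧ Ideal.span {x} ⊔ 𝔪 = ⊤ ∧ Ideal.span {y} ⊔ 𝔪 = ⊤ ∧
      Ideal.span {x} * (I : Ideal R) = Ideal.span {y} * (I' : Ideal R) := by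
  obtain ⟨c, hc, hc𝔪⟩ := exists_mk0_eq_sup_eq_top (ClassGroup.mk0 I)⁻¹ h𝔪
  have h1 : ClassGroup.mk0 (c * I) = 1 := by rw [map_mul, hc, inv_mul_cancel]
  have h2 : ClassGroup.mk0 (c * I') = 1 := by rw [map_mul, hc, h, inv_mul_cancel]
  rw [ClassGroup.mk0_eq_one_iff] at h1 h2
  obtain ⟨y, hy⟩ := h1
  obtain ⟨x, hx⟩ := h2
  have hx' : ((c * I' : (Ideal R)⁰) : Ideal R) = Ideal.span {x} := hx
  have hy' : ((c * I : (Ideal R)⁰) : Ideal R) = Ideal.span {y} := hy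
  rw [Submonoid.coe_mul] at hx' hy'
  have hx0 : x ≠ 0 := by
    rintro rfl
    have : (c : Ideal R) * (I' : Ideal R) = 0 := by simpa using hx'
    exact mul_ne_zero (nonZeroDivisors.coe_ne_zero c) (nonZeroDivisors.coe_ne_zero I') this
  have hy0 : y ≠ 0 := by
    rintro rfl
    have : (c : Ideal R) * (I : Ideal R) = 0 := by simpa using hy'
    exact mul_ne_zero (nonZeroDivisors.coe_ne_zero c) (nonZeroDivisors.coe_ne_zero I) this
  refine ⟨x, y, hx0, hy0, ?_, ?_, ?_⟩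
  · rw [← hx']; exact mul_sup_eq_top hc𝔪 hI'
  · rw [← hy']; exact mul_sup_eq_top hc𝔪 hI
  · rw [← hx', ← hy']; ring

/-- A monoid hom on nonzero ideals with values in a group which kills the principal ideals
coprime to `𝔪` is constant on classes, on ideals coprime to `𝔪`. -/
theorem monoidHom_eq_of_mk0_eq {G : Type*} [Group G] (φ : (Ideal R)⁰ →* G) {𝔪 : Ideal R}
    (h𝔪 : 𝔪 ≠ 0)
    (hφ : ∀ (x : R) (hx : x ≠ 0), Ideal.span {x} ⊔ 𝔪 = ⊤ →
      φ ⟨Ideal.span {x}, mem_nonZeroDivisors_iff_ne_zero.2 (by simpa using hx)⟩ = 1)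
    {I I' : (Ideal R)⁰} (hI : (I : Ideal R) ⊔ 𝔪 = ⊤) (hI' : (I' : Ideal R) ⊔ 𝔪 = ⊤)
    (h : ClassGroup.mk0 I = ClassGroup.mk0 I') : φ I = φ I' := by
  obtain ⟨x, y, hx0, hy0, hx, hy, hxy⟩ := exists_span_mul_eq_span_mul_of_mk0_eq h𝔪 hI hI' h
  have key : (⟨Ideal.span {x}, mem_nonZeroDivisors_iff_ne_zero.2 (by simpa using hx0)⟩ :
      (Ideal R)⁰) * I = ⟨Ideal.span {y}, mem_nonZeroDivisors_iff_ne_zero.2 (by simpa using hy0)⟩
        * I' := Subtype.ext hxy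
  have := congrArg φ key
  rw [map_mul, map_mul, hφ x hx0 hx, hφ y hy0 hy, one_mul, one_mul] at this
  exact this

end Moving

end Fermat.Agent.ExtVan
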