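/-
S14 long shot, crossing final glue (helper1, hedge for helper8's final instantiation):
instantiation of `Crossing.pair_mem_normClasses` at `N := CyclotomicField l M`,
`T := fieldME K M hζ p`, from the landed bricks.
-/
import Fermat.Agent.ExtVan.Crossing.MEGroup
import Fermat.Agent.ExtVan.Crossing.NormPow
import Fermat.Agent.ExtVan.Crossing.ExplicitRecip
import Fermat.Agent.ExtVan.Crossing.NormClassBridge
import Fermat.Agent.ExtVan.Crossing.RamSource
import Fermat.Agent.ExtVan.Crossing.CycloDegOne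

set_option autoImplicit false
set_option linter.unusedSectionVars false
set_option linter.style.haveILetI false

open NumberField nonZeroDivisors IsDedekindDomain

namespace Fermat.Agent.ExtVan.CrossingAux

open Fermat.Agent.ExtVan Fermat.Agent.ExtVan.Crossing

section Glue

variable {p : ℕ} [hpF : Fact p.Prime] {K M : Type*} [Field K] [NumberField K]
  [IsCyclotomicExtension {p} ℚ K] [Field M] [NumberField M] [Algebra K M] [IsAbelianGalois K M]

/-- **The pair lemma with a given auxiliary prime `l`.** -/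
theorem pair_mem_normClasses_of_aux (hp2 : p ≠ 2) (hpM : Module.finrank K M = p)
    (hM : ∀ q : HeightOneSpectrum (𝓞 K), UnramAt K M q)
    {q₁ q₂ : HeightOneSpectrum (𝓞 K)} {k : ℕ} (h₁ : frob K M q₁ ≠ 1)
    (h₂ : frob K M q₂ = frob K M q₁ ^ k)
    {l : ℕ} (hl : l.Prime) (hlp : p ∣ l - 1)
    (hl₁ : ¬ l ∣ Ideal.absNorm q₁.asIdeal) (hl₂ : ¬ l ∣ Ideal.absNorm q₂.asIdeal)
    (hnp : ¬ ∃ c : ZMod l, c ^ p = (Ideal.absNorm q₁.asIdeal : ZMod l))
    (hc : ∃ c : ZMod l, (Ideal.absNorm q₂.asIdeal : ZMod l) =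
      (Ideal.absNorm q₁.asIdeal : ZMod l) ^ k * c ^ p) :
    ClassGroup.mk0 (primeIdeal K q₁ ^ k * primeIdeal K q₂ ^ (p - 1)) ∈ normClasses K M := by
  have hp : p.Prime := hpF.out
  haveI : Fact l.Prime := ⟨hl⟩
  haveI : NeZero l := ⟨hl.ne_zero⟩
  haveI : IsGalois ℚ K := IsCyclotomicExtension.isGalois {p} ℚ K
  have hlne : l ≠ p := by
    rintro rfl
    have h1 : l ≤ l - 1 := Nat.le_of_dvd (by have := hl.two_le; omega) hlp
    have := hl.two_le
    omega
  -- the field `N = M(ζ_l)`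
  let N := CyclotomicField l M
  haveI : IsAbelianGalois K N := isAbelianGalois_cyclo_tower M l
  have hζ : IsPrimitiveRoot (IsCyclotomicExtension.zeta l M N) l :=
    IsCyclotomicExtension.zeta_spec l M N
  have hT3 : ∀ g : Gal(N/K), AlgEquiv.restrictNormalHom M g = 1 → hζ.autToPow K g = 1 → g = 1 :=
    fun g h1 h2 => eq_one_of_restrictNormalHom_eq_one_of_autToPow_eq_one hζ g h1 h2
  have hT3' : ∀ g : Gal(N/K), AlgEquiv.restrictNormalHom M g = 1 → cycloChar K hζ g = 1 → g = 1 :=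
    hT3
  have hK : ∀ 𝔩 : Ideal (𝓞 K), 𝔩.IsPrime → (l : 𝓞 K) ∈ 𝔩 → 𝔩.ramificationIdx ℤ = 1 :=
    fun 𝔩 h𝔩 hmem => by
      haveI := h𝔩
      exact ramificationIdx_int_eq_one_of_ne (p := p) hl hlne 𝔩 hmem
  have hdeg : ∀ 𝔩 : Ideal (𝓞 K), 𝔩.IsPrime → (l : 𝓞 K) ∈ 𝔩 → Ideal.absNorm 𝔩 = l :=
    fun 𝔩 h𝔩 hmem => by
      haveI := h𝔩
      exact absNorm_eq_of_natCast_mem_of_dvd_sub_one (p := p) hl hlp 𝔩 hmem
  have hq₁N : UnramAt K N q₁ := unramAt_top_of_not_dvd hT3' hM hl₁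
  have hq₁T : UnramAt K (fieldME K M hζ p) q₁ := unramAt_fieldME_of_not_dvd hT3' hM hl₁
  have hq₂T : UnramAt K (fieldME K M hζ p) q₂ := unramAt_fieldME_of_not_dvd hT3' hM hl₂
  have hcop : Nat.Coprime l (Ideal.absNorm q₁.asIdeal) :=
    (Nat.Prime.coprime_iff_not_dvd hl).mpr hl₁
  have hexp : ∀ g : Gal((fieldME K M hζ p)/K), g ^ p = 1 := pow_eq_one_fieldME hpM
  have hTfix : ∀ g : Gal(N/K), g ∈ (fieldME K M hζ p).fixingSubgroup →
      ∃ u : (ZMod l)ˣ, hζ.autToPow K g = u ^ p := by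
    intro g hg
    rw [fixingSubgroup_fieldME, mem_gammaME_iff, mem_powSubgroup_iff] at hg
    obtain ⟨c, hc⟩ := hg.2
    exact ⟨c, hc.symm⟩
  refine pair_mem_normClasses (K := K) (M := M) (T := fieldME K M hζ p) hp hl hexp
    (unramAt_crossField hp hpM hM hq₁T h₁) hq₁T hq₂T h₁
    (frob_fieldME_eq_pow hp.ne_zero hT3' hM hl₁ hl₂ h₂ hc) hl₁ hl₂ ?_
    (index_normClasses_le _ _)
  intro β hβ hβl
  exact artin_spanS_eq_one hζ (fieldME K M hζ p) hl hp hTfix hexp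
    (fun q hq => unramAt_top_of_not_dvd hT3' hM hq) hl₁ hnp
    (fun β' => exists_pow_eq_absNorm_relNorm_crossField hζ hp2 hpM hM hT3 hK hdeg hq₁N h₁ hcop
      hnp β') β hβ hβl

end Glue

end Fermat.Agent.ExtVan.CrossingAux
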