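/-
S14 long shot (helper1): Artin reciprocity for everywhere unramified abelian extensions of degree
`p` of `K = ℚ(ζ_p)` (the Artin map kills principal ideals), assembled from the crossing bricks, and
`NoExt p`.
-/
import Fermat.Agent.ExtVan.Crossing.PairGlue
import Fermat.Agent.ExtVan.Crossing.ChooseL
import Fermat.Agent.ExtVan.Crossing.RecipOfPair
import Fermat.Agent.ExtVan.NoExt

set_option autoImplicit false
set_option linter.unusedSectionVars false
set_option linter.style.haveILetI false

open NumberField nonZeroDivisors IsDedekindDomain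

namespace Fermat.Agent.ExtVan.CrossingAux

open Fermat.Agent.ExtVan Fermat.Agent.ExtVan.Crossing

/-- **Reciprocity**: for `K = ℚ(ζ_p)`, `p` odd, and `M/K` abelian of degree `p` unramified
everywhere, the Artin map of `M/K` kills the principal ideals. -/
theorem artin_eq_one_of_isPrincipal {p : ℕ} [hpF : Fact p.Prime] (hp2 : p ≠ 2) {K M : Type*}
    [Field K] [NumberField K] [IsCyclotomicExtension {p} ℚ K] [Field M] [NumberField M]
    [Algebra K M] [IsAbelianGalois K M] (hpM : Module.finrank K M = p)
    (hunr : ∀ q : HeightOneSpectrum (𝓞 K), UnramAt K M q)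
    (I : (Ideal (𝓞 K))⁰) (hI : (I : Ideal (𝓞 K)).IsPrincipal) : artin K M I = 1 := by
  have hp3 : 2 < p := lt_of_le_of_ne hpF.out.two_le (Ne.symm hp2)
  haveI : NumberField.IsTotallyComplex K := IsCyclotomicExtension.Rat.isTotallyComplex K hp3
  refine artin_eq_one_of_isPrincipal_of_pair hpM hunr ?_ I hI
  intro q1 q2 k h1 h2 hD
  obtain ⟨l, hl, -, hlp, hl1, hl2, hnp, hc⟩ := exists_aux_prime_of_pair (p := p) q1 q2 hD k 0
  rw [← normClasses_eq_normClassSubgroup]
  exact pair_mem_normClasses_of_aux hp2 hpM hunr h1 h2 hl hlp hl1 hl2 hnp hc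

/-- `NoExt p` for every odd prime `p`. -/
theorem noExt {p : ℕ} [Fact p.Prime] (hp2 : p ≠ 2) : NoExt p :=
  noExt_of_reciprocity hp2 (fun _ _ _ _ _ _ _ _ _ _ hdeg hunr I hI =>
    artin_eq_one_of_isPrincipal hp2 hdeg hunr I hI)

end Fermat.Agent.ExtVan.CrossingAux
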