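/-
S14 long shot, crossing helper lemma (helper1): in a Galois extension of number fields the
relative norm of an ideal coprime to (the extension of) `𝔪` is coprime to `𝔪`.
-/
import Fermat.Agent.ExtVan.Crossing.NormResidue
import Fermat.Agent.ExtVan.Crossing.MovingLemma

set_option autoImplicit false
set_option linter.unusedSectionVars false

open NumberField

namespace Fermat.Agent.ExtVan

section RelNormCoprime

variable {F N : Type*} [Field F] [Field N] [NumberField F] [NumberField N] [Algebra F N]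
  [IsGalois F N]

/-- The relative norm of an ideal coprime to `𝔪 𝓞_N` is coprime to `𝔪`. -/
theorem relNorm_sup_eq_top (A : Ideal (𝓞 N)) (𝔪 : Ideal (𝓞 F))
    (h : A ⊔ 𝔪.map (algebraMap (𝓞 F) (𝓞 N)) = ⊤) : Ideal.relNorm (𝓞 F) A ⊔ 𝔪 = ⊤ := by
  by_contra hne
  obtain ⟨q, hq, hle⟩ := Ideal.exists_le_maximal _ hne
  have hqprime : q.IsPrime := hq.isPrime
  obtain ⟨⟨Q, hQprime, hQq⟩⟩ := (inferInstance : Nonempty (q.primesOver (𝓞 N)))
  have h1 : (1 : 𝓞 N) ∈ A ⊔ 𝔪.map (algebraMap (𝓞 F) (𝓞 N)) := by rw [h]; trivial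
  obtain ⟨a, ha, m, hm, ham⟩ := Submodule.mem_sup.1 h1
  have hmq : 𝔪 ≤ q := le_sup_right.trans hle
  have hNq : Ideal.relNorm (𝓞 F) A ≤ q := le_sup_left.trans hle
  -- every conjugate of `m` lies in `Q`
  have hσm : ∀ σ : Gal(N/F), σ • m ∈ Q := by
    intro σ
    have hle' : 𝔪.map (algebraMap (𝓞 F) (𝓞 N)) ≤
        Ideal.comap (MulSemiringAction.toRingHom Gal(N/F) (𝓞 N) σ) Q := by
      rw [Ideal.map_le_iff_le_comap]
      intro x hx
      rw [Ideal.mem_comap, Ideal.mem_comap]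
      have hx' : x ∈ q := hmq hx
      rw [hQq.over, Ideal.under_def, Ideal.mem_comap] at hx'
      have : MulSemiringAction.toRingHom Gal(N/F) (𝓞 N) σ (algebraMap (𝓞 F) (𝓞 N) x) =
          algebraMap (𝓞 F) (𝓞 N) x := by
        change σ • algebraMap (𝓞 F) (𝓞 N) x = _
        exact smul_algebraMap σ x
      rw [this]
      exact hx'
    exact hle' hm
  have hσa : ∀ σ : Gal(N/F), Ideal.Quotient.mk Q (σ • a) = 1 := by
    intro σ
    have : σ • a = 1 - σ • m := by
      rw [eq_sub_iff_add_eq, ← smul_add, ham, smul_one]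
    rw [this, map_sub, map_one, Ideal.Quotient.eq_zero_iff_mem.2 (hσm σ), sub_zero]
  have hnorm : algebraMap (𝓞 F) (𝓞 N) (Algebra.intNorm (𝓞 F) (𝓞 N) a) ∈ Q := by
    have h2 : Algebra.intNorm (𝓞 F) (𝓞 N) a ∈ Ideal.relNorm (𝓞 F) A := by
      rw [Ideal.relNorm_apply]
      exact Ideal.subset_span ⟨a, ha, rfl⟩
    have h3 := hNq h2
    rw [hQq.over, Ideal.under_def, Ideal.mem_comap] at h3
    exact h3
  rw [algebraMap_intNorm_eq_prod_smul, ← Ideal.Quotient.eq_zero_iff_mem, map_prod,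
    Finset.prod_congr rfl (fun σ _ => hσa σ), Finset.prod_const_one] at hnorm
  have : (1 : 𝓞 N) ∈ Q := by
    rw [← Ideal.Quotient.eq_zero_iff_mem, map_one]
    exact hnorm
  exact hQprime.ne_top ((Ideal.eq_top_iff_one Q).2 this)

/-- Special case `𝔪 = (l)` for a natural number `l`. -/
theorem relNorm_sup_span_natCast_eq_top (A : Ideal (𝓞 N)) (l : ℕ)
    (h : A ⊔ Ideal.span {(l : 𝓞 N)} = ⊤) :
    Ideal.relNorm (𝓞 F) A ⊔ Ideal.span {(l : 𝓞 F)} = ⊤ := by
  apply relNorm_sup_eq_top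
  rw [Ideal.map_span, Set.image_singleton, map_natCast]
  exact h

end RelNormCoprime

end Fermat.Agent.ExtVan
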